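import Fermat.Agent.HeckeTorus.Character
import Fermat.Agent.NaturalChebotarev.Counting

/-!
# Unimodular multiplicative functions on the ideals

If a multiplicative function has values `0` or of modulus `1` at the primes and modulus at most `1`
everywhere, its L-series has an Euler product; if moreover that series and those of its square and
its conjugate are entire, they have no zeros on `1 ≤ re s` and its mean over the primes is `0`.
-/

set_option autoImplicit false
set_option linter.unusedSectionVars false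

noncomputable section

open NumberField IsDedekindDomain Ideal Filter Topology Module FA.Ext FA.PrimeIdeal
open FA.Hecke (lHom lHom_apply heckeL fPow logF IsRayChar IsNontrivial exists_heckeG fiberSum
  fiberSum_le charWeight HasMean hasMean_of_psi hasMean_one)
open FA.AbelianZeta (normPow summable_norm_normPow)
open scoped nonZeroDivisors Classical ArithmeticFunction.vonMangoldt

namespace FA.HeckeTorus

variable {K : Type*} [Field K] [NumberField K]

/-- Modulus at most `1`, and `0` or `1` at the primes. -/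
structure Unimod (f : Ideal (𝓞 K) →* ℂ) : Prop where
  norm_le : ∀ I : Ideal (𝓞 K), I ≠ ⊥ → ‖f I‖ ≤ 1
  prime : ∀ v : HeightOneSpectrum (𝓞 K), f v.asIdeal = 0 ∨ ‖f v.asIdeal‖ = 1

variable {f : Ideal (𝓞 K) →* ℂ}

namespace Unimod

theorem summable_lHom (h : Unimod f) {s : ℂ} (hs : 1 < s.re) :
    Summable fun I : (Ideal (𝓞 K))⁰ => ‖lHom f s I‖ :=
  Summable.of_nonneg_of_le (fun _ => norm_nonneg _) (fun I => by
    rw [lHom_apply, norm_mul]
    exact mul_le_of_le_one_left (norm_nonneg _) (h.norm_le _ (nonZeroDivisors.coe_ne_zero I)))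
    (summable_norm_normPow hs)


theorem norm_fPow_le (h : Unimod f) (s : ℂ) (v : HeightOneSpectrum (𝓞 K)) :
    ‖fPow f s v‖ ≤ ‖primePow s v‖ := by
  rw [fPow, norm_mul]
  exact mul_le_of_le_one_left (norm_nonneg _) (h.norm_le _ v.ne_bot)

theorem norm_fPow_le_half (h : Unimod f) {s : ℂ} (hs : 1 ≤ s.re)
    (v : HeightOneSpectrum (𝓞 K)) : ‖fPow f s v‖ ≤ 1 / 2 :=
  (h.norm_fPow_le s v).trans (norm_primePow_le_half hs v)

theorem norm_logTerm_le (h : Unimod f) {s : ℂ} (hs : 1 ≤ s.re)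
    (v : HeightOneSpectrum (𝓞 K)) :
    ‖-Complex.log (1 - fPow f s v)‖ ≤ 3 / 2 * zN s.re (primeIdeal v) := by
  rw [norm_neg, sub_eq_add_neg]
  refine (Complex.norm_log_one_add_half_le_self
    ((norm_neg _).trans_le (h.norm_fPow_le_half hs v))).trans ?_
  rw [norm_neg, ← norm_primePow]
  exact mul_le_mul_of_nonneg_left (h.norm_fPow_le s v) (by norm_num)

theorem summable_logTerm (h : Unimod f) {s : ℂ} (hs : 1 < s.re) :
    Summable fun v : HeightOneSpectrum (𝓞 K) => -Complex.log (1 - fPow f s v) :=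
  Summable.of_norm_bounded ((summable_zN_primeIdeal hs).mul_left _) (h.norm_logTerm_le hs.le)

/-- **The Euler product.** -/
theorem exp_logF (h : Unimod f) {s : ℂ} (hs : 1 < s.re) :
    Complex.exp (logF f s) = heckeL f s := by
  have hlt : ∀ v, ‖lHom f s (primeIdeal v)‖ < 1 := fun v =>
    lt_of_le_of_lt (h.norm_fPow_le_half hs.le v) (by norm_num)
  have hp : HasProd _ (Complex.exp (logF f s)) := (h.summable_logTerm hs).hasSum.cexp
  refine tendsto_nhds_unique hp
    ((tendsto_eulerProduct _ (h.summable_lHom hs) hlt).congr fun V => ?_)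
  refine Finset.prod_congr rfl fun v _ => ?_
  rw [Function.comp_apply, Complex.exp_neg,
    Complex.exp_log (Complex.slitPlane_ne_zero (one_sub_mem_slitPlane
      (h.norm_fPow_le_half hs.le v)))]
  rfl

theorem heckeL_ne_zero (h : Unimod f) {s : ℂ} (hs : 1 < s.re) : heckeL f s ≠ 0 :=
  h.exp_logF hs ▸ Complex.exp_ne_zero _

theorem hasDerivAt_logTerm (h : Unimod f) {s : ℂ} (hs : 1 ≤ s.re)
    (v : HeightOneSpectrum (𝓞 K)) :
    HasDerivAt (fun z => -Complex.log (1 - fPow f z v))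
      (-((Real.log (absNorm v.asIdeal) : ℂ) * (fPow f s v / (1 - fPow f s v)))) s := by
  have hn : ((absNorm v.asIdeal : ℕ) : ℂ) ≠ 0 :=
    Nat.cast_ne_zero.mpr (zero_lt_two.trans_le (two_le_absNorm v)).ne'
  have h' := ((((hasDerivAt_id s).neg.const_cpow (c := ((absNorm v.asIdeal : ℕ) : ℂ))
    (Or.inl hn)).const_mul (f v.asIdeal)).const_sub 1).clog
      (one_sub_mem_slitPlane (h.norm_fPow_le_half hs v))
  refine h'.neg.congr_deriv ?_
  simp only [Pi.neg_apply, id_eq, Complex.natCast_log, fPow, primePow]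
  ring

/-- **The logarithmic derivative.** -/
theorem hasSum_negLogDeriv (h : Unimod f) {s : ℂ} (hs : 1 < s.re) :
    HasSum (fun v : HeightOneSpectrum (𝓞 K) =>
      (Real.log (absNorm v.asIdeal) : ℂ) * (fPow f s v / (1 - fPow f s v)))
      (-deriv (heckeL f) s / heckeL f s) := by
  obtain ⟨σ, hσ'⟩ : ∃ σ, σ = (1 + s.re) / 2 := ⟨_, rfl⟩
  have hσ : 1 < σ := by linarith
  have hV : IsOpen {z : ℂ | σ < z.re} := isOpen_lt continuous_const Complex.continuous_re
  have hsV : s ∈ {z : ℂ | σ < z.re} := show σ < s.re by linarith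
  have hb : ∀ (v : HeightOneSpectrum (𝓞 K)) (z : ℂ), z ∈ {z : ℂ | σ < z.re} →
      ‖-Complex.log (1 - fPow f z v)‖ ≤ 3 / 2 * zN σ (primeIdeal v) := fun v z hz =>
    (h.norm_logTerm_le (hσ.le.trans (le_of_lt hz)) v).trans (mul_le_mul_of_nonneg_left
      (Real.rpow_le_rpow_of_exponent_le (one_le_absNorm _) (neg_le_neg (le_of_lt hz)))
      (by norm_num))
  have hd : ∀ v : HeightOneSpectrum (𝓞 K),
      DifferentiableOn ℂ (fun z => -Complex.log (1 - fPow f z v)) {z : ℂ | σ < z.re} :=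
    fun v z hz =>
    (h.hasDerivAt_logTerm (hσ.le.trans (le_of_lt hz)) v).differentiableAt.differentiableWithinAt
  have hu := (summable_zN_primeIdeal (K := K) hσ).mul_left (3 / 2)
  have hL := Complex.hasSum_deriv_of_summable_norm hu hd hV hb hsV
  have hdiff : DifferentiableAt ℂ (logF f) s :=
    (Complex.differentiableOn_tsum_of_summable_norm hu hd hV hb).differentiableAt
      (hV.mem_nhds hsV)
  have hexp : deriv (heckeL f) s = deriv (logF f) s * heckeL f s := by
    have he : heckeL f =ᶠ[𝓝 s] fun z => Complex.exp (logF f z) := by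
      filter_upwards [(isOpen_lt continuous_const Complex.continuous_re).mem_nhds hs] with z hz
      exact (h.exp_logF hz).symm
    rw [he.deriv_eq, deriv_cexp hdiff, h.exp_logF hs, mul_comm]
  rw [hexp, ← neg_mul, mul_div_cancel_right₀ _ (h.heckeL_ne_zero hs)]
  refine hL.neg.congr_fun fun v => ?_
  rw [(h.hasDerivAt_logTerm hs.le v).deriv, neg_neg]

theorem mul (h : Unimod f) : Unimod (f * f) where
  norm_le I hI := by
    rw [MonoidHom.mul_apply, norm_mul]
    exact mul_le_one₀ (h.norm_le I hI) (norm_nonneg _) (h.norm_le I hI)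
  prime v := by
    rcases h.prime v with h0 | h1
    · left; simp [h0]
    · right; simp [h1]

theorem conj (h : Unimod f) : Unimod ((starRingEnd ℂ).toMonoidHom.comp f) where
  norm_le I hI := by simpa using h.norm_le I hI
  prime v := by simpa using h.prime v

/-- **The inequality of Mertens.** -/
theorem one_le_norm_product (h : Unimod f) {σ : ℝ} (hσ : 1 < σ) (t : ℝ) :
    1 ≤ ‖heckeL (1 : Ideal (𝓞 K) →* ℂ) σ ^ 3 * heckeL f (σ + t * Complex.I) ^ 4 *
      heckeL (f * f) (σ + 2 * t * Complex.I)‖ := by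
  have h1 : IsRayChar (⊤ : Ideal (𝓞 K)) (1 : Ideal (𝓞 K) →* ℂ) := IsRayChar.one
  have h₀ : 1 < ((σ : ℂ)).re := by simpa using hσ
  have h₁ : 1 < ((σ : ℂ) + t * Complex.I).re := by simpa using hσ
  have h₂ : 1 < ((σ : ℂ) + 2 * t * Complex.I).re := by simpa using hσ
  have H₀ := h1.summable_logTerm h₀
  have H₁ := h.summable_logTerm h₁
  have H₂ := h.mul.summable_logTerm h₂
  have hsum₀ := (Complex.hasSum_re H₀.hasSum).summable.mul_left 3
  have hsum₁ := (Complex.hasSum_re H₁.hasSum).summable.mul_left 4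
  have hsum₂ := (Complex.hasSum_re H₂.hasSum).summable
  rw [← h1.exp_logF h₀, ← h.exp_logF h₁, ← h.mul.exp_logF h₂]
  simp only [← Complex.exp_nat_mul, Nat.cast_ofNat, ← Complex.exp_add, Complex.norm_exp,
    Complex.add_re, Complex.mul_re, Complex.re_ofNat, Complex.im_ofNat, zero_mul, sub_zero,
    Real.one_le_exp_iff, logF]
  rw [Complex.re_tsum H₀, Complex.re_tsum H₁, Complex.re_tsum H₂, ← tsum_mul_left, ← tsum_mul_left,
    ← hsum₀.tsum_add hsum₁, ← (hsum₀.add hsum₁).tsum_add hsum₂]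
  refine tsum_nonneg fun v => ?_
  obtain ⟨n, hn'⟩ : ∃ n, n = absNorm v.asIdeal := ⟨_, rfl⟩
  have hn : 0 < n := hn' ▸ zero_lt_two.trans_le (two_le_absNorm v)
  have hn0 : (n : ℂ) ≠ 0 := Nat.cast_ne_zero.mpr hn.ne'
  have e₀ : fPow (1 : Ideal (𝓞 K) →* ℂ) (σ : ℂ) v = (((n : ℝ) ^ (-σ) : ℝ) : ℂ) := by
    rw [Complex.ofReal_cpow (Nat.cast_nonneg n)]; simp [fPow, primePow, hn']
  have ha : ((n : ℝ) ^ (-σ)) < 1 := by
    have := norm_primePow_le_half (s := (σ : ℂ)) h₀.le v
    rw [norm_primePow, Complex.ofReal_re, zN_primeIdeal, ← hn'] at this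
    linarith
  rcases h.prime v with hz0 | hz1
  · have hpos := re_log_comb (Real.rpow_nonneg (Nat.cast_nonneg n) (-σ)) ha (z := 1) (by simp)
    rw [one_pow, mul_one] at hpos
    rw [e₀, fPow, fPow, MonoidHom.mul_apply, hz0, zero_mul, zero_mul, sub_zero, zero_mul,
      sub_zero, Complex.log_one, neg_zero, Complex.zero_re]
    linarith
  obtain ⟨z, hz'⟩ : ∃ z : ℂ, z = f v.asIdeal * (n : ℂ) ^ (-((t : ℂ) * Complex.I)) := ⟨_, rfl⟩
  have hz : ‖z‖ = 1 := by
    rw [hz', norm_mul, hz1, Complex.norm_natCast_cpow_of_pos hn]; simp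
  have e₁ : fPow f ((σ : ℂ) + t * Complex.I) v =
      fPow (1 : Ideal (𝓞 K) →* ℂ) (σ : ℂ) v * z := by
    rw [fPow, fPow, primePow, primePow, ← hn', hz', neg_add, Complex.cpow_add _ _ hn0,
      MonoidHom.one_apply, one_mul]
    ring
  have e₂ : fPow (f * f) ((σ : ℂ) + 2 * t * Complex.I) v =
      fPow (1 : Ideal (𝓞 K) →* ℂ) (σ : ℂ) v * z ^ 2 := by
    rw [fPow, fPow, primePow, primePow, ← hn', hz', neg_add, Complex.cpow_add _ _ hn0, mul_pow,
      ← Complex.cpow_nat_mul, MonoidHom.mul_apply, MonoidHom.one_apply, one_mul,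
      show -(2 * (t : ℂ) * Complex.I) = ((2 : ℕ) : ℂ) * -((t : ℂ) * Complex.I) by push_cast; ring]
    ring
  rw [e₁, e₂, e₀]
  exact re_log_comb (by positivity) ha hz

/-- **No zeros on `1 ≤ re s`**, if the series of `f` and of `f * f` are entire. -/
theorem ext_ne_zero (h : Unimod f) {E E₂ : ℂ → ℂ}
    (hE : Differentiable ℂ E) (hE' : ∀ s : ℂ, 1 < s.re → heckeL f s = E s)
    (hE₂ : Differentiable ℂ E₂) (hE₂' : ∀ s : ℂ, 1 < s.re → heckeL (f * f) s = E₂ s) {s : ℂ}
    (hs : 1 ≤ s.re) : E s ≠ 0 := by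
  rcases hs.lt_or_eq with hlt | heq
  · rw [← hE' s hlt]; exact h.heckeL_ne_zero hlt
  intro h0
  obtain ⟨t, ht⟩ : ∃ t, t = s.im := ⟨_, rfl⟩
  have hst : s = 1 + t * Complex.I := Complex.ext (by simp [← heq]) (by simp [ht])
  obtain ⟨G, hG, -, hG'⟩ := exists_heckeG (IsRayChar.one (K := K))
  have hline : ∀ u : ℂ, Continuous fun σ : ℝ => (σ : ℂ) + u := fun u =>
    Complex.continuous_ofReal.add continuous_const
  obtain ⟨Φ, hΦ⟩ : ∃ Φ : ℝ → ℂ, Φ = fun σ : ℝ =>
      G σ ^ 3 * dslope E s (σ + t * Complex.I) ^ 4 * E₂ (σ + 2 * t * Complex.I) := ⟨_, rfl⟩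
  have hc₁ : ContinuousAt (fun σ : ℝ => dslope E s (σ + t * Complex.I)) 1 :=
    ((differentiable_dslope hE s) _).continuousAt.comp (hline _).continuousAt
  have hc₂ : ContinuousAt (fun σ : ℝ => E₂ (σ + 2 * t * Complex.I)) 1 :=
    (hE₂ _).continuousAt.comp (hline _).continuousAt
  have hΦ1 : ContinuousAt Φ 1 := hΦ ▸
    (((hG.continuous.comp Complex.continuous_ofReal).continuousAt.pow 3).mul (hc₁.pow 4)).mul hc₂
  have hlim : Tendsto (fun σ : ℝ => ‖((σ : ℂ) - 1) * Φ σ‖) (𝓝[>] 1) (𝓝 0) := by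
    have h' : ContinuousAt (fun σ : ℝ => ‖((σ : ℂ) - 1) * Φ σ‖) 1 :=
      ((Complex.continuous_ofReal.continuousAt.sub continuousAt_const).mul hΦ1).norm
    simpa using h'.tendsto.mono_left nhdsWithin_le_nhds
  have hge : ∀ᶠ σ : ℝ in 𝓝[>] 1, (1 : ℝ) ≤ ‖((σ : ℂ) - 1) * Φ σ‖ := by
    filter_upwards [self_mem_nhdsWithin] with σ hσ
    have hσ' : (1 : ℝ) < σ := hσ
    refine (h.one_le_norm_product hσ' t).trans_eq (congrArg norm ?_)
    have h₀ : 1 < ((σ : ℂ)).re := by simpa using hσ'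
    have h1 := sub_smul_dslope E s ((σ : ℂ) + t * Complex.I)
    rw [h0, sub_zero, smul_eq_mul, hst] at h1
    rw [hE' _ (by simpa using hσ'), hE₂' _ (by simpa using hσ'), hΦ, ← h1, hst]
    simp only [← hG' _ h₀]
    ring
  obtain ⟨σ, hσ1, hσ2⟩ := (hge.and (hlim.eventually (gt_mem_nhds zero_lt_one))).exists
  linarith



theorem abs_re_le (h : Unimod f) {z : ℂ} (hz : ‖z‖ ≤ 1)
    (p : HeightOneSpectrum (𝓞 K) × ℕ) : |(z * f p.1.asIdeal ^ (p.2 + 1)).re| ≤ 1 := by
  refine (Complex.abs_re_le_norm _).trans ?_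
  rw [norm_mul, norm_pow]
  exact mul_le_one₀ hz (by positivity) (pow_le_one₀ (norm_nonneg _) (h.norm_le _ p.1.ne_bot))

/-- **`ψ` of `1 + re (z f ^ m)`.** -/
theorem tendsto_psi_charWeight (h : Unimod f) {E E' : ℂ → ℂ}
    (hE : Differentiable ℂ E) (hE' : ∀ s : ℂ, 1 < s.re → heckeL f s = E s)
    (hE₂ : Differentiable ℂ E')
    (hE₂' : ∀ s : ℂ, 1 < s.re → heckeL ((starRingEnd ℂ).toMonoidHom.comp f) s = E' s)
    (hne : ∀ s : ℂ, 1 ≤ s.re → E s ≠ 0) (hne' : ∀ s : ℂ, 1 ≤ s.re → E' s ≠ 0) {z : ℂ}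
    (hz : ‖z‖ ≤ 1) :
    Tendsto (fun x => summatory (fiberSum (charWeight f z)) x / x) atTop (𝓝 1) := by
  have hone : IsRayChar (⊤ : Ideal (𝓞 K)) (1 : Ideal (𝓞 K) →* ℂ) := IsRayChar.one
  have ht : ¬IsNontrivial (1 : Ideal (𝓞 K) →* ℂ) := fun ⟨_, _, _, h1⟩ => h1 rfl
  obtain ⟨g, hg'⟩ : ∃ g : Ideal (𝓞 K) →* ℂ, g = (starRingEnd ℂ).toMonoidHom.comp f := ⟨_, rfl⟩
  rw [← hg'] at hE₂'
  have hg : Unimod g := hg' ▸ h.conj
  obtain ⟨G, hG, -, hG'⟩ := exists_heckeG hone
  have h0 : ∀ p, 0 ≤ charWeight f z p := fun p => by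
    linarith [(abs_le.mp (h.abs_re_le hz p)).1, show charWeight f z p = 1 + _ from rfl]
  have h2 : ∀ p, charWeight f z p ≤ 2 := fun p => by
    linarith [(abs_le.mp (h.abs_re_le hz p)).2, show charWeight f z p = 1 + _ from rfl]
  obtain ⟨U, hUdef⟩ : ∃ U : Set ℂ, U = {s | G s ≠ 0 ∧ E s ≠ 0 ∧ E' s ≠ 0} :=
    ⟨_, rfl⟩
  have hU : IsOpen U := by
    rw [hUdef]
    exact (isOpen_ne_fun hG.continuous continuous_const).inter
      ((isOpen_ne_fun hE.continuous continuous_const).inter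
        (isOpen_ne_fun hE₂.continuous continuous_const))
  refine tendsto_summatory (fun n => tsum_nonneg fun p : PowFiber K n =>
      mul_nonneg (h0 _) (Real.log_natCast_nonneg _))
    (C := 2 * (finrank ℚ K * (Real.log 4 + 4)))
    (mul_nonneg two_pos.le (mul_nonneg (Nat.cast_nonneg _)
      (add_nonneg (Real.log_nonneg (by norm_num)) (by norm_num))))
    (fun x hx => ?_) hU (fun s hs => ?_)
    (F := fun s => -deriv G s / G s + z / 2 * (-deriv E s / E s) +
      starRingEnd ℂ z / 2 * (-deriv E' s / E' s)) ?_ fun s hs => ?_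
  · refine (Finset.sum_le_sum fun n _ => fiberSum_le h0 h2 n).trans ?_
    rw [← Finset.mul_sum, ← Finset.mul_sum]
    have hψ : ∑ n ∈ Finset.Icc 1 ⌊x⌋₊, Λ n ≤ (Real.log 4 + 4) * x :=
      le_of_eq_of_le (by rw [Chebyshev.psi]; rfl) (Chebyshev.psi_le_const_mul_self hx)
    linarith [mul_le_mul_of_nonneg_left hψ (Nat.cast_nonneg (α := ℝ) (finrank ℚ K))]
  · rw [hUdef]
    exact ⟨hone.heckeG_ne_zero ht hG hG' hs, hne s hs, hne' s hs⟩
  · have hd : ∀ F : ℂ → ℂ, Differentiable ℂ F → (∀ s ∈ U, F s ≠ 0) →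
        DifferentiableOn ℂ (fun s => -deriv F s / F s) U := fun F hF hne =>
      ((hF.differentiableOn.deriv isOpen_univ).mono (Set.subset_univ _)).neg.div
        hF.differentiableOn hne
    refine ((hd G hG ?_).add ((hd E hE ?_).const_mul _)).add
      ((hd E' hE₂ ?_).const_mul _) <;> (intro s hs; rw [hUdef] at hs)
    exacts [hs.1, hs.2.1, hs.2.2]
  obtain ⟨c, hc⟩ : ∃ c : HeightOneSpectrum (𝓞 K) × ℕ → ℂ, c = fun p =>
      ((charWeight f z p * Real.log (absNorm p.1.asIdeal) : ℝ) : ℂ) := ⟨_, rfl⟩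
  have hB : ∀ p, ‖c p‖ ≤ 2 * Real.log (absNorm p.1.asIdeal) := fun p => by
    rw [hc, Complex.norm_real,
      Real.norm_of_nonneg (mul_nonneg (h0 p) (Real.log_natCast_nonneg _))]
    exact mul_le_mul_of_nonneg_right (h2 p) (Real.log_natCast_nonneg _)
  have he : (fun n => (fiberSum (charWeight f z) n : ℂ)) =
      fun n => ∑' p : PowFiber K n, c p.1 := by
    funext n
    rw [fiberSum, Complex.ofReal_tsum, hc]
  rw [he, (LSeries_fiber two_pos.le hB hs).2]
  obtain ⟨l, hl⟩ : ∃ l : HeightOneSpectrum (𝓞 K) → ℂ,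
      l = fun v => (Real.log (absNorm v.asIdeal) : ℂ) := ⟨_, rfl⟩
  have hfib : ∀ v : HeightOneSpectrum (𝓞 K), HasSum (fun k => c (v, k) * primePow s v ^ (k + 1))
      (l v * (fPow 1 s v / (1 - fPow 1 s v)) + z / 2 * (l v * (fPow f s v / (1 - fPow f s v))) +
        starRingEnd ℂ z / 2 * (l v * (fPow g s v / (1 - fPow g s v)))) := fun v => by
    have e : ∀ {a : ℂ}, ‖a‖ ≤ 1 / 2 → HasSum (fun k : ℕ => a ^ (k + 1)) (a / (1 - a)) :=
      fun {a} ha => by
        simpa [pow_succ', div_eq_mul_inv] using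
          (hasSum_geometric_of_norm_lt_one (ha.trans_lt (by norm_num))).mul_left a
    refine (((e (hone.norm_fPow_le_half hs.le v)).mul_left _).add
      (((e (h.norm_fPow_le_half hs.le v)).mul_left _).mul_left _)).add
        (((e (hg.norm_fPow_le_half hs.le v)).mul_left _).mul_left _) |>.congr_fun fun k => ?_
    simp only [hc, charWeight, hl, fPow, show g v.asIdeal = starRingEnd ℂ (f v.asIdeal) by
      rw [hg']; rfl, mul_pow, MonoidHom.one_apply, one_pow, Complex.ofReal_mul,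
      Complex.ofReal_add, Complex.ofReal_one, Complex.re_eq_add_conj, _root_.map_mul,
      _root_.map_pow]
    ring
  have hval := (summable_mul_pow two_pos.le hB hs).hasSum.prod_fiberwise hfib
  simp only [hl] at hval
  rw [hval.unique (((hone.hasSum_negLogDeriv hs).add
    ((h.hasSum_negLogDeriv hs).mul_left _)).add ((hg.hasSum_negLogDeriv hs).mul_left _))]
  have hV := (isOpen_lt continuous_const Complex.continuous_re).mem_nhds hs
  have hs1 := sub_one_ne_zero hs
  have eE : heckeL f =ᶠ[𝓝 s] E := by filter_upwards [hV] with y hy using hE' y hy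
  have eE₂ : heckeL g =ᶠ[𝓝 s] E' := by filter_upwards [hV] with y hy using hE₂' y hy
  have eG : heckeL (1 : Ideal (𝓞 K) →* ℂ) =ᶠ[𝓝 s] fun y => G y / (y - 1) := by
    filter_upwards [hV] with y hy
    rw [← hG' y hy, mul_div_cancel_left₀ _ (sub_one_ne_zero hy)]
  have hG0 : G s ≠ 0 := hone.heckeG_ne_zero ht hG hG' hs.le
  have hd : HasDerivAt (fun y => G y / (y - 1))
      ((deriv G s * (s - 1) - G s * 1) / (s - 1) ^ 2) s :=
    (hG s).hasDerivAt.div ((hasDerivAt_id s).sub_const 1) hs1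
  rw [eE.deriv_eq, eE.eq_of_nhds, eE₂.deriv_eq, eE₂.eq_of_nhds, eG.deriv_eq, eG.eq_of_nhds,
    hd.deriv, Complex.ofReal_one]
  field_simp
  ring

/-- **Mean `0` over the primes.** -/
theorem hasMean_zero (h : Unimod f) {E E' : ℂ → ℂ}
    (hE : Differentiable ℂ E) (hE' : ∀ s : ℂ, 1 < s.re → heckeL f s = E s)
    (hE₂ : Differentiable ℂ E')
    (hE₂' : ∀ s : ℂ, 1 < s.re → heckeL ((starRingEnd ℂ).toMonoidHom.comp f) s = E' s)
    (hne : ∀ s : ℂ, 1 ≤ s.re → E s ≠ 0) (hne' : ∀ s : ℂ, 1 ≤ s.re → E' s ≠ 0) :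
    HasMean (fun v => f v.asIdeal) 0 := by
  have hre : ∀ z : ℂ, ‖z‖ ≤ 1 → HasMean (fun v => (z * f v.asIdeal).re) 0 := fun z hz => by
    have h1 : HasMean (fun v => charWeight f z (v, 0)) 1 := by
      refine hasMean_of_psi (w := charWeight f z) (B := 2) (fun p => ?_) (fun p => ?_)
        (h.tendsto_psi_charWeight hE hE' hE₂ hE₂' hne hne' hz) ?_
      · linarith [(abs_le.mp (h.abs_re_le hz p)).1, show charWeight f z p = 1 + _ from rfl]
      · linarith [(abs_le.mp (h.abs_re_le hz p)).2, show charWeight f z p = 1 + _ from rfl]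
      · rw [show (fun p => 2 - charWeight f z p) = charWeight f (-z) from funext fun p => by
          simp [charWeight]; ring, show (2 : ℝ) - 1 = 1 by norm_num]
        exact h.tendsto_psi_charWeight hE hE' hE₂ hE₂' hne hne' (by rwa [norm_neg])
    simpa [charWeight] using h1.sub (hasMean_one K)
  have h1 := (hre 1 (by simp)).map (Complex.ofRealCLM)
  have h2 := (hre (-Complex.I) (by simp)).map (Complex.I • Complex.ofRealCLM)
  have h3 := h1.add h2
  simp only [map_zero, add_zero] at h3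
  convert h3 using 1
  funext v
  simp [mul_comm Complex.I]

end Unimod

namespace IsTorusChar

variable {𝔪 : Ideal (𝓞 K)} {t : InfinitePlace K → ℝ}
  {k : {w : InfinitePlace K // InfinitePlace.IsComplex w} → ℤ}

theorem unimod (h : IsTorusChar 𝔪 t k f) : Unimod f where
  norm_le _ hI := h.norm_le hI
  prime v := or_iff_not_imp_left.mpr fun h0 => h.norm_eq_one v.ne_bot h0

theorem double_ne (hne : t ≠ 0 ∨ k ≠ 0) : t + t ≠ 0 ∨ k + k ≠ 0 :=
  hne.imp (fun h e => h (funext fun w => by simpa using congrFun e w))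
    fun h e => h (funext fun w => by simpa using congrFun e w)

/-- **No zeros on `1 ≤ re s`.** -/
theorem entire_ne_zero (h : IsTorusChar 𝔪 t k f) (hne : t ≠ 0 ∨ k ≠ 0) {E : ℂ → ℂ}
    (hE : Differentiable ℂ E) (hE' : ∀ s : ℂ, 1 < s.re → heckeL f s = E s) {s : ℂ}
    (hs : 1 ≤ s.re) : E s ≠ 0 := by
  obtain ⟨E₂, hE₂, hE₂'⟩ := (h.mul h).exists_entire (double_ne hne)
  exact h.unimod.ext_ne_zero hE hE' hE₂ hE₂' hs

/-- **Mean `0` over the primes.** -/
theorem hasMean_zero (h : IsTorusChar 𝔪 t k f) (hne : t ≠ 0 ∨ k ≠ 0) :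
    HasMean (fun v => f v.asIdeal) 0 := by
  obtain ⟨E, hE, hE'⟩ := h.exists_entire hne
  have hne' : -t ≠ 0 ∨ -k ≠ 0 := hne.imp neg_ne_zero.mpr neg_ne_zero.mpr
  obtain ⟨E', hE₂, hE₂'⟩ := h.conj.exists_entire hne'
  exact h.unimod.hasMean_zero hE hE' hE₂ hE₂' (fun s hs => h.entire_ne_zero hne hE hE' hs)
    fun s hs => h.conj.entire_ne_zero hne' hE₂ hE₂' hs

end IsTorusChar

end FA.HeckeTorus

end
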