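import Fermat.Agent.HeckeTorus.Exists
import Fermat.Agent.HeckeTorus.Unimodular
import Fermat.Agent.GaussianAngles.Distribution

/-!
# The primes of a ray class and the characters of infinite order

For `v` in the class inverse to that of `J` the ideal `v J` has generators `x`, totally positive
and congruent to `1`. If every `exp (2 π i h α (x))`, `h ≠ 0`, is `infChar` of a character of
nonzero type then `α` of these generators is equidistributed modulo `1`.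
-/

set_option autoImplicit false
set_option linter.unusedSectionVars false

noncomputable section

open NumberField IsDedekindDomain Ideal Filter Topology Module
open FA.GaussAngle (expMeanZero_mul_add tendsto_count_Icc)
open FA.Hecke (coprimeIdeals IsRayElt RayClassGroup rayClass rayClass_eq_iff rayClass_surjective
  finite_rayClassGroup rayCharFn rayCharFn_apply isRayChar_rayCharFn rayInd HasMean hasMean_rayInd
  primesLE mem_primesLE wSum)
open FA.Ext (primeIdeal intEmb)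
open FA.Equidist (avg ExpMeanZero)
open FA.ThreePrimes (eAdd)
open scoped nonZeroDivisors Classical

namespace FA.HeckeTorus

variable {K : Type*} [Field K] [NumberField K] {𝔪 : Ideal (𝓞 K)} {t : InfinitePlace K → ℝ}
  {k : {w : InfinitePlace K // InfinitePlace.IsComplex w} → ℤ}

theorem isTorusChar_rayCharFn (h𝔪 : 𝔪 ≠ ⊥) (χ : RayClassGroup 𝔪 →* ℂˣ) :
    IsTorusChar 𝔪 0 0 (rayCharFn h𝔪 χ) :=
  ⟨h𝔪, (isRayChar_rayCharFn h𝔪 χ).ne_zero_iff, balanced_zero, fun x hx => by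
    rw [infChar_zero]
    exact (isRayChar_rayCharFn h𝔪 χ).ray x hx.1 hx.2.1 hx.2.2⟩

theorem sup_eq_top_of_mem {x : 𝓞 K} (h : x - 1 ∈ 𝔪) : Ideal.span {x} ⊔ 𝔪 = ⊤ := by
  rw [FA.Hecke.span_sup_congr h, Ideal.span_singleton_one, top_sup_eq]

/-- A class is trivial exactly at the ideals with a generator congruent to `1`. -/
theorem rayClass_eq_one_iff (h𝔪 : 𝔪 ≠ ⊥) (I : coprimeIdeals 𝔪) :
    rayClass h𝔪 I = 1 ↔ ∃ x : 𝓞 K, IsRayElt 𝔪 x ∧ Ideal.span {x} = I.1.1 := by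
  rw [← map_one (rayClass h𝔪), rayClass_eq_iff]
  constructor
  · rintro ⟨a, b, ha, hb, h⟩
    simp only [OneMemClass.coe_one, mul_one] at h
    have hb' : b ∈ Ideal.span {a} :=
      (Ideal.span_singleton_le_iff_mem _).mp (h ▸ Ideal.mul_le_left)
    obtain ⟨x, rfl⟩ := Ideal.mem_span_singleton.mp hb'
    refine ⟨x, ⟨fun h0 => hb.1 (by rw [h0, mul_zero]), ?_, fun ψ => ?_⟩, mul_left_cancel₀
      (show Ideal.span {a} ≠ (0 : Ideal (𝓞 K)) by simpa using ha.1) ?_⟩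
    · rw [show x - 1 = (a * x - 1) - (a - 1) * x by ring]
      exact 𝔪.sub_mem hb.2.1 (𝔪.mul_mem_right _ ha.2.1)
    · exact (mul_pos_iff_of_pos_left (ha.2.2 ψ)).mp (by
        rw [← map_mul, ← _root_.map_mul]; exact hb.2.2 ψ)
    · rw [Ideal.span_singleton_mul_span_singleton, h]
  · rintro ⟨x, hx1, hx⟩
    exact ⟨1, x, FA.Hecke.isRayElt_one, hx1, by simp [hx]⟩

/-- **A character times the indicator of a class has mean `0`.** -/
theorem hasMean_rayInd_mul (h𝔪 : 𝔪 ≠ ⊥) (γ : RayClassGroup 𝔪) (hne : t ≠ 0 ∨ k ≠ 0)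
    {f : Ideal (𝓞 K) →* ℂ} (hf : IsTorusChar 𝔪 t k f) :
    HasMean (fun v => (rayInd h𝔪 γ v : ℂ) * f v.asIdeal) 0 := by
  have := finite_rayClassGroup h𝔪
  have : Fintype (RayClassGroup 𝔪) := Fintype.ofFinite _
  let _ : Fintype (RayClassGroup 𝔪 →* ℂˣ) := FA.Weight1.fintypeDual (U := RayClassGroup 𝔪)
  have hchar : ∀ χ : RayClassGroup 𝔪 →* ℂˣ,
      HasMean (fun v => (f * rayCharFn h𝔪 χ) v.asIdeal) 0 := fun χ => by
    exact (hf.mul (isTorusChar_rayCharFn h𝔪 χ)).hasMean_zero (by rwa [add_zero, add_zero])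
  have h := HasMean.finset_sum Finset.univ fun χ _ => (hchar χ).map
    (((Nat.card (RayClassGroup 𝔪) : ℂ)⁻¹ * (χ γ⁻¹ : ℂ)) •
      ContinuousLinearMap.id ℂ ℂ |>.restrictScalars ℝ)
  simp only [ContinuousLinearMap.coe_restrictScalars', _root_.smul_apply,
    ContinuousLinearMap.id_apply, smul_eq_mul, mul_zero, Finset.sum_const_zero] at h
  convert h using 1
  funext v
  by_cases hv : v.asIdeal ⊔ 𝔪 = ⊤
  · have e : ∀ χ, (Nat.card (RayClassGroup 𝔪) : ℂ)⁻¹ * (χ γ⁻¹ : ℂ) *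
        (f * rayCharFn h𝔪 χ) v.asIdeal = (Nat.card (RayClassGroup 𝔪) : ℂ)⁻¹ * f v.asIdeal *
          (χ (γ⁻¹ * rayClass h𝔪 ⟨primeIdeal v, hv⟩) : ℂ) := fun χ => by
      rw [map_mul χ, Units.val_mul, ← rayCharFn_apply h𝔪 χ ⟨primeIdeal v, hv⟩, MonoidHom.mul_apply]
      show _ = _ * (_ * rayCharFn h𝔪 χ v.asIdeal)
      ring
    have hs : ∑ χ : RayClassGroup 𝔪 →* ℂˣ, (χ (γ⁻¹ * rayClass h𝔪 ⟨primeIdeal v, hv⟩) : ℂ) =
        if γ⁻¹ * rayClass h𝔪 ⟨primeIdeal v, hv⟩ = 1 then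
          (Fintype.card (RayClassGroup 𝔪) : ℂ) else 0 := by
      convert FA.Weight1.sum_char_apply (U := RayClassGroup 𝔪) _
    simp only [e, ← Finset.mul_sum, hs, rayInd, inv_mul_eq_one]
    by_cases hγ : rayClass h𝔪 ⟨primeIdeal v, hv⟩ = γ
    · rw [if_pos ⟨hv, hγ⟩, if_pos hγ.symm, Nat.card_eq_fintype_card, Complex.ofReal_one, one_mul,
        mul_right_comm, inv_mul_cancel₀ (Nat.cast_ne_zero.mpr Fintype.card_ne_zero), one_mul]
    · rw [if_neg fun ⟨_, h'⟩ => hγ h', if_neg (Ne.symm hγ), mul_zero, Complex.ofReal_zero,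
        zero_mul]
  · rw [rayInd, if_neg fun ⟨h', _⟩ => hv h',
      hf.eq_zero_of_not v.ne_bot hv]
    simp [hf.eq_zero_of_not v.ne_bot hv]

/-- `v J` has a generator congruent to `1`. -/
def HasGen (𝔪 : Ideal (𝓞 K)) (J : Ideal (𝓞 K)) (v : HeightOneSpectrum (𝓞 K)) : Prop :=
  ∃ x : 𝓞 K, IsRayElt 𝔪 x ∧ Ideal.span {x} = v.asIdeal * J

/-- One of the generators. -/
def genElt (𝔪 : Ideal (𝓞 K)) (J : Ideal (𝓞 K)) (v : HeightOneSpectrum (𝓞 K)) : 𝓞 K :=
  if h : HasGen 𝔪 J v then h.choose else 1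

theorem genElt_spec {J : Ideal (𝓞 K)} {v : HeightOneSpectrum (𝓞 K)} (h : HasGen 𝔪 J v) :
    IsRayElt 𝔪 (genElt 𝔪 J v) ∧ Ideal.span {genElt 𝔪 J v} = v.asIdeal * J := by
  rw [genElt, dif_pos h]
  exact h.choose_spec

theorem ne_zero_of_gen {J : Ideal (𝓞 K)} (hJ : J ≠ ⊥) {v : HeightOneSpectrum (𝓞 K)} {x : 𝓞 K}
    (hx : Ideal.span {x} = v.asIdeal * J) : x ≠ 0 := fun h0 =>
  mul_ne_zero v.ne_bot hJ (by rw [← hx, h0]; simp)

/-- The generators exist exactly in the class inverse to that of `J`. -/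
theorem hasGen_iff (h𝔪 : 𝔪 ≠ ⊥) (J : coprimeIdeals 𝔪) (v : HeightOneSpectrum (𝓞 K)) :
    HasGen 𝔪 J.1.1 v ↔ ∃ hv : v.asIdeal ⊔ 𝔪 = ⊤,
      rayClass h𝔪 ⟨primeIdeal v, hv⟩ = (rayClass h𝔪 J)⁻¹ := by
  constructor
  · rintro ⟨x, hx1, hx⟩
    have hv : v.asIdeal ⊔ 𝔪 = ⊤ :=
      (FA.Hecke.mul_sup_eq_top.mp (hx ▸ sup_eq_top_of_mem hx1.2.1)).1
    exact ⟨hv, eq_inv_of_mul_eq_one_left (by
      rw [← map_mul, rayClass_eq_one_iff]; exact ⟨x, hx1, hx⟩)⟩
  · rintro ⟨hv, h⟩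
    rw [eq_inv_iff_mul_eq_one, ← map_mul, rayClass_eq_one_iff] at h
    exact h

/-- The primes of norm at most `n` with a generator. -/
def genPrimes (𝔪 : Ideal (𝓞 K)) (J : Ideal (𝓞 K)) (n : ℕ) :
    Finset (HeightOneSpectrum (𝓞 K)) := (primesLE K n).filter (HasGen 𝔪 J)

theorem rayInd_eq (h𝔪 : 𝔪 ≠ ⊥) (J : coprimeIdeals 𝔪) (v : HeightOneSpectrum (𝓞 K)) :
    rayInd h𝔪 (rayClass h𝔪 J)⁻¹ v = if HasGen 𝔪 J.1.1 v then 1 else 0 := by
  rw [rayInd]
  exact if_congr (hasGen_iff h𝔪 J v).symm rfl rfl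

theorem tendsto_card_genPrimes (h𝔪 : 𝔪 ≠ ⊥) (J : coprimeIdeals 𝔪) :
    Tendsto (fun n : ℕ => Real.log n / n * ((genPrimes 𝔪 J.1.1 n).card : ℝ)) atTop
      (𝓝 (Nat.card (RayClassGroup 𝔪) : ℝ)⁻¹) := by
  refine ((hasMean_rayInd h𝔪 (rayClass h𝔪 J)⁻¹).comp tendsto_natCast_atTop_atTop).congr fun n => ?_
  simp only [Function.comp_apply, wSum, Nat.floor_natCast, smul_eq_mul, rayInd_eq, genPrimes,
    Finset.sum_boole]

theorem tendsto_card_atTop (h𝔪 : 𝔪 ≠ ⊥) (J : coprimeIdeals 𝔪) :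
    Tendsto (fun n : ℕ => (genPrimes 𝔪 J.1.1 n).card) atTop atTop := by
  have := finite_rayClassGroup h𝔪
  have hc : (0 : ℝ) < (Nat.card (RayClassGroup 𝔪) : ℝ)⁻¹ :=
    inv_pos.mpr (Nat.cast_pos.mpr Nat.card_pos)
  have h0 : Tendsto (fun n : ℕ => Real.log n / n) atTop (𝓝 0) :=
    Real.isLittleO_log_id_atTop.tendsto_div_nhds_zero.comp tendsto_natCast_atTop_atTop
  refine tendsto_atTop.mpr fun b => ?_
  have hb : Tendsto (fun n : ℕ => Real.log n / n * b) atTop (𝓝 0) := by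
    simpa using h0.mul_const (b : ℝ)
  filter_upwards [(tendsto_card_genPrimes h𝔪 J).eventually (lt_mem_nhds (half_lt_self hc)),
    hb.eventually (gt_mem_nhds (half_pos hc))] with n h1 h2
  by_contra hlt
  have h3 : ((genPrimes 𝔪 J.1.1 n).card : ℝ) ≤ b := by exact_mod_cast (not_le.mp hlt).le
  have h4 := mul_le_mul_of_nonneg_left h3
    (div_nonneg (Real.log_natCast_nonneg n) (Nat.cast_nonneg (α := ℝ) n))
  linarith

variable (K) in
theorem countable_primes : Countable (HeightOneSpectrum (𝓞 K)) :=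
  Set.countable_univ_iff.mp ((Set.countable_iUnion fun n : ℕ =>
    (primesLE K n).countable_toSet).mono fun v _ =>
      Set.mem_iUnion.mpr ⟨Ideal.absNorm v.asIdeal, mem_primesLE.mpr le_rfl⟩)

/-- A numbering of the primes. -/
def codeP : HeightOneSpectrum (𝓞 K) ↪ ℕ :=
  haveI := countable_primes K
  ⟨(exists_injective_nat _).choose, (exists_injective_nat _).choose_spec⟩

/-- The prime of a number. -/
def primeOf (n : ℕ) : HeightOneSpectrum (𝓞 K) :=
  haveI : Nonempty (HeightOneSpectrum (𝓞 K)) :=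
    let ⟨I, hI⟩ := Ideal.exists_maximal (𝓞 K)
    ⟨⟨I, hI.isPrime, Ring.ne_bot_of_isMaximal_of_not_isField hI (RingOfIntegers.not_isField K)⟩⟩
  Function.invFun (codeP (K := K)) n

theorem primeOf_code (v : HeightOneSpectrum (𝓞 K)) : primeOf (codeP v) = v :=
  haveI : Nonempty (HeightOneSpectrum (𝓞 K)) := ⟨v⟩
  Function.leftInverse_invFun (codeP (K := K)).injective v

/-- **Weyl's means from the characters.** -/
theorem expMeanZero_of_chars (h𝔪 : 𝔪 ≠ ⊥) (J : coprimeIdeals 𝔪) (α : 𝓞 K → ℝ)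
    (hchar : ∀ h : ℤ, h ≠ 0 → ∃ (t : InfinitePlace K → ℝ)
      (k : {w : InfinitePlace K // InfinitePlace.IsComplex w} → ℤ) (f : Ideal (𝓞 K) →* ℂ),
      (t ≠ 0 ∨ k ≠ 0) ∧ IsTorusChar 𝔪 t k f ∧
        ∀ x : 𝓞 K, IsRayElt 𝔪 x → infChar t k (intEmb K x) = eAdd ((h : ℝ) * α x)) :
    ExpMeanZero (fun n => (genPrimes 𝔪 J.1.1 n).map codeP)
      (fun m => α (genElt 𝔪 J.1.1 (primeOf m))) := by
  intro h hh
  obtain ⟨t, k, f, hne, hf, hfx⟩ := hchar h hh
  have hm := (((hasMean_rayInd_mul h𝔪 (rayClass h𝔪 J)⁻¹ hne hf).map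
    ((f J.1.1 • ContinuousLinearMap.id ℂ ℂ).restrictScalars ℝ)).comp tendsto_natCast_atTop_atTop)
  simp only [map_zero] at hm
  have hc : ((Nat.card (RayClassGroup 𝔪) : ℝ)⁻¹ : ℂ) ≠ 0 := by
    have := finite_rayClassGroup h𝔪
    simp [Nat.card_pos.ne']
  have hd : Tendsto (fun n : ℕ => ((Real.log n / n * (genPrimes 𝔪 J.1.1 n).card : ℝ) : ℂ)) atTop
      (𝓝 ((Nat.card (RayClassGroup 𝔪) : ℝ)⁻¹ : ℂ)) := by
    have h' := (Complex.continuous_ofReal.tendsto _).comp (tendsto_card_genPrimes h𝔪 J)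
    simpa [Function.comp_def] using h'
  have hq := hm.div hd hc
  rw [zero_div] at hq
  refine hq.congr' ?_
  filter_upwards [eventually_gt_atTop 1] with n hn
  have hl : (0 : ℝ) < Real.log n / n :=
    div_pos (Real.log_pos (by exact_mod_cast hn)) (by exact_mod_cast (zero_lt_one.trans hn))
  simp only [Pi.div_apply, Function.comp_apply, wSum, Nat.floor_natCast, avg, Finset.sum_map,
    Finset.card_map, primeOf_code, Complex.real_smul, Complex.ofReal_mul]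
  rw [mul_div_mul_left _ _ (Complex.ofReal_ne_zero.mpr hl.ne'), Complex.ofReal_natCast]
  congr 1
  rw [genPrimes, Finset.sum_filter]
  refine Finset.sum_congr rfl fun v _ => ?_
  simp only [ContinuousLinearMap.coe_restrictScalars', _root_.smul_apply,
    ContinuousLinearMap.id_apply, smul_eq_mul, rayInd_eq]
  split_ifs with hv
  · obtain ⟨h1, h2⟩ := genElt_spec hv
    rw [← hfx _ h1, ← hf.ray _ h1, h2, map_mul,
      Complex.ofReal_one, one_mul, mul_comm]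
  · simp

end FA.HeckeTorus

end
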