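import Fermat.Agent.HeckeTorus.InfType
import Fermat.Agent.NaturalChebotarev.Continuation

/-!
# Hecke characters of every infinity type

A multiplicative function on the ideals, nonzero exactly at those prime to `𝔪`, equal to
`infChar t k` at the totally positive principal ideals congruent to `1`. On principal ideals it is
`infChar t k` times a function of the residue and the signs, so the parts of its L-series are
combinations of sums of symbols; for `(t, k) ≠ 0` the residues at `1` vanish and it is entire.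
-/

set_option autoImplicit false
set_option linter.unusedSectionVars false

noncomputable section

open NumberField NumberField.mixedEmbedding NumberField.InfinitePlace IsDedekindDomain Module Filter
  Topology Ideal
open FA.Ext (intEmb intEmb_zero norm_intEmb)
open FA.PrimeIdeal (IsSymbol symTerm latSum lterm lterm_zero lterm_eq summable_lterm weightS
  weightS_zero isSymbol_weightS tsum_weightS_unit_smul summable_symTerm absNorm_span_pos
  norm_ne_zero_of_mem_cone eq_of_eq_halfPlane differentiable_dslope sub_one_ne_zero)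
open FA.Hecke (IsRayElt sgn signW isSymbol_signW sum_signW mul_pos_of_sgn_eq ray_pow ray_mul
  unitCount unitCount_pos span_sup_congr mul_sup_eq_top lHom lHom_apply heckeL classPart
  exists_coprime_class symZ exists_symZ exists_coset_symbol exists_ideal_symbol idealSum)
open FA.AbelianZeta (normPow summable_norm_normPow)
open scoped nonZeroDivisors Classical ContDiff

namespace FA.HeckeTorus

variable {K : Type*} [Field K] [NumberField K]

/-- **A Hecke character of infinity type `(t, k)` modulo `𝔪` and the real places.** -/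
structure IsTorusChar (𝔪 : Ideal (𝓞 K)) (t : InfinitePlace K → ℝ)
    (k : {w : InfinitePlace K // IsComplex w} → ℤ) (f : Ideal (𝓞 K) →* ℂ) : Prop where
  ne_bot : 𝔪 ≠ ⊥
  ne_zero_iff : ∀ I : Ideal (𝓞 K), I ≠ ⊥ → (f I ≠ 0 ↔ I ⊔ 𝔪 = ⊤)
  balanced : Balanced t
  ray : ∀ x : 𝓞 K, IsRayElt 𝔪 x → f (Ideal.span {x}) = infChar t k (intEmb K x)

variable {𝔪 : Ideal (𝓞 K)} {t t' : InfinitePlace K → ℝ}
  {k k' : {w : InfinitePlace K // IsComplex w} → ℤ} {f f' : Ideal (𝓞 K) →* ℂ}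

theorem norm_intEmb_ne_zero {x : 𝓞 K} (hx : x ≠ 0) : mixedEmbedding.norm (intEmb K x) ≠ 0 := by
  rw [norm_intEmb, Nat.cast_ne_zero]
  exact (absNorm_span_pos hx).ne'

theorem infChar_intEmb_mul {x y : 𝓞 K} (hx : x ≠ 0) (hy : y ≠ 0) :
    infChar t k (intEmb K (x * y)) = infChar t k (intEmb K x) * infChar t k (intEmb K y) := by
  rw [← infChar_mul (norm_intEmb_ne_zero hx) (norm_intEmb_ne_zero hy)]
  simp [intEmb]

namespace IsTorusChar

theorem eq_zero_of_not (h : IsTorusChar 𝔪 t k f) {I : Ideal (𝓞 K)} (hI : I ≠ ⊥)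
    (hc : ¬I ⊔ 𝔪 = ⊤) : f I = 0 :=
  not_not.mp fun h0 => hc ((h.ne_zero_iff I hI).mp h0)

theorem norm_eq_one (h : IsTorusChar 𝔪 t k f) {I : Ideal (𝓞 K)} (hI : I ≠ ⊥) (h0 : f I ≠ 0) :
    ‖f I‖ = 1 := by
  have hc := (h.ne_zero_iff I hI).mp h0
  let I₀ : (Ideal (𝓞 K))⁰ := ⟨I, mem_nonZeroDivisors_iff_ne_zero.mpr hI⟩
  have h1 : ClassGroup.mk0 (I₀ ^ classNumber K) = 1 := by
    rw [_root_.map_pow, classNumber, pow_card_eq_one]
  obtain ⟨x, hx⟩ := (ClassGroup.mk0_eq_one_iff (SetLike.coe_mem (I₀ ^ classNumber K))).mp h1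
  have hx' : I ^ classNumber K = Ideal.span {x} := hx
  have hx0 : x ≠ 0 := fun h0 => pow_ne_zero (classNumber K) hI (by rw [hx', h0]; simp)
  have hcx : Ideal.span {x} ⊔ 𝔪 = ⊤ := by
    rw [← hx', ← Ideal.isCoprime_iff_sup_eq]
    exact (Ideal.isCoprime_iff_sup_eq.mpr hc).pow_left
  have hv := h.ray _ (ray_pow h.ne_bot hx0 hcx)
  rw [← Ideal.span_singleton_pow, ← hx', ← pow_mul, _root_.map_pow] at hv
  have hn := congrArg norm hv
  rw [norm_pow, norm_infChar (norm_intEmb_ne_zero (pow_ne_zero _ hx0))] at hn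
  exact (pow_eq_one_iff_of_nonneg (norm_nonneg _)
    (Nat.mul_pos (classNumber_pos K) (Nat.mul_pos two_pos (unitCount_pos h.ne_bot))).ne').mp hn

theorem norm_le (h : IsTorusChar 𝔪 t k f) {I : Ideal (𝓞 K)} (hI : I ≠ ⊥) : ‖f I‖ ≤ 1 := by
  by_cases h0 : f I = 0
  · simp [h0]
  · exact (h.norm_eq_one hI h0).le

theorem mul (h : IsTorusChar 𝔪 t k f) (h' : IsTorusChar 𝔪 t' k' f') :
    IsTorusChar 𝔪 (t + t') (k + k') (f * f') where
  ne_bot := h.ne_bot
  ne_zero_iff I hI := by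
    rw [MonoidHom.mul_apply, mul_ne_zero_iff, h.ne_zero_iff I hI, h'.ne_zero_iff I hI, and_self]
  balanced := h.balanced.add h'.balanced
  ray x hx := by
    rw [MonoidHom.mul_apply, h.ray x hx, h'.ray x hx, infChar_add (norm_intEmb_ne_zero hx.1)]

theorem conj (h : IsTorusChar 𝔪 t k f) :
    IsTorusChar 𝔪 (-t) (-k) ((starRingEnd ℂ).toMonoidHom.comp f) where
  ne_bot := h.ne_bot
  ne_zero_iff I hI := by
    rw [MonoidHom.comp_apply, ← h.ne_zero_iff I hI]
    exact _root_.map_ne_zero (starRingEnd ℂ)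
  balanced := h.balanced.neg
  ray x hx := by
    rw [MonoidHom.comp_apply, h.ray x hx, infChar_neg (norm_intEmb_ne_zero hx.1)]
    rfl

/-- **Only the residue and the signs matter, up to `infChar t k`.** -/
theorem div_eq_of_congr (h : IsTorusChar 𝔪 t k f) {x y : 𝓞 K} (hx : x ≠ 0) (hy : y ≠ 0)
    (hxy : x - y ∈ 𝔪) (hs : ∀ φ : K →+* ℝ, 0 < φ x * φ y) :
    f (Ideal.span {x}) / infChar t k (intEmb K x) =
      f (Ideal.span {y}) / infChar t k (intEmb K y) := by
  by_cases hc : Ideal.span {y} ⊔ 𝔪 = ⊤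
  · have hyN := pow_ne_zero (2 * unitCount 𝔪 - 1) hy
    have e1 := h.ray _ (ray_mul h.ne_bot hx hy hc hxy hs)
    have e2 := h.ray _ (ray_mul h.ne_bot hy hy hc (by simp) fun φ => mul_self_pos.mpr
      ((map_ne_zero _).mpr (RingOfIntegers.coe_ne_zero_iff.mpr hy)))
    rw [← Ideal.span_singleton_mul_span_singleton, _root_.map_mul, infChar_intEmb_mul hx hyN] at e1
    rw [← Ideal.span_singleton_mul_span_singleton, _root_.map_mul, infChar_intEmb_mul hy hyN] at e2
    have h0 : f (Ideal.span {y ^ (2 * unitCount 𝔪 - 1)}) ≠ 0 := fun h0 => by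
      rw [h0, mul_zero] at e1
      exact mul_ne_zero (infChar_ne_zero (norm_intEmb_ne_zero hx))
        (infChar_ne_zero (norm_intEmb_ne_zero hyN)) e1.symm
    rw [div_eq_div_iff (infChar_ne_zero (norm_intEmb_ne_zero hx))
      (infChar_ne_zero (norm_intEmb_ne_zero hy))]
    refine mul_right_cancel₀ h0 ?_
    linear_combination infChar t k (intEmb K y) * e1 - infChar t k (intEmb K x) * e2
  · rw [h.eq_zero_of_not (by simpa using hy) hc,
      h.eq_zero_of_not (by simpa using hx) (by rwa [span_sup_congr hxy]), zero_div, zero_div]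

end IsTorusChar

/-- The value on a residue with given signs. -/
def torVal (𝔪 : Ideal (𝓞 K)) (t : InfinitePlace K → ℝ)
    (k : {w : InfinitePlace K // IsComplex w} → ℤ) (f : Ideal (𝓞 K) →* ℂ)
    (c : (𝓞 K ⧸ 𝔪) × ({w : InfinitePlace K // IsReal w} → Bool)) : ℂ :=
  if h : ∃ x : 𝓞 K, x ≠ 0 ∧ Ideal.Quotient.mk 𝔪 x = c.1 ∧ sgn (intEmb K x) = c.2 then
    f (Ideal.span {h.choose}) / infChar t k (intEmb K h.choose) else 0

/-- The two symbols of given signs: real and imaginary part. -/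
def torW (t : InfinitePlace K → ℝ) (k : {w : InfinitePlace K // IsComplex w} → ℤ)
    (L : ℂ →L[ℝ] ℝ) (σ : {w : InfinitePlace K // IsReal w} → Bool) (x : mixedSpace K) : ℝ :=
  signW σ x * L (infChar t k x)

theorem isSymbol_torW (ht : Balanced t) (k : {w : InfinitePlace K // IsComplex w} → ℤ)
    (L : ℂ →L[ℝ] ℝ) (σ : {w : InfinitePlace K // IsReal w} → Bool) :
    IsSymbol 0 (torW t k L σ) where
  smooth x hx := by
    by_cases hc : x ∈ FA.PrimeIdeal.cone K
    · exact ((isSymbol_signW σ).smooth x hx).mul (L.contDiff.contDiffAt.comp x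
        (contDiffAt_infChar (norm_ne_zero_of_mem_cone hc hx)))
    · refine (contDiffAt_const (c := (0 : ℝ))).congr_of_eventuallyEq ?_
      filter_upwards [(isSymbol_signW σ).eventually_eq_zero hc] with y hy
      simp [torW, hy]
  homog x r hr := by
    have e := (isSymbol_signW σ).homog x r hr
    rw [pow_zero, inv_one, one_mul] at e ⊢
    rw [torW, torW, e]
    by_cases h0 : signW σ x = 0
    · simp [h0]
    obtain ⟨hx, hc⟩ := (isSymbol_signW σ).supp x h0
    rw [infChar_smul ht (norm_ne_zero_of_mem_cone hc hx) hr]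
  supp x hx := (isSymbol_signW σ).supp x (left_ne_zero_of_mul hx)

/-- The complex term of given signs. -/
def torTerm (t : InfinitePlace K → ℝ) (k : {w : InfinitePlace K // IsComplex w} → ℤ)
    (σ : {w : InfinitePlace K // IsReal w} → Bool) (s : ℂ) (x : mixedSpace K) : ℂ :=
  symTerm (torW t k Complex.reCLM σ) s x + Complex.I * symTerm (torW t k Complex.imCLM σ) s x

theorem torTerm_eq (σ : {w : InfinitePlace K // IsReal w} → Bool) (s : ℂ) (x : mixedSpace K) :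
    torTerm t k σ s x = infChar t k x * ((signW σ x : ℂ) *
      Complex.exp (-s * (FA.PrimeIdeal.logN x : ℂ))) := by
  rw [torTerm, symTerm, symTerm, torW, torW]
  conv_rhs => rw [← Complex.re_add_im (infChar t k x)]
  simp only [Complex.reCLM_apply, Complex.imCLM_apply, Complex.ofReal_mul]
  ring

theorem summable_torTerm (ht : Balanced t) (σ : {w : InfinitePlace K // IsReal w} → Bool) {s : ℂ}
    (hs : 1 < s.re) : Summable fun x : 𝓞 K => torTerm t k σ s (intEmb K x) :=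
  (summable_symTerm (isSymbol_torW ht k _ σ) hs).add
    ((summable_symTerm (isSymbol_torW ht k _ σ) hs).mul_left _)

/-- **Cosets of `J` and the whole ring, for `torTerm`.** -/
theorem exists_torCoset (ht : Balanced t) (σ : {w : InfinitePlace K // IsReal w} → Bool) :
    ∃ Z : ℂ → ℂ, Differentiable ℂ Z ∧ ∀ (J : (Ideal (𝓞 K))⁰) (a : 𝓞 K), ∃ H : ℂ → ℂ,
      Differentiable ℂ H ∧ ∀ s : ℂ, 1 < s.re →
        (s - 1) * ∑' y : J.1, torTerm t k σ s (intEmb K (a + (y : 𝓞 K))) =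
          Z s / (absNorm J.1 : ℂ) + (s - 1) * H s := by
  have key : ∀ L : ℂ →L[ℝ] ℝ, ∃ Z : ℂ → ℂ, Differentiable ℂ Z ∧
      ∀ (J : (Ideal (𝓞 K))⁰) (a : 𝓞 K), ∃ H : ℂ → ℂ, Differentiable ℂ H ∧ ∀ s : ℂ, 1 < s.re →
        (s - 1) * ∑' y : J.1, symTerm (torW t k L σ) s (intEmb K (a + (y : 𝓞 K))) =
          Z s / (absNorm J.1 : ℂ) + (s - 1) * H s := fun L => by
    have hW := isSymbol_torW ht k L σ
    obtain ⟨Z, hZ, hZ'⟩ := exists_symZ hW
    refine ⟨Z, hZ, fun J a => ?_⟩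
    obtain ⟨H, hH, hH'⟩ := exists_coset_symbol hW J.1 (nonZeroDivisors.coe_ne_zero J) a
    obtain ⟨H₂, hH₂, hH₂'⟩ := exists_ideal_symbol hW J
    have hN : ((absNorm J.1 : ℕ) : ℂ) ≠ 0 :=
      Nat.cast_ne_zero.mpr (absNorm_ne_zero_of_nonZeroDivisors J)
    refine ⟨fun s => H s - H₂ s / (absNorm J.1 : ℂ), hH.sub (hH₂.div_const _), fun s hs => ?_⟩
    show _ = _ + (s - 1) * (H s - H₂ s / (absNorm J.1 : ℂ))
    rw [← hH' s hs, ← hH₂' s hs, ← hZ' s hs]
    field_simp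
    ring
  obtain ⟨Z₁, hZ₁, h₁⟩ := key Complex.reCLM
  obtain ⟨Z₂, hZ₂, h₂⟩ := key Complex.imCLM
  refine ⟨fun s => Z₁ s + Complex.I * Z₂ s, hZ₁.add (hZ₂.const_mul _), fun J a => ?_⟩
  obtain ⟨A, hA, hA'⟩ := h₁ J a
  obtain ⟨B, hB, hB'⟩ := h₂ J a
  refine ⟨fun s => A s + Complex.I * B s, hA.add (hB.const_mul _), fun s hs => ?_⟩
  have hs1 : ∀ L, Summable fun y : J.1 => symTerm (torW t k L σ) s (intEmb K (a + (y : 𝓞 K))) :=
    fun L => (summable_symTerm (isSymbol_torW ht k L σ) hs).comp_injective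
      ((add_right_injective a).comp Subtype.val_injective)
  simp only [torTerm]
  rw [(hs1 _).tsum_add ((hs1 _).mul_left _), tsum_mul_left, mul_add, hA' s hs,
    mul_left_comm (s - 1), hB' s hs]
  ring

namespace IsTorusChar

theorem idealTerm_eq (h : IsTorusChar 𝔪 t k f) (s : ℂ) (x : 𝓞 K) :
    f (Ideal.span {x}) * lterm s x =
      ∑ σ, torVal 𝔪 t k f (Ideal.Quotient.mk 𝔪 x, σ) * torTerm t k σ s (intEmb K x) := by
  have e : ∀ σ, torVal 𝔪 t k f (Ideal.Quotient.mk 𝔪 x, σ) * torTerm t k σ s (intEmb K x) =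
      torVal 𝔪 t k f (Ideal.Quotient.mk 𝔪 x, σ) * (signW σ (intEmb K x) : ℂ) *
        (infChar t k (intEmb K x) * Complex.exp (-s * (FA.PrimeIdeal.logN (intEmb K x) : ℂ))) :=
    fun σ => by rw [torTerm_eq]; ring
  simp only [e, ← Finset.sum_mul, sum_signW]
  rw [lterm, symTerm]
  rcases eq_or_ne x 0 with rfl | hx
  · simp [intEmb_zero, weightS_zero]
  · have hex : ∃ y : 𝓞 K, y ≠ 0 ∧ Ideal.Quotient.mk 𝔪 y = Ideal.Quotient.mk 𝔪 x ∧
        sgn (intEmb K y) = sgn (intEmb K x) := ⟨x, hx, rfl, rfl⟩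
    rw [torVal, dif_pos hex, h.div_eq_of_congr hex.choose_spec.1 hx
      (Ideal.Quotient.eq.mp hex.choose_spec.2.1)
      (mul_pos_of_sgn_eq hex.choose_spec.1 hx hex.choose_spec.2.2)]
    field_simp [infChar_ne_zero (t := t) (k := k) (norm_intEmb_ne_zero hx)]

theorem summable_idealTerm (h : IsTorusChar 𝔪 t k f) {s : ℂ} (hs : 1 < s.re) :
    Summable fun x : 𝓞 K => f (Ideal.span {x}) * lterm s x := by
  refine Summable.of_norm_bounded (summable_lterm (K := K) hs).norm fun x => ?_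
  rcases eq_or_ne x 0 with rfl | hx
  · simp [lterm_zero]
  · rw [norm_mul]
    exact mul_le_of_le_one_left (norm_nonneg _) (h.norm_le (by simpa using hx))

theorem summable_lHom (h : IsTorusChar 𝔪 t k f) {s : ℂ} (hs : 1 < s.re) :
    Summable fun I : (Ideal (𝓞 K))⁰ => ‖lHom f s I‖ :=
  Summable.of_nonneg_of_le (fun _ => norm_nonneg _) (fun I => by
    rw [lHom_apply, norm_mul]
    exact mul_le_of_le_one_left (norm_nonneg _) (h.norm_le (nonZeroDivisors.coe_ne_zero I)))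
    (summable_norm_normPow hs)

theorem heckeL_eq_sum (h : IsTorusChar 𝔪 t k f) {s : ℂ} (hs : 1 < s.re) :
    heckeL f s = ∑ C : ClassGroup (𝓞 K), classPart f C s := by
  have h' : Summable fun c => lHom f s
      ((Equiv.sigmaFiberEquiv (ClassGroup.mk0 (R := 𝓞 K))) c) :=
    (Equiv.sigmaFiberEquiv _).summable_iff.mpr (h.summable_lHom hs).of_norm
  rw [heckeL, ← (Equiv.sigmaFiberEquiv (ClassGroup.mk0 (R := 𝓞 K))).tsum_eq, h'.tsum_sigma,
    tsum_fintype]
  rfl

/-- **The sum over an ideal and the series of a class.** -/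
theorem idealSum_eq (h : IsTorusChar 𝔪 t k f) {C : ClassGroup (𝓞 K)} {J : (Ideal (𝓞 K))⁰}
    (hJ : ClassGroup.mk0 J = C⁻¹) {s : ℂ} (hs : 1 < s.re) :
    idealSum f J.1 s = Units.torsionOrder K * lHom f s J * classPart f C s := by
  obtain ⟨g, hg0, hg⟩ : ∃ g : {I : (Ideal (𝓞 K))⁰ // ClassGroup.mk0 I = C} → 𝓞 K,
      (∀ I, g I ≠ 0) ∧
        ∀ I, ((J * I.1 : (Ideal (𝓞 K))⁰) : Ideal (𝓞 K)) = Ideal.span {g I} := by
    have hp : ∀ I : {I : (Ideal (𝓞 K))⁰ // ClassGroup.mk0 I = C}, ∃ g : 𝓞 K, g ≠ 0 ∧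
        ((J * I.1 : (Ideal (𝓞 K))⁰) : Ideal (𝓞 K)) = Ideal.span {g} := fun I => by
      have h1 : ClassGroup.mk0 (J * I.1) = 1 := by
        rw [_root_.map_mul, hJ, I.2, inv_mul_cancel]
      obtain ⟨g, hg⟩ := (ClassGroup.mk0_eq_one_iff (SetLike.coe_mem (J * I.1))).mp h1
      exact ⟨g, fun h => nonZeroDivisors.coe_ne_zero (J * I.1) (hg.trans (by rw [h]; simp)), hg⟩
    choose g h1 h2 using hp
    exact ⟨g, h1, h2⟩
  let e : {I : (Ideal (𝓞 K))⁰ // ClassGroup.mk0 I = C} × (𝓞 K)ˣ → 𝓞 K := fun p =>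
    (p.2 : 𝓞 K) * g p.1
  have hspan : ∀ p, Ideal.span {e p} = ((J * p.1.1 : (Ideal (𝓞 K))⁰) : Ideal (𝓞 K)) := fun p => by
    rw [hg, Ideal.span_singleton_mul_left_unit p.2.isUnit]
  have he : Function.Injective e := by
    rintro ⟨I, u⟩ ⟨I', u'⟩ h'
    obtain rfl : I = I' := Subtype.ext (mul_left_cancel (Subtype.ext
      ((hspan (I, u)).symm.trans ((congrArg (fun v => Ideal.span {v}) h').trans (hspan (I', u'))))))
    exact Prod.ext rfl (Units.ext (mul_right_cancel₀ (hg0 I) h'))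
  obtain ⟨F, hF⟩ : ∃ F : 𝓞 K → ℂ, F = fun x =>
      if x ∈ J.1 then f (Ideal.span {x}) * lterm s x else 0 := ⟨_, rfl⟩
  have hsum : Summable F := Summable.of_norm_bounded (h.summable_idealTerm hs).norm fun x => by
    rw [hF]; simp only; split_ifs <;> simp [mul_nonneg]
  have hsupp : Function.support F ⊆ Set.range e := by
    intro x hx
    obtain ⟨hxJ, hx0⟩ : x ∈ J.1 ∧ x ≠ 0 := by
      by_contra hc
      refine hx ?_
      rw [hF]; simp only
      split_ifs with hJ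
      · obtain rfl : x = 0 := not_not.mp fun h0 => hc ⟨hJ, h0⟩
        rw [lterm_zero, mul_zero]
      · rfl
    obtain ⟨I, hI⟩ := Ideal.dvd_iff_le.mpr ((Ideal.span_singleton_le_iff_mem _).mpr hxJ)
    have hI0 : I ≠ 0 := fun h => hx0 (Ideal.span_singleton_eq_bot.mp
      (by rw [hI, h, mul_zero]; rfl))
    let I' : (Ideal (𝓞 K))⁰ := ⟨I, mem_nonZeroDivisors_iff_ne_zero.mpr hI0⟩
    have hC : ClassGroup.mk0 I' = C := by
      have : ClassGroup.mk0 (J * I') = 1 :=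
        (ClassGroup.mk0_eq_one_iff (SetLike.coe_mem (J * I'))).mpr ⟨x, hI.symm⟩
      rw [_root_.map_mul, hJ, inv_mul_eq_one] at this
      exact this.symm
    obtain ⟨u, hu⟩ := Ideal.span_singleton_eq_span_singleton.mp
      ((hg ⟨I', hC⟩).symm.trans hI.symm)
    exact ⟨(⟨I', hC⟩, u), by simpa [e, mul_comm] using hu⟩
  have hJF : idealSum f J.1 s = ∑' x, F x := by
    rw [← tsum_subtype_eq_of_support_subset (f := F) (s := (J.1 : Set (𝓞 K))) fun x hx =>
      by_contra fun hc => hx (by rw [hF]; exact if_neg hc)]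
    exact tsum_congr fun y => by rw [hF]; exact (if_pos y.2).symm
  rw [hJF, ← he.tsum_eq hsupp]
  refine (hsum.comp_injective he).tsum_prod.trans ?_
  simp only [Function.comp_apply]
  rw [classPart, ← tsum_mul_left]
  refine tsum_congr fun I => ?_
  have hn : mixedEmbedding.norm (intEmb K (g I)) ≠ 0 := norm_intEmb_ne_zero (hg0 I)
  have h1 : ∀ u : (𝓞 K)ˣ, F (e (I, u)) =
      lHom f s (J * I.1) * (weightS (u • intEmb K (g I)) : ℂ) := fun u => by
    have hmem : e (I, u) ∈ J.1 := by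
      have : e (I, u) ∈ Ideal.span {e (I, u)} := Ideal.mem_span_singleton_self _
      rw [hspan, Submonoid.coe_mul] at this
      exact (Ideal.mul_le_inf this).1
    rw [hF]
    simp only
    rw [if_pos hmem, lterm_eq, lHom_apply, show normPow s (J * I.1) =
        ((absNorm ((J * I.1 : (Ideal (𝓞 K))⁰) : Ideal (𝓞 K)) : ℕ) : ℂ) ^ (-s) from rfl, hspan]
    simp [e, intEmb, unitSMul_smul]
    ring
  rw [tsum_congr h1, tsum_mul_left, ← Complex.ofReal_tsum, tsum_weightS_unit_smul _ hn,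
    _root_.map_mul]
  push_cast
  ring

/-- **The sum over an ideal continues, with residue `R / N (J)`.** -/
theorem exists_idealSum (h : IsTorusChar 𝔪 t k f) : ∃ R : ℂ, ∀ J : (Ideal (𝓞 K))⁰, J.1 ⊔ 𝔪 = ⊤ →
    ∃ Φ : ℂ → ℂ, Differentiable ℂ Φ ∧ Φ 1 = R / (absNorm J.1 : ℂ) ∧
      ∀ s : ℂ, 1 < s.re → (s - 1) * idealSum f J.1 s = Φ s := by
  have : Finite (𝓞 K ⧸ 𝔪) := Ideal.finiteQuotientOfFreeOfNeBot 𝔪 h.ne_bot
  let _ : Fintype (𝓞 K ⧸ 𝔪) := Fintype.ofFinite _
  choose Z hZ hZ' using fun σ : {w : InfinitePlace K // IsReal w} → Bool =>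
    exists_torCoset (k := k) h.balanced σ
  refine ⟨(∑ c : 𝓞 K ⧸ 𝔪, ∑ σ, torVal 𝔪 t k f (c, σ) * Z σ 1) / (absNorm 𝔪 : ℂ),
    fun J hJ => ?_⟩
  obtain ⟨j, hj, l, hl, hjl⟩ := Submodule.mem_sup.mp ((Ideal.eq_top_iff_one _).mp hJ)
  let r : (𝓞 K ⧸ 𝔪) → 𝓞 K := fun c => Quotient.out c * j
  have hmk : ∀ c, Ideal.Quotient.mk 𝔪 (r c) = c := fun c => by
    refine (Ideal.Quotient.eq.mpr ?_).trans (Quotient.out_eq c)
    have : r c - Quotient.out c = -(Quotient.out c * l) := by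
      simp only [r]; linear_combination (Quotient.out c : 𝓞 K) * hjl
    rw [this]
    exact 𝔪.neg_mem (𝔪.mul_mem_left _ hl)
  obtain ⟨J', hJ'⟩ : ∃ J' : (Ideal (𝓞 K))⁰, J'.1 = J.1 * 𝔪 :=
    ⟨⟨_, mem_nonZeroDivisors_iff_ne_zero.mpr
      (mul_ne_zero (nonZeroDivisors.coe_ne_zero J) h.ne_bot)⟩, rfl⟩
  have hinf : J'.1 = J.1 ⊓ 𝔪 := hJ'.trans (Ideal.mul_eq_inf_of_coprime hJ)
  choose H hH hH' using fun (c : 𝓞 K ⧸ 𝔪) (σ : {w : InfinitePlace K // IsReal w} → Bool) =>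
    hZ' σ J' (r c)
  refine ⟨fun s => ∑ c, ∑ σ, torVal 𝔪 t k f (c, σ) *
      (Z σ s / (absNorm J'.1 : ℂ) + (s - 1) * H c σ s),
    Differentiable.fun_sum fun c _ => Differentiable.fun_sum fun σ _ =>
      (((hZ σ).div_const _).add ((differentiable_id.sub_const 1).mul (hH c σ))).const_mul _, ?_,
    fun s hs => ?_⟩
  · simp only [sub_self, zero_mul, add_zero, hJ', _root_.map_mul, Nat.cast_mul, Finset.sum_div,
      mul_div_assoc]
    refine Finset.sum_congr rfl fun c _ => Finset.sum_congr rfl fun σ _ => ?_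
    ring
  let e : (𝓞 K ⧸ 𝔪) × J'.1 → J.1 := fun cy => ⟨r cy.1 + (cy.2 : 𝓞 K),
    J.1.add_mem (J.1.mul_mem_left _ hj) ((hinf.le.trans inf_le_left) cy.2.2)⟩
  have hy : ∀ z : J'.1, Ideal.Quotient.mk 𝔪 (z : 𝓞 K) = 0 := fun z =>
    Ideal.Quotient.eq_zero_iff_mem.mpr ((hinf.le.trans inf_le_right) z.2)
  have he : Function.Bijective e := by
    constructor
    · rintro ⟨c, y⟩ ⟨c', y'⟩ h'
      have h'' : r c + (y : 𝓞 K) = r c' + (y' : 𝓞 K) := congrArg Subtype.val h'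
      obtain rfl : c = c' := by
        have := congrArg (Ideal.Quotient.mk 𝔪) h''
        simpa [hmk, hy] using this
      simpa using h''
    · intro x
      refine ⟨⟨Ideal.Quotient.mk 𝔪 x, ⟨(x : 𝓞 K) - r (Ideal.Quotient.mk 𝔪 x), ?_⟩⟩, ?_⟩
      · rw [hinf]
        refine ⟨J.1.sub_mem x.2 (J.1.mul_mem_left _ hj), ?_⟩
        show _ ∈ 𝔪
        rw [← Ideal.Quotient.eq_zero_iff_mem, map_sub, hmk, sub_self]
      · exact Subtype.ext (by simp [e])
  have hcoset : ∀ (c : 𝓞 K ⧸ 𝔪) (σ : {w : InfinitePlace K // IsReal w} → Bool),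
      Summable fun y : J'.1 => torTerm t k σ s (intEmb K (r c + (y : 𝓞 K))) := fun c σ =>
    (summable_torTerm h.balanced σ hs).comp_injective
      ((add_right_injective (r c)).comp Subtype.val_injective)
  have hsum : Summable fun cy => f (Ideal.span {(e cy : 𝓞 K)}) * lterm s (e cy : 𝓞 K) :=
    ((h.summable_idealTerm hs).comp_injective Subtype.val_injective).comp_injective he.1
  rw [idealSum, ← (Equiv.ofBijective e he).tsum_eq]
  simp only [Equiv.ofBijective_apply]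
  rw [hsum.tsum_prod, tsum_fintype, Finset.mul_sum]
  refine Finset.sum_congr rfl fun c _ => ?_
  have hrow : ∀ y : J'.1, f (Ideal.span {(e (c, y) : 𝓞 K)}) * lterm s (e (c, y) : 𝓞 K) =
      ∑ σ, torVal 𝔪 t k f (c, σ) * torTerm t k σ s (intEmb K (r c + (y : 𝓞 K))) := fun y => by
    have hc : Ideal.Quotient.mk 𝔪 (e (c, y) : 𝓞 K) = c := by
      show Ideal.Quotient.mk 𝔪 (r c + (y : 𝓞 K)) = c
      rw [map_add, hy, add_zero, hmk]
    rw [h.idealTerm_eq, hc]
  simp only [hrow]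
  rw [Summable.tsum_finsetSum fun σ _ => (hcoset c σ).mul_left _, Finset.mul_sum]
  refine Finset.sum_congr rfl fun σ _ => ?_
  rw [tsum_mul_left, mul_left_comm, hH' c σ s hs]

/-- **Entire for `(t, k) ≠ 0`.** -/
theorem exists_entire (h : IsTorusChar 𝔪 t k f) (hne : t ≠ 0 ∨ k ≠ 0) :
    ∃ E : ℂ → ℂ, Differentiable ℂ E ∧ ∀ s : ℂ, 1 < s.re → heckeL f s = E s := by
  obtain ⟨R, hR⟩ := h.exists_idealSum
  obtain ⟨τ, hτ⟩ : ∃ τ : ℂ, τ = (Units.torsionOrder K : ℂ) := ⟨_, rfl⟩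
  have hτ0 : τ ≠ 0 := hτ ▸ Nat.cast_ne_zero.mpr (Units.torsionOrder_pos K).ne'
  have key : ∀ (C : ClassGroup (𝓞 K)) (J : (Ideal (𝓞 K))⁰), ClassGroup.mk0 J = C⁻¹ →
      J.1 ⊔ 𝔪 = ⊤ → ∃ G : ℂ → ℂ, Differentiable ℂ G ∧ G 1 = R / (τ * f J.1) ∧
        ∀ s : ℂ, 1 < s.re → (s - 1) * classPart f C s = G s := by
    intro C J hJC hJ
    obtain ⟨Φ, hΦ, hΦ1, hΦ'⟩ := hR J hJ
    have hN : ((absNorm J.1 : ℕ) : ℂ) ≠ 0 :=
      Nat.cast_ne_zero.mpr (absNorm_ne_zero_of_nonZeroDivisors J)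
    have hfJ : f J.1 ≠ 0 := (h.ne_zero_iff _ (nonZeroDivisors.coe_ne_zero J)).mpr hJ
    refine ⟨fun s => Φ s * ((absNorm J.1 : ℕ) : ℂ) ^ s / (τ * f J.1),
      (hΦ.mul (differentiable_id.const_cpow (Or.inl hN))).div_const _, ?_, fun s hs => ?_⟩
    · simp only [hΦ1, Complex.cpow_one]
      rw [div_mul_cancel₀ R hN]
    · show _ = Φ s * _ / _
      rw [← hΦ' s hs, h.idealSum_eq hJC hs, lHom_apply, ← hτ,
        show normPow s J = ((absNorm J.1 : ℕ) : ℂ) ^ (-s) from rfl, Complex.cpow_neg]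
      field_simp [Complex.cpow_ne_zero_iff.mpr (Or.inl hN)]
  have hR0 : R = 0 := by
    obtain ⟨x, hx, hx1⟩ := exists_rayElt_ne_one h.balanced hne h.ne_bot
    obtain ⟨J, hJ⟩ : ∃ J : (Ideal (𝓞 K))⁰, J.1 = Ideal.span {x} :=
      ⟨⟨_, mem_nonZeroDivisors_iff_ne_zero.mpr fun e => hx.1 (Ideal.span_singleton_eq_bot.mp e)⟩,
        rfl⟩
    obtain ⟨G, hG, hG1, hG'⟩ := key 1 1 (by simp) (by simp [Ideal.one_eq_top])
    obtain ⟨G', hG₂, hG₂1, hG₂'⟩ := key 1 J
      (by rw [inv_one]; exact (ClassGroup.mk0_eq_one_iff (SetLike.coe_mem J)).mpr ⟨x, hJ⟩)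
      (by rw [hJ, span_sup_congr hx.2.1, Ideal.span_singleton_one, top_sup_eq])
    have e : G 1 = G' 1 := congrFun (eq_of_eq_halfPlane hG hG₂ fun s hs =>
      (hG' s hs).symm.trans (hG₂' s hs)) 1
    rw [hG1, hG₂1, OneMemClass.coe_one, _root_.map_one, hJ, h.ray x hx, mul_one,
      div_eq_div_iff hτ0 (mul_ne_zero hτ0 (infChar_ne_zero (norm_intEmb_ne_zero hx.1))),
      mul_left_comm, mul_comm R] at e
    exact (mul_eq_zero.mp (show τ * R * (infChar t k (intEmb K x) - 1) = 0 by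
      linear_combination e)).resolve_right (sub_ne_zero.mpr hx1) |>
        (mul_eq_zero.mp · |>.resolve_left hτ0)
  choose J hJC hJ using exists_coprime_class h.ne_bot
  choose G hG hG1 hG' using fun C => key C (J C) (hJC C) (hJ C)
  refine ⟨fun s => ∑ C, dslope (G C) 1 s,
    Differentiable.fun_sum fun C _ => differentiable_dslope (hG C) 1, fun s hs => ?_⟩
  rw [h.heckeL_eq_sum hs]
  refine Finset.sum_congr rfl fun C _ => ?_
  have h2 := sub_smul_dslope (G C) 1 s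
  rw [hG1, hR0, zero_div, sub_zero, ← hG' C s hs, smul_eq_mul] at h2
  exact (mul_left_cancel₀ (sub_one_ne_zero hs) h2).symm

end IsTorusChar

end FA.HeckeTorus

end
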