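import Fermat.Agent.HeckeTorus.Sectors
import Fermat.Agent.ImagQuadAngles.Forms

/-!
# Prime elements in cones

An open cone of totally positive points contains, after moving by units, the generators of a
positive proportion of the primes of every ray class. An integer `y` congruent to the inverse of
`β`, near the direction of a point `p`, reduces to this the generators congruent to `β` in a cone
around `p`, whatever the signs.
-/

set_option autoImplicit false
set_option linter.unusedSectionVars false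

noncomputable section

open NumberField NumberField.mixedEmbedding NumberField.InfinitePlace IsDedekindDomain Module
  Filter Topology MeasureTheory Ideal
open FA.Ext (intEmb intEmb_add)
open FA.PrimeIdeal (intEmb_natCast_mul)
open FA.Hecke (coprimeIdeals IsRayElt RayClassGroup primesLE mem_primesLE)
open scoped nonZeroDivisors Classical

namespace FA.HeckeTorus

variable {K : Type*} [Field K] [NumberField K] {𝔪 : Ideal (𝓞 K)}

/-- **A residue class meets every direction.** -/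
theorem exists_near (h𝔪 : 𝔪 ≠ ⊥) (a : 𝓞 K) {q : mixedSpace K} {U : Set (mixedSpace K)}
    (hU : U ∈ 𝓝 q) : ∃ y : 𝓞 K, y - a ∈ 𝔪 ∧ ∃ r : ℝ, 0 < r ∧ r • intEmb K y ∈ U := by
  obtain ⟨M, hM⟩ : ∃ M, M = absNorm 𝔪 := ⟨_, rfl⟩
  have hM0 : 0 < M := hM ▸ Nat.pos_of_ne_zero fun e => h𝔪 (absNorm_eq_zero_iff.mp e)
  obtain ⟨z, hz⟩ : ∃ z : ℕ → 𝓞 K, ∀ n : ℕ, intEmb K (z n) =
      (ZSpan.floor (latticeBasis K) ((n : ℝ) • q) : mixedSpace K) := by
    choose z hz using fun n : ℕ => (mem_span_latticeBasis K).mp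
      (ZSpan.floor (latticeBasis K) ((n : ℝ) • q)).2
    exact ⟨z, fun n => hz n⟩
  have hlim : Tendsto (fun n : ℕ => ((n : ℝ) * M)⁻¹ • intEmb K (a + (M : 𝓞 K) * z n))
      atTop (𝓝 q) := by
    obtain ⟨B, hB⟩ : ∃ B : ℝ, B = ‖intEmb K a‖ / M + ∑ i, ‖latticeBasis K i‖ := ⟨_, rfl⟩
    refine tendsto_iff_norm_sub_tendsto_zero.mpr (squeeze_zero' (Eventually.of_forall fun _ =>
      norm_nonneg _) ?_ (tendsto_const_div_atTop_nhds_zero_nat B))
    filter_upwards [eventually_gt_atTop 0] with n hn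
    have hn' : (0 : ℝ) < n := Nat.cast_pos.mpr hn
    have hM' : (0 : ℝ) < M := Nat.cast_pos.mpr hM0
    have e : ((n : ℝ) * M)⁻¹ • intEmb K (a + (M : 𝓞 K) * z n) - q = (n : ℝ)⁻¹ •
        ((M : ℝ)⁻¹ • intEmb K a - ZSpan.fract (latticeBasis K) ((n : ℝ) • q)) := by
      rw [intEmb_add, intEmb_natCast_mul, ZSpan.fract_apply, hz]
      simp only [smul_sub, smul_add, smul_smul]
      rw [inv_mul_cancel₀ hn'.ne', one_smul, mul_inv, mul_assoc, inv_mul_cancel₀ hM'.ne', mul_one]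
      abel
    rw [e, _root_.norm_smul, norm_inv, Real.norm_of_nonneg hn'.le, inv_mul_eq_div]
    refine div_le_div_of_nonneg_right ((norm_sub_le _ _).trans ?_) hn'.le
    rw [hB, _root_.norm_smul, norm_inv, Real.norm_of_nonneg hM'.le, inv_mul_eq_div]
    exact add_le_add le_rfl (ZSpan.norm_fract_le _ _)
  obtain ⟨n, h1, hn⟩ := ((hlim.eventually hU).and (eventually_gt_atTop 0)).exists
  refine ⟨a + (M : 𝓞 K) * z n, ?_, ((n : ℝ) * M)⁻¹,
    inv_pos.mpr (mul_pos (Nat.cast_pos.mpr hn) (Nat.cast_pos.mpr hM0)), h1⟩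
  rw [add_sub_cancel_left, hM]
  exact 𝔪.mul_mem_right _ (absNorm_mem 𝔪)

/-- **An open cone of totally positive points, in a ray class.** -/
theorem exists_count_open (h𝔪 : 𝔪 ≠ ⊥) (J : coprimeIdeals 𝔪) {C : Set (mixedSpace K)}
    (hC : IsOpen C) (hsm : ∀ x ∈ C, ∀ r : ℝ, 0 < r → r • x ∈ C) {q : mixedSpace K} (hqC : q ∈ C)
    (hq : q ∈ posSet K) :
    ∃ c : ℝ, 0 < c ∧ ∀ᶠ n : ℕ in atTop, c * (n : ℝ) / Real.log n ≤
      (((primesLE K n).filter fun v => (absNorm v.asIdeal).Prime ∧ ∃ x : 𝓞 K, IsRayElt 𝔪 x ∧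
        Ideal.span {x} = v.asIdeal * J.1.1 ∧ intEmb K x ∈ C).card : ℝ) := by
  obtain ⟨d, b, hb⟩ := exists_torusBasis h𝔪
  obtain ⟨r₀, hr₀⟩ : ∃ r₀ : Fin d → ℝ, r₀ = fun i => b.repr (coords q) i := ⟨_, rfl⟩
  have hW : {r : Fin d → ℝ | fromCoords (∑ i, r i • b i) ∈ C} ∈ 𝓝 r₀ := by
    refine (hC.preimage continuous_fromCoords_sum).mem_nhds ?_
    show fromCoords (∑ i, r₀ i • b i) ∈ C
    rw [hr₀, b.sum_repr]
    obtain ⟨s, hs, e⟩ := exists_smul_fromCoords hq
    rw [e]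
    exact hsm q hqC s hs
  obtain ⟨δ, hδ, hball⟩ := Metric.mem_nhds_iff.mp hW
  obtain ⟨θ₀, hθ₀⟩ : ∃ θ₀, θ₀ = torusPt b (coords q) := ⟨_, rfl⟩
  obtain ⟨G, hG⟩ : ∃ G : C(UnitAddTorus (Fin d), ℂ),
      ∀ θ, G θ = ((max 0 (δ - ‖θ - θ₀‖) : ℝ) : ℂ) :=
    ⟨⟨fun θ => ((max 0 (δ - ‖θ - θ₀‖) : ℝ) : ℂ), Complex.continuous_ofReal.comp
      (continuous_const.max (continuous_const.sub (continuous_id.sub continuous_const).norm))⟩,
      fun _ => rfl⟩
  -- where the weight is positive some generator lies in the cone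
  have hmove : ∀ v, HasGen 𝔪 J.1.1 v →
      0 < δ - ‖torusPt b (coords (intEmb K (genElt 𝔪 J.1.1 v))) - θ₀‖ →
      ∃ x : 𝓞 K, IsRayElt 𝔪 x ∧ Ideal.span {x} = v.asIdeal * J.1.1 ∧ intEmb K x ∈ C := by
    intro v hv hpos
    obtain ⟨h1, h2⟩ := genElt_spec hv
    obtain ⟨y, hy⟩ : ∃ y, y = genElt 𝔪 J.1.1 v := ⟨_, rfl⟩
    rw [← hy] at h1 h2 hpos
    obtain ⟨r, hr⟩ : ∃ r : Fin d → ℝ, r = fun i => b.repr (coords (intEmb K y)) i := ⟨_, rfl⟩
    obtain ⟨l, hl⟩ : ∃ l, l = -∑ i, (round (r i - r₀ i) : ℝ) • b i := ⟨_, rfl⟩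
    have hlm : l ∈ torLattice 𝔪 := (hb _).mpr fun i => ⟨-round (r i - r₀ i), by
      rw [hl, map_neg, Finsupp.neg_apply, b.repr_sum_self, Int.cast_neg]⟩
    have hmem : fromCoords (coords (intEmb K y) + l) ∈ C := by
      have e : coords (intEmb K y) + l = ∑ i, (r i - round (r i - r₀ i)) • b i := by
        rw [hl, hr]
        simp only [sub_smul, Finset.sum_sub_distrib, b.sum_repr, ← sub_eq_add_neg]
      rw [e]
      refine hball (Metric.mem_ball.mpr ?_)
      rw [dist_pi_lt_iff hδ]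
      intro i
      have h3 : ‖(torusPt b (coords (intEmb K y)) - θ₀) i‖ < δ :=
        (norm_le_pi_norm _ i).trans_lt (sub_pos.mp hpos)
      rw [hθ₀, Pi.sub_apply, torusPt, torusPt, ← AddCircle.coe_sub, UnitAddCircle.norm_eq] at h3
      rw [Real.dist_eq, hr, hr₀]
      rw [sub_right_comm]
      exact h3
    obtain ⟨u, hu, e⟩ := exists_unit_of_mem hlm
    obtain ⟨s, hs, e'⟩ := exists_smul_fromCoords (intEmb_mem_posSet h1)
    rw [fromCoords_add, e, e', smul_mul_assoc] at hmem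
    have h4 := hsm _ hmem s⁻¹ (inv_pos.mpr hs)
    rw [smul_smul, inv_mul_cancel₀ hs.ne', one_smul] at h4
    exact ⟨y * u, h1.mul hu, by rw [Ideal.span_singleton_mul_right_unit u.isUnit, h2],
      by simpa [intEmb] using h4⟩
  obtain ⟨P, hP⟩ : ∃ P : HeightOneSpectrum (𝓞 K) → Prop, P = fun v => ∃ x : 𝓞 K, IsRayElt 𝔪 x ∧
      Ideal.span {x} = v.asIdeal * J.1.1 ∧ intEmb K x ∈ C := ⟨_, rfl⟩
  have := FA.Hecke.finite_rayClassGroup h𝔪
  have := FA.BiluTorus.isProbability_torus (ι := Fin d)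
  obtain ⟨I, hI⟩ : ∃ I : ℝ, I = (∫ θ, (max 0 (δ - ‖θ - θ₀‖) : ℝ)) /
    (Nat.card (RayClassGroup 𝔪) : ℝ) := ⟨_, rfl⟩
  have hI0 : 0 < I := by
    rw [hI]
    refine div_pos ?_ (Nat.cast_pos.mpr Nat.card_pos)
    have hcont : Continuous fun θ : UnitAddTorus (Fin d) => max 0 (δ - ‖θ - θ₀‖) :=
      continuous_const.max (continuous_const.sub (continuous_id.sub continuous_const).norm)
    exact hcont.integral_pos_of_hasCompactSupport_nonneg_nonzero
      (HasCompactSupport.of_compactSpace _) (fun θ => le_max_left _ _) (x := θ₀) (by simp [hδ])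
  have hlim : Tendsto (fun n : ℕ => Real.log n / n *
      ∑ v ∈ genPrimes 𝔪 J.1.1 n,
        max 0 (δ - ‖torusPt b (coords (intEmb K (genElt 𝔪 J.1.1 v))) - θ₀‖)) atTop (𝓝 I) := by
    have h := (Complex.continuous_re.tendsto _).comp (tendsto_genVal h𝔪 hb J G)
    simp only [Function.comp_def, genVal, hG, integral_complex_ofReal] at h
    rw [← Complex.ofReal_natCast, ← Complex.ofReal_inv, ← Complex.ofReal_mul, Complex.ofReal_re,
      ← div_eq_mul_inv, ← hI] at h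
    refine h.congr fun n => ?_
    rw [← Complex.ofReal_sum, ← Complex.ofReal_mul, Complex.ofReal_re]
  have hz : Tendsto (fun n : ℕ => Real.log n / n * (((primesLE K n).filter fun v =>
      ¬(absNorm v.asIdeal).Prime ∧ P v).card : ℝ)) atTop (𝓝 0) := by
    have h0 : FA.Hecke.HasMean (fun v : HeightOneSpectrum (𝓞 K) =>
        if ¬(absNorm v.asIdeal).Prime ∧ P v then (1 : ℝ) else 0) 0 := by
      refine FA.Hecke.hasMean_congr ∅ Set.finite_empty (b := fun _ => 0) (B := 1) (fun v => ?_)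
        (fun v _ hv => if_neg fun h => h.1 hv) ?_
      · split_ifs <;> simp
      · simp [FA.Hecke.HasMean, FA.Hecke.wSum]
    refine (h0.comp tendsto_natCast_atTop_atTop).congr fun n => ?_
    simp only [Function.comp_apply, FA.Hecke.wSum, Nat.floor_natCast, smul_eq_mul,
      Finset.sum_boole]
  refine ⟨I / (4 * δ), by positivity, ?_⟩
  filter_upwards [hlim.eventually (lt_mem_nhds (half_lt_self hI0)),
    hz.eventually (gt_mem_nhds (show (0 : ℝ) < I / (4 * δ) by positivity)),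
    eventually_gt_atTop 1] with n hn hn0 hn1
  have hlog : 0 < Real.log n := Real.log_pos (by exact_mod_cast hn1)
  have hnpos : (0 : ℝ) < n := by exact_mod_cast zero_lt_one.trans hn1
  have hbound : ∑ v ∈ genPrimes 𝔪 J.1.1 n,
      max 0 (δ - ‖torusPt b (coords (intEmb K (genElt 𝔪 J.1.1 v))) - θ₀‖) ≤
        δ * (((primesLE K n).filter P).card : ℝ) := by
    refine le_trans (Finset.sum_le_sum (g := fun v => if P v then δ else 0) fun v hv => ?_) ?_
    · rcases le_or_gt (δ - ‖torusPt b (coords (intEmb K (genElt 𝔪 J.1.1 v))) - θ₀‖) 0 with h | h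
      · rw [max_eq_left h]; split_ifs <;> linarith
      · rw [if_pos (by rw [hP]; exact hmove v (Finset.mem_filter.mp hv).2 h), max_eq_right h.le]
        linarith [norm_nonneg (torusPt b (coords (intEmb K (genElt 𝔪 J.1.1 v))) - θ₀)]
    · rw [← Finset.sum_filter, Finset.sum_const, nsmul_eq_mul, mul_comm]
      refine mul_le_mul_of_nonneg_left (Nat.cast_le.mpr (Finset.card_le_card fun v hv => ?_)) hδ.le
      rw [genPrimes, Finset.filter_filter, Finset.mem_filter] at hv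
      exact Finset.mem_filter.mpr ⟨hv.1, hv.2.2⟩
  have hsplit := Finset.card_filter_add_card_filter_not (s := (primesLE K n).filter P)
    (fun v : HeightOneSpectrum (𝓞 K) => (absNorm v.asIdeal).Prime)
  rw [Finset.filter_filter, Finset.filter_filter] at hsplit
  simp only [hP] at hsplit hn0 hbound
  simp only [and_comm (b := Nat.Prime _), and_comm (b := ¬Nat.Prime _)] at hsplit
  rw [← hsplit, Nat.cast_add] at hbound
  have h1 := mul_le_mul_of_nonneg_left hbound (le_of_lt (div_pos hlog hnpos))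
  have h2 := mul_lt_mul_of_pos_left hn0 hδ
  rw [show δ * (I / (4 * δ)) = I / 4 by field_simp] at h2
  rw [mul_left_comm, mul_add, mul_add] at h1
  have h3 : I / 4 ≤ δ * (Real.log n / n * (((primesLE K n).filter fun v =>
      (absNorm v.asIdeal).Prime ∧ ∃ x : 𝓞 K, IsRayElt 𝔪 x ∧
        Ideal.span {x} = v.asIdeal * J.1.1 ∧ intEmb K x ∈ C).card : ℝ)) := by linarith
  rw [div_le_iff₀ hlog]
  field_simp at h3 ⊢
  linarith

/-- **Prime elements in a cone, in a residue class.** -/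
theorem exists_count_cone (h𝔪 : 𝔪 ≠ ⊥) {β : 𝓞 K} (hβ : Ideal.span {β} ⊔ 𝔪 = ⊤)
    {C : Set (mixedSpace K)} (hC : IsOpen C) (hsm : ∀ x ∈ C, ∀ r : ℝ, 0 < r → r • x ∈ C)
    {p : mixedSpace K} (hpC : p ∈ C) (hp : mixedEmbedding.norm p ≠ 0) :
    ∃ c : ℝ, 0 < c ∧ ∀ᶠ n : ℕ in atTop, c * (n : ℝ) / Real.log n ≤
      (((primesLE K n).filter fun v => (absNorm v.asIdeal).Prime ∧ ∃ x : 𝓞 K, x - β ∈ 𝔪 ∧
        Ideal.span {x} = v.asIdeal ∧ intEmb K x ∈ C).card : ℝ) := by
  obtain ⟨γ, hγ⟩ : ∃ γ : 𝓞 K, β * γ - 1 ∈ 𝔪 := by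
    obtain ⟨z, hz, l, hl, hzl⟩ := Submodule.mem_sup.mp ((Ideal.eq_top_iff_one _).mp hβ)
    obtain ⟨γ, rfl⟩ := Ideal.mem_span_singleton.mp hz
    exact ⟨γ, by rw [show β * γ - 1 = -l by linear_combination hzl]; exact 𝔪.neg_mem hl⟩
  obtain ⟨y, hyγ, r, hr, hnorm, hsign⟩ : ∃ y : 𝓞 K, y - γ ∈ 𝔪 ∧ ∃ r : ℝ, 0 < r ∧
      mixedEmbedding.norm (r • intEmb K y) ≠ 0 ∧
        ∀ w : {w : InfinitePlace K // IsReal w}, 0 < (r • intEmb K y).1 w * p.1 w := by
    have hU : {z : mixedSpace K | mixedEmbedding.norm z ≠ 0 ∧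
        ∀ w : {w : InfinitePlace K // IsReal w}, 0 < z.1 w * p.1 w} ∈ 𝓝 p :=
      (FA.PrimeIdeal.eventually_norm_ne_zero hp).and (eventually_all.mpr fun w =>
        ((((continuous_apply w).comp continuous_fst).mul continuous_const).tendsto p).eventually
          (lt_mem_nhds (mul_self_pos.mpr (fun h => place_ne_zero hp w.1 (by
            rw [normAtPlace_apply_of_isReal w.2, Subtype.coe_eta, show p.1 w = 0 from h,
              norm_zero])))))
    exact exists_near h𝔪 γ hU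
  have hy0 : y ≠ 0 := fun h => hnorm (by rw [h, intEmb]; simp)
  have hβy : β * y - 1 ∈ 𝔪 := by
    rw [show β * y - 1 = β * (y - γ) + (β * γ - 1) by ring]
    exact 𝔪.add_mem (𝔪.mul_mem_left _ hyγ) hγ
  have hycop : Ideal.span {y} ⊔ 𝔪 = ⊤ := by
    refine (Ideal.eq_top_iff_one _).mpr (Submodule.mem_sup.mpr
      ⟨β * y, Ideal.mem_span_singleton.mpr (dvd_mul_left y β), -(β * y - 1), 𝔪.neg_mem hβy, ?_⟩)
    ring
  let J : coprimeIdeals 𝔪 := ⟨⟨Ideal.span {y}, mem_nonZeroDivisors_iff_ne_zero.mpr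
    fun e => hy0 (Ideal.span_singleton_eq_bot.mp e)⟩, hycop⟩
  obtain ⟨Y, hY⟩ : ∃ Y : mixedSpace K, Y = mixedEmbedding K ((y : K)⁻¹) := ⟨_, rfl⟩
  have hYy : ∀ z, Y * (intEmb K y * z) = z := fun z => by
    rw [hY, intEmb, ← mul_assoc, ← map_mul,
      inv_mul_cancel₀ (RingOfIntegers.coe_ne_zero_iff.mpr hy0), map_one, one_mul]
  have hq : intEmb K y * p ∈ posSet K := by
    refine ⟨by rw [map_mul]; exact mul_ne_zero (norm_intEmb_ne_zero hy0) hp, fun w => ?_⟩
    have h := hsign w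
    rw [Prod.smul_fst, Pi.smul_apply, smul_eq_mul, mul_assoc, mul_pos_iff_of_pos_left hr] at h
    exact h
  obtain ⟨c, hc, h⟩ := exists_count_open h𝔪 J (C := posSet K ∩ (fun z => Y * z) ⁻¹' C)
    (isOpen_posSet.inter (hC.preimage (continuous_const.mul continuous_id)))
    (fun z hz s hs => ⟨smul_mem_posSet hz.1 hs, by
      show Y * (s • z) ∈ C
      rw [mul_smul_comm]
      exact hsm _ hz.2 s hs⟩)
    (q := intEmb K y * p) ⟨hq, show Y * (intEmb K y * p) ∈ C by rw [hYy]; exact hpC⟩ hq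
  refine ⟨c, hc, h.mono fun n hn => hn.trans (Nat.cast_le.mpr (Finset.card_le_card
    fun v hv => ?_))⟩
  rw [Finset.mem_filter] at hv ⊢
  obtain ⟨hvn, hvp, x', hx', hspan, -, hx'C⟩ := hv
  have hmem : x' ∈ Ideal.span {y} := by
    have h' : x' ∈ v.asIdeal * Ideal.span {y} := hspan ▸ Ideal.mem_span_singleton_self x'
    exact Ideal.mul_le_right (I := v.asIdeal) h'
  obtain ⟨x, rfl⟩ := Ideal.mem_span_singleton.mp hmem
  refine ⟨hvn, hvp, x, ?_, ?_, ?_⟩
  · rw [show x - β = β * (y * x - 1) - x * (β * y - 1) by ring]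
    exact 𝔪.sub_mem (𝔪.mul_mem_left _ hx'.2.1) (𝔪.mul_mem_left _ hβy)
  · refine mul_right_cancel₀ (show Ideal.span {y} ≠ (0 : Ideal (𝓞 K)) from
      fun e => hy0 (Ideal.span_singleton_eq_bot.mp e)) ?_
    rw [Ideal.span_singleton_mul_span_singleton, mul_comm x y]
    exact hspan
  · have e : intEmb K (y * x) = intEmb K y * intEmb K x := by simp [intEmb]
    rwa [Set.mem_preimage, e, hYy] at hx'C

end FA.HeckeTorus

end
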