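import Fermat.Agent.HeckeTorus.Ray

/-!
# The torus of a modulus

The coordinates of a totally positive point of `K ⊗ ℝ` up to positive scalars are the logarithms
`n_w (log ‖x_w‖ - log N (x) / [K : ℚ])`, `w ≠ w₀`, and the arguments at the complex places, in
turns. The units totally positive and congruent to `1` give, with the integers in the arguments,
a lattice of full rank there.
-/

set_option autoImplicit false
set_option linter.unusedSectionVars false

noncomputable section

open NumberField NumberField.mixedEmbedding NumberField.InfinitePlace Module Filter Topology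
open NumberField.Units NumberField.Units.dirichletUnitTheorem
open FA.Ext (intEmb)
open FA.Hecke (IsRayElt)
open FA.PrimeIdeal (logN)
open FA.ThreePrimes (eAdd eAdd_add eAdd_intCast)
open scoped nonZeroDivisors Classical

namespace FA.HeckeTorus

variable {K : Type*} [Field K] [NumberField K] {𝔪 : Ideal (𝓞 K)}

theorem eAdd_ne_zero (a : ℝ) : eAdd a ≠ 0 := Complex.exp_ne_zero _

theorem norm_eAdd_one (a : ℝ) : ‖eAdd a‖ = 1 := Complex.norm_exp_ofReal_mul_I _

theorem eAdd_eq_one_iff {a : ℝ} : eAdd a = 1 ↔ ∃ m : ℤ, a = m := by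
  refine ⟨fun h => ?_, fun ⟨m, hm⟩ => hm ▸ eAdd_intCast m⟩
  obtain ⟨m, hm⟩ := Complex.exp_eq_one_iff.mp h
  refine ⟨m, ?_⟩
  have h' := congrArg Complex.im hm
  simp at h'
  nlinarith [Real.pi_pos]

theorem eAdd_neg' (a : ℝ) : eAdd (-a) = (eAdd a)⁻¹ :=
  eq_inv_of_mul_eq_one_left (by rw [← eAdd_add, neg_add_cancel, FA.ThreePrimes.eAdd_zero])

/-- The direction of an argument in turns. -/
theorem eAdd_arg_div {z : ℂ} (hz : z ≠ 0) :
    eAdd (Complex.arg z / (2 * Real.pi)) = z / (‖z‖ : ℂ) := by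
  rw [eAdd, mul_div_cancel₀ _ (by positivity), eq_div_iff
    (Complex.ofReal_ne_zero.mpr (norm_ne_zero_iff.mpr hz)), mul_comm,
    Complex.norm_mul_exp_arg_mul_I]

variable (K) in
/-- Logarithms off `w₀` and arguments in turns. -/
abbrev CoordSpace := logSpace K × ({w : InfinitePlace K // IsComplex w} → ℝ)

/-- The totally positive points. -/
def posSet (K : Type*) [Field K] [NumberField K] : Set (mixedSpace K) :=
  {x | mixedEmbedding.norm x ≠ 0 ∧ ∀ w : {w : InfinitePlace K // IsReal w}, 0 < x.1 w}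

theorem mem_posSet {x : mixedSpace K} : x ∈ posSet K ↔
    mixedEmbedding.norm x ≠ 0 ∧ ∀ w : {w : InfinitePlace K // IsReal w}, 0 < x.1 w := Iff.rfl

theorem isOpen_posSet : IsOpen (posSet K) := by
  refine isOpen_iff_mem_nhds.mpr fun x hx => ?_
  exact (FA.PrimeIdeal.eventually_norm_ne_zero hx.1).and (eventually_all.mpr fun w =>
    (((continuous_apply w).comp continuous_fst).tendsto x).eventually (lt_mem_nhds (hx.2 w)))

theorem intEmb_mem_posSet {x : 𝓞 K} (hx : IsRayElt 𝔪 x) : intEmb K x ∈ posSet K :=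
  ⟨norm_intEmb_ne_zero hx.1, fun w => by
    show 0 < embedding_of_isReal w.2 (x : K)
    exact hx.2.2 _⟩

theorem mul_mem_posSet {x y : mixedSpace K} (hx : x ∈ posSet K) (hy : y ∈ posSet K) :
    x * y ∈ posSet K :=
  ⟨by rw [map_mul]; exact mul_ne_zero hx.1 hy.1, fun w => mul_pos (hx.2 w) (hy.2 w)⟩

theorem smul_mem_posSet {x : mixedSpace K} (hx : x ∈ posSet K) {r : ℝ} (hr : 0 < r) :
    r • x ∈ posSet K :=
  ⟨by rw [mixedEmbedding.norm_smul]; exact mul_ne_zero (by positivity) hx.1,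
    fun w => mul_pos hr (hx.2 w)⟩

/-- **The coordinates.** -/
def coords (x : mixedSpace K) : CoordSpace K :=
  (fun w => (mult w.1 : ℝ) * (Real.log (normAtPlace w.1 x) - logN x / finrank ℚ K),
    fun w => Complex.arg (x.2 w) / (2 * Real.pi))

/-- The logarithm at every place: the one at `w₀` makes the sum `0`. -/
def fullLog (v : CoordSpace K) (w : InfinitePlace K) : ℝ :=
  if h : w = w₀ then -∑ w', v.1 w' else v.1 ⟨w, h⟩

/-- The point of norm `1` with given coordinates. -/
def fromCoords (v : CoordSpace K) : mixedSpace K :=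
  (fun w => Real.exp (fullLog v w.1 / mult w.1),
    fun w => (Real.exp (fullLog v w.1 / mult w.1) : ℂ) * eAdd (v.2 w))

theorem sum_fullLog (v : CoordSpace K) : ∑ w, fullLog v w = 0 := by
  rw [Fintype.sum_eq_add_sum_subtype_ne _ w₀, fullLog, dif_pos rfl,
    Finset.sum_congr rfl fun w _ => show fullLog v w.1 = v.1 w by rw [fullLog, dif_neg w.2]]
  exact neg_add_cancel _

theorem fullLog_add (v v' : CoordSpace K) (w : InfinitePlace K) :
    fullLog (v + v') w = fullLog v w + fullLog v' w := by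
  simp only [fullLog]
  split_ifs with h <;> simp [Finset.sum_add_distrib, neg_add_rev, add_comm]

theorem normAtPlace_fromCoords (v : CoordSpace K) (w : InfinitePlace K) :
    normAtPlace w (fromCoords v) = Real.exp (fullLog v w / mult w) := by
  rcases isReal_or_isComplex w with h | h
  · rw [normAtPlace_apply_of_isReal h]
    exact Real.norm_of_nonneg (Real.exp_pos _).le
  · rw [normAtPlace_apply_of_isComplex h]
    show ‖(Real.exp (fullLog v w / mult w) : ℂ) * eAdd _‖ = _
    rw [norm_mul, norm_eAdd_one, mul_one, Complex.norm_real,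
      Real.norm_of_nonneg (Real.exp_pos _).le]

theorem fromCoords_mem_posSet (v : CoordSpace K) : fromCoords v ∈ posSet K :=
  ⟨mixedEmbedding.norm_ne_zero_iff.mpr fun w => by
    rw [normAtPlace_fromCoords]; exact (Real.exp_pos _).ne', fun _ => Real.exp_pos _⟩

theorem continuous_fullLog (w : InfinitePlace K) :
    Continuous fun v : CoordSpace K => fullLog v w := by
  simp only [fullLog]
  split_ifs with h
  · exact (continuous_finsetSum _ fun w' _ => (continuous_apply w').comp continuous_fst).neg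
  · exact (continuous_apply _).comp continuous_fst

theorem continuous_fromCoords : Continuous (fromCoords (K := K)) := by
  refine Continuous.prodMk (continuous_pi fun w => ?_) (continuous_pi fun w => ?_)
  · exact Real.continuous_exp.comp ((continuous_fullLog _).div_const _)
  · exact (Complex.continuous_ofReal.comp (Real.continuous_exp.comp
      ((continuous_fullLog _).div_const _))).mul (Complex.continuous_exp.comp
      ((Complex.continuous_ofReal.comp (continuous_const.mul
        ((continuous_apply w).comp continuous_snd))).mul continuous_const))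

theorem fullLog_coords {x : mixedSpace K} (hx : mixedEmbedding.norm x ≠ 0) (w : InfinitePlace K) :
    fullLog (coords x) w =
      (mult w : ℝ) * (Real.log (normAtPlace w x) - logN x / finrank ℚ K) := by
  have h0 : ∑ w, (mult w : ℝ) * (Real.log (normAtPlace w x) - logN x / finrank ℚ K) = 0 := by
    have hn : (finrank ℚ K : ℝ) ≠ 0 := Nat.cast_ne_zero.mpr finrank_pos.ne'
    simp only [mul_sub, Finset.sum_sub_distrib, ← Finset.sum_mul]
    rw [← Nat.cast_sum, sum_mult_eq, mul_div_cancel₀ _ hn, logN, mixedEmbedding.norm_apply,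
      Real.log_prod fun w _ => pow_ne_zero _ (place_ne_zero hx w)]
    simp [Real.log_pow]
  simp only [fullLog, coords]
  split_ifs with h
  · subst h
    rw [Fintype.sum_eq_add_sum_subtype_ne _ w₀] at h0
    linarith
  · rfl

/-- **A point is a positive multiple of the one with its coordinates.** -/
theorem exists_smul_fromCoords {x : mixedSpace K} (hx : x ∈ posSet K) :
    ∃ r : ℝ, 0 < r ∧ fromCoords (coords x) = r • x := by
  obtain ⟨r, hr⟩ : ∃ r : ℝ, r = Real.exp (-(logN x / finrank ℚ K)) := ⟨_, rfl⟩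
  have e : ∀ w : InfinitePlace K,
      Real.exp (fullLog (coords x) w / mult w) = r * normAtPlace w x := fun w => by
    rw [fullLog_coords hx.1, mul_div_cancel_left₀ _ (Nat.cast_ne_zero.mpr mult_ne_zero),
      sub_eq_add_neg, Real.exp_add, Real.exp_log
        (lt_of_le_of_ne (normAtPlace_nonneg _ _) (place_ne_zero hx.1 w).symm), hr, mul_comm]
  refine ⟨r, hr ▸ Real.exp_pos _, Prod.ext (funext fun w => ?_) (funext fun w => ?_)⟩
  · show Real.exp _ = r * x.1 w
    rw [e, normAtPlace_apply_of_isReal w.2, Real.norm_of_nonneg (hx.2 w).le]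
  · show (Real.exp _ : ℂ) * _ = r • x.2 w
    rw [e, normAtPlace_apply_of_isComplex w.2,
      show (coords x).2 w = Complex.arg (x.2 w) / (2 * Real.pi) from rfl,
      eAdd_arg_div (snd_ne_zero hx.1 w), Complex.real_smul, Complex.ofReal_mul, mul_assoc,
      mul_div_cancel₀ _ (Complex.ofReal_ne_zero.mpr (norm_ne_zero_iff.mpr (snd_ne_zero hx.1 w)))]

theorem fromCoords_add (v v' : CoordSpace K) :
    fromCoords (v + v') = fromCoords v * fromCoords v' := by
  refine Prod.ext (funext fun w => ?_) (funext fun w => ?_)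
  · show Real.exp _ = Real.exp _ * Real.exp _
    rw [← Real.exp_add, fullLog_add, add_div]
  · show (Real.exp _ : ℂ) * eAdd (v.2 w + v'.2 w) = (_ * _) * (_ * _)
    rw [eAdd_add, fullLog_add, add_div, Real.exp_add, Complex.ofReal_mul]
    ring

/-- **The lattice of the totally positive units congruent to `1`.** -/
def torLattice (𝔪 : Ideal (𝓞 K)) : Submodule ℤ (CoordSpace K) := AddSubgroup.toIntSubmodule
  { carrier := {v | ∃ u : (𝓞 K)ˣ, IsRayElt 𝔪 (u : 𝓞 K) ∧
      v.1 = logEmbedding K (Additive.ofMul u) ∧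
      ∀ w : {w : InfinitePlace K // IsComplex w}, eAdd (v.2 w) =
        w.1.embedding ((u : 𝓞 K) : K) / (‖w.1.embedding ((u : 𝓞 K) : K)‖ : ℂ)}
    zero_mem' := ⟨1, by rw [Units.val_one]; exact FA.Hecke.isRayElt_one,
      by rw [ofMul_one, map_zero]; rfl, fun w => by simp [FA.ThreePrimes.eAdd_zero]⟩
    add_mem' := by
      rintro v v' ⟨u, hu, h1, h2⟩ ⟨u', hu', h1', h2'⟩
      refine ⟨u * u', by rw [Units.val_mul]; exact hu.mul hu', ?_, fun w => ?_⟩
      · rw [ofMul_mul, map_add, Prod.fst_add, h1, h1']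
      · rw [Prod.snd_add, Pi.add_apply, eAdd_add, h2, h2', Units.val_mul]
        simp [mul_div_mul_comm]
    neg_mem' := by
      rintro v ⟨u, hu, h1, h2⟩
      refine ⟨u⁻¹, ⟨u⁻¹.ne_zero, ?_, fun χ => ?_⟩, ?_, fun w => ?_⟩
      · rw [show ((u⁻¹ : (𝓞 K)ˣ) : 𝓞 K) - 1 = -(((u : 𝓞 K) - 1) * ((u⁻¹ : (𝓞 K)ˣ) : 𝓞 K)) by
          rw [sub_mul, Units.mul_inv, one_mul, neg_sub]]
        exact 𝔪.neg_mem (𝔪.mul_mem_right _ hu.2.1)
      · refine (mul_pos_iff_of_pos_left (hu.2.2 χ)).mp ?_
        rw [← map_mul, ← _root_.map_mul, Units.mul_inv, map_one, map_one]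
        exact one_pos
      · rw [ofMul_inv, map_neg, Prod.fst_neg, h1]
      · rw [Prod.snd_neg, Pi.neg_apply, eAdd_neg', h2,
          show (((u⁻¹ : (𝓞 K)ˣ) : 𝓞 K) : K) = (((u : 𝓞 K) : K))⁻¹ from
            eq_inv_of_mul_eq_one_left (by rw [← map_mul, Units.inv_mul, map_one])]
        rw [map_inv₀, norm_inv, Complex.ofReal_inv, inv_div, inv_div_inv] }

theorem mem_torLattice {v : CoordSpace K} : v ∈ torLattice 𝔪 ↔ ∃ u : (𝓞 K)ˣ,
    IsRayElt 𝔪 (u : 𝓞 K) ∧ v.1 = logEmbedding K (Additive.ofMul u) ∧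
      ∀ w : {w : InfinitePlace K // IsComplex w}, eAdd (v.2 w) =
        w.1.embedding ((u : 𝓞 K) : K) / (‖w.1.embedding ((u : 𝓞 K) : K)‖ : ℂ) := Iff.rfl

theorem coords_unit (u : (𝓞 K)ˣ) (w : {w : InfinitePlace K // w ≠ w₀}) :
    (coords (intEmb K (u : 𝓞 K))).1 w = logEmbedding K (Additive.ofMul u) w := by
  simp [coords, logN, intEmb, logEmbedding_component, normAtPlace_apply]

theorem coords_unit_mem {u : (𝓞 K)ˣ} (hu : IsRayElt 𝔪 (u : 𝓞 K)) :
    coords (intEmb K (u : 𝓞 K)) ∈ torLattice 𝔪 :=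
  mem_torLattice.mpr ⟨u, hu, funext (coords_unit u), fun w =>
    eAdd_arg_div (snd_ne_zero (norm_intEmb_ne_zero hu.1) w)⟩

theorem int_mem_torLattice {v : CoordSpace K} (h1 : v.1 = 0) (h2 : ∀ w, eAdd (v.2 w) = 1) :
    v ∈ torLattice 𝔪 :=
  mem_torLattice.mpr ⟨1, by rw [Units.val_one]; exact FA.Hecke.isRayElt_one,
    by rw [ofMul_one, map_zero, h1], fun w => by simp [h2]⟩

/-- **Multiplication adds the coordinates modulo the lattice.** -/
theorem coords_mul_sub {x y : mixedSpace K} (hx : mixedEmbedding.norm x ≠ 0)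
    (hy : mixedEmbedding.norm y ≠ 0) :
    coords (x * y) - coords x - coords y ∈ torLattice 𝔪 := by
  refine int_mem_torLattice (funext fun w => ?_) fun w => ?_
  · simp only [coords, Prod.fst_sub, Pi.sub_apply, Pi.zero_apply, map_mul, logN,
      Real.log_mul (place_ne_zero hx w.1) (place_ne_zero hy w.1), Real.log_mul hx hy]
    ring
  · have hx' := snd_ne_zero hx w
    have hy' := snd_ne_zero hy w
    show eAdd (Complex.arg (x.2 w * y.2 w) / (2 * Real.pi) -
      Complex.arg (x.2 w) / (2 * Real.pi) - Complex.arg (y.2 w) / (2 * Real.pi)) = 1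
    simp only [sub_eq_add_neg,
      eAdd_add, eAdd_neg', eAdd_arg_div hx', eAdd_arg_div hy', eAdd_arg_div (mul_ne_zero hx' hy'),
      norm_mul, Complex.ofReal_mul]
    have := Complex.ofReal_ne_zero.mpr (norm_ne_zero_iff.mpr hx')
    have := Complex.ofReal_ne_zero.mpr (norm_ne_zero_iff.mpr hy')
    field_simp

theorem coords_smul {x : mixedSpace K} (hx : mixedEmbedding.norm x ≠ 0) {r : ℝ} (hr : 0 < r) :
    coords (r • x) = coords x := by
  refine Prod.ext (funext fun w => ?_) (funext fun w => ?_)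
  · simp only [coords, normAtPlace_smul, abs_of_pos hr, FA.PrimeIdeal.logN_real_smul hr hx,
      Real.log_mul hr.ne' (place_ne_zero hx w.1)]
    have hn : (finrank ℚ K : ℝ) ≠ 0 := Nat.cast_ne_zero.mpr finrank_pos.ne'
    field_simp
    ring
  · simp [coords, Prod.smul_snd, Complex.real_smul, Complex.arg_real_mul _ hr]

theorem exists_unit_of_mem {v : CoordSpace K} (hv : v ∈ torLattice 𝔪) :
    ∃ u : (𝓞 K)ˣ, IsRayElt 𝔪 (u : 𝓞 K) ∧ fromCoords v = intEmb K (u : 𝓞 K) := by
  obtain ⟨u, hu, h1, h2⟩ := mem_torLattice.mp hv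
  have hN : mixedEmbedding.norm (intEmb K (u : 𝓞 K)) ≠ 0 := norm_intEmb_ne_zero hu.1
  have e : ∀ w, Real.exp (fullLog v w / mult w) = normAtPlace w (intEmb K (u : 𝓞 K)) := fun w => by
    have hf : fullLog v w = (mult w : ℝ) * Real.log (normAtPlace w (intEmb K (u : 𝓞 K))) := by
      have h := fullLog_coords hN w
      rw [show logN (intEmb K (u : 𝓞 K)) = 0 by simp [logN, intEmb], zero_div, sub_zero] at h
      rw [← h]
      simp only [fullLog, h1, coords_unit]
    rw [hf, mul_div_cancel_left₀ _ (Nat.cast_ne_zero.mpr mult_ne_zero),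
      Real.exp_log (lt_of_le_of_ne (normAtPlace_nonneg _ _) (place_ne_zero hN w).symm)]
  refine ⟨u, hu, Prod.ext (funext fun w => ?_) (funext fun w => ?_)⟩
  · show Real.exp _ = _
    rw [e, normAtPlace_apply_of_isReal w.2, Real.norm_of_nonneg ((intEmb_mem_posSet hu).2 w).le]
  · show (Real.exp _ : ℂ) * _ = _
    rw [e, normAtPlace_apply_of_isComplex w.2, h2]
    exact mul_div_cancel₀ _ (Complex.ofReal_ne_zero.mpr (norm_ne_zero_iff.mpr (snd_ne_zero hN w)))

theorem single_mem_torLattice (w : {w : InfinitePlace K // IsComplex w}) :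
    ((0 : logSpace K), Pi.single w (1 : ℝ)) ∈ torLattice 𝔪 :=
  int_mem_torLattice rfl fun w' => by
    show eAdd ((Pi.single w (1 : ℝ) : {w : InfinitePlace K // IsComplex w} → ℝ) w') = 1
    rcases eq_or_ne w' w with rfl | h
    · rw [Pi.single_eq_same]; simpa using eAdd_intCast 1
    · rw [Pi.single_eq_of_ne h, FA.ThreePrimes.eAdd_zero]

instance instDiscrete_torLattice (𝔪 : Ideal (𝓞 K)) : DiscreteTopology (torLattice 𝔪) := by
  obtain ⟨ε, hε, hε'⟩ := Metric.isOpen_singleton_iff.mp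
    (isOpen_discrete ({0} : Set (unitLattice K)))
  obtain ⟨m, hm⟩ : ∃ m : ℝ, m = Units.torsionOrder K := ⟨_, rfl⟩
  have hm0 : 0 < m := hm ▸ Nat.cast_pos.mpr (Units.torsionOrder_pos K)
  refine discreteTopology_of_isOpen_singleton_zero (Metric.isOpen_singleton_iff.mpr
    ⟨min ε (1 / m), lt_min hε (by positivity), fun y hy => ?_⟩)
  rw [Subtype.dist_eq, ZeroMemClass.coe_zero, dist_zero_right] at hy
  obtain ⟨u, hu, h1, h2⟩ := mem_torLattice.mp y.2
  have hu0 : logEmbedding K (Additive.ofMul u) = 0 := by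
    have h := hε' ⟨_, ⟨Additive.ofMul u, trivial, rfl⟩⟩ (by
      rw [Subtype.dist_eq, ZeroMemClass.coe_zero, dist_zero_right]
      show ‖logEmbedding K (Additive.ofMul u)‖ < ε
      rw [← h1]
      exact (norm_fst_le _).trans_lt (hy.trans_le (min_le_left _ _)))
    exact congrArg Subtype.val h
  have hum : (u : 𝓞 K) ^ Units.torsionOrder K = 1 := by
    rw [← Units.val_pow_eq_pow_val, ← Units.val_one]
    have h' : u ∈ rootsOfUnity (Units.torsionOrder K) (𝓞 K) :=
      (Units.rootsOfUnity_eq_torsion K).symm ▸ logEmbedding_eq_zero_iff.mp hu0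
    exact congrArg Units.val ((mem_rootsOfUnity _ _).mp h')
  refine Subtype.ext (Prod.ext (h1.trans hu0) (funext fun w => ?_))
  have hnorm : ‖w.1.embedding ((u : 𝓞 K) : K)‖ = 1 := by
    rw [norm_embedding_eq]
    exact (Units.mem_torsion K).mp (logEmbedding_eq_zero_iff.mp hu0) w.1
  obtain ⟨j, hj⟩ := eAdd_eq_one_iff (a := m * y.1.2 w).mp (by
    rw [hm, FA.ThreePrimes.eAdd_nat_mul, h2, hnorm, Complex.ofReal_one, div_one, ← map_pow,
      ← map_pow, hum, map_one, map_one])
  have hlt : |y.1.2 w| < 1 / m := by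
    rw [← Real.norm_eq_abs]
    exact ((norm_le_pi_norm y.1.2 w).trans (norm_snd_le _)).trans_lt
      (hy.trans_le (min_le_right _ _))
  rw [lt_div_iff₀ hm0, mul_comm, ← abs_of_pos hm0, ← abs_mul, hj, ← Int.cast_abs,
    ← Int.cast_one, Int.cast_lt, Int.abs_lt_one_iff] at hlt
  rw [hlt, Int.cast_zero, mul_eq_zero] at hj
  exact hj.resolve_left hm0.ne'

/-- **Full rank.** -/
theorem span_torLattice (h𝔪 : 𝔪 ≠ ⊥) :
    Submodule.span ℝ (torLattice 𝔪 : Set (CoordSpace K)) = ⊤ := by
  obtain ⟨S, hS⟩ : ∃ S, S = Submodule.span ℝ (torLattice 𝔪 : Set (CoordSpace K)) := ⟨_, rfl⟩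
  rw [← hS]
  have h2 : ∀ θ : {w : InfinitePlace K // IsComplex w} → ℝ, ((0 : logSpace K), θ) ∈ S := fun θ => by
    have e : ((0 : logSpace K), θ) = ∑ w, θ w • ((0 : logSpace K), Pi.single w (1 : ℝ)) := by
      refine Prod.ext (by simp [Prod.fst_sum]) (funext fun w => ?_)
      simp [Prod.snd_sum, Finset.sum_apply, Pi.single_apply]
    rw [e]
    exact S.sum_mem fun w _ =>
      S.smul_mem _ (hS ▸ Submodule.subset_span (single_mem_torLattice w))
  obtain ⟨B, hB⟩ : ∃ B, B = (Units.basisUnitLattice K).ofZLatticeBasis ℝ (unitLattice K) :=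
    ⟨_, rfl⟩
  have h1 : ∀ i, ∃ θ, (B i, θ) ∈ S := fun i => by
    obtain ⟨N, hN⟩ : ∃ N, N = 2 * FA.Hecke.unitCount 𝔪 := ⟨_, rfl⟩
    have hN0 : (N : ℝ) ≠ 0 := Nat.cast_ne_zero.mpr (by
      have := FA.Hecke.unitCount_pos h𝔪; omega)
    have hc : Ideal.span {(fundSystem K i : 𝓞 K)} ⊔ 𝔪 = ⊤ := by
      rw [Ideal.span_singleton_eq_top.mpr (fundSystem K i).isUnit, top_sup_eq]
    have hu : IsRayElt 𝔪 ((fundSystem K i ^ N : (𝓞 K)ˣ) : 𝓞 K) := by
      rw [Units.val_pow_eq_pow_val, hN]
      exact FA.Hecke.ray_pow h𝔪 (fundSystem K i).ne_zero hc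
    have hmem : coords (intEmb K ((fundSystem K i ^ N : (𝓞 K)ˣ) : 𝓞 K)) ∈ S :=
      hS ▸ Submodule.subset_span (coords_unit_mem hu)
    refine ⟨(N : ℝ)⁻¹ • (coords (intEmb K ((fundSystem K i ^ N : (𝓞 K)ˣ) : 𝓞 K))).2, ?_⟩
    convert S.smul_mem (N : ℝ)⁻¹ hmem using 1
    refine Prod.ext ?_ rfl
    rw [hB, Basis.ofZLatticeBasis_apply, ← logEmbedding_fundSystem, Prod.smul_fst,
      show (coords (intEmb K ((fundSystem K i ^ N : (𝓞 K)ˣ) : 𝓞 K))).1 =
        logEmbedding K (Additive.ofMul (fundSystem K i ^ N)) from funext (coords_unit _),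
      ofMul_pow, map_nsmul, ← Nat.cast_smul_eq_nsmul ℝ, smul_smul, inv_mul_cancel₀ hN0, one_smul]
  choose θ hθ using h1
  refine (Submodule.eq_top_iff').mpr fun v => ?_
  have e : v = ∑ i, B.repr v.1 i • (B i, θ i) + (0, v.2 - ∑ i, B.repr v.1 i • θ i) :=
    Prod.ext (by simp [Prod.fst_sum, B.sum_repr]) (by simp [Prod.snd_sum])
  rw [e]
  exact S.add_mem (S.sum_mem fun i _ => S.smul_mem _ (hθ i)) (h2 _)

end FA.HeckeTorus

end
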