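import Fermat.Agent.HeckeTorus.InfType
import Fermat.Agent.HeckeTorus.Character
import Fermat.Agent.ImagQuadAngles.Exists
import Mathlib.NumberTheory.NumberField.Units.DirichletTheorem

/-!
# Which infinity types occur

A Hecke character of infinity type `(t, k)` modulo `𝔪` exists exactly if `infChar t k` is `1` on
the totally positive units congruent to `1`. For every field other than `ℚ` some nonzero type
qualifies for all moduli at once: `2 π` times a coordinate of the logarithms of the units in a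
fundamental system, or, without units of infinite order, the number of roots of unity.
-/

set_option autoImplicit false
set_option linter.unusedSectionVars false

noncomputable section

open NumberField NumberField.mixedEmbedding NumberField.InfinitePlace IsDedekindDomain Module
  Ideal
open FA.Ext (intEmb)
open FA.Hecke (IsRayElt)
open FA.ImagQuad (exists_monoidHom_extension)
open scoped nonZeroDivisors Classical

namespace FA.HeckeTorus

variable {K : Type*} [Field K] [NumberField K] {𝔪 : Ideal (𝓞 K)} {t : InfinitePlace K → ℝ}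
  {k : {w : InfinitePlace K // IsComplex w} → ℤ}

theorem norm_emb_ne_zero {a : K} (ha : a ≠ 0) :
    mixedEmbedding.norm (mixedEmbedding K a) ≠ 0 := by
  rw [norm_eq_norm]
  simpa using ha

/-- The infinity type as a homomorphism. -/
def infHom (t : InfinitePlace K → ℝ) (k : {w : InfinitePlace K // IsComplex w} → ℤ) :
    Kˣ →* ℂˣ where
  toFun a := Units.mk0 (infChar t k (mixedEmbedding K (a : K)))
    (infChar_ne_zero (norm_emb_ne_zero a.ne_zero))
  map_one' := Units.ext (by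
    simp [infChar, phase, Prod.snd_one, map_one])
  map_mul' a b := Units.ext (by
    simp only [Units.val_mul, Units.val_mk0, map_mul]
    exact infChar_mul (norm_emb_ne_zero a.ne_zero) (norm_emb_ne_zero b.ne_zero))

/-- A nonzero integer as a unit of the field. -/
def fldU {x : 𝓞 K} (hx : x ≠ 0) : Kˣ :=
  Units.mk0 (x : K) (RingOfIntegers.coe_ne_zero_iff.mpr hx)

/-- The quotients of the totally positive integers congruent to `1`. -/
def raySub (𝔪 : Ideal (𝓞 K)) : Subgroup Kˣ where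
  carrier := {a | ∃ x y : 𝓞 K, IsRayElt 𝔪 x ∧ IsRayElt 𝔪 y ∧ (a : K) * y = x}
  one_mem' := ⟨1, 1, FA.Hecke.isRayElt_one, FA.Hecke.isRayElt_one, by simp⟩
  mul_mem' := by
    rintro a b ⟨x, y, hx, hy, h⟩ ⟨x', y', hx', hy', h'⟩
    refine ⟨x * x', y * y', hx.mul hx', hy.mul hy', ?_⟩
    push_cast
    rw [mul_mul_mul_comm, h, h']
  inv_mem' := by
    rintro a ⟨x, y, hx, hy, h⟩
    refine ⟨y, x, hy, hx, ?_⟩
    rw [← h, Units.val_inv_eq_inv_val, inv_mul_cancel_left₀ a.ne_zero]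

/-- An ideal as an invertible fractional ideal. -/
def ideU {I : Ideal (𝓞 K)} (hI : I ≠ ⊥) : (FractionalIdeal (𝓞 K)⁰ K)ˣ :=
  Units.mk0 (I : FractionalIdeal (𝓞 K)⁰ K) (FractionalIdeal.coeIdeal_ne_zero.mpr hI)

theorem ideU_span {x : 𝓞 K} (hx : x ≠ 0) :
    ideU (show Ideal.span {x} ≠ ⊥ from fun e => hx (Ideal.span_singleton_eq_bot.mp e)) =
      toPrincipalIdeal (𝓞 K) K (fldU hx) :=
  Units.ext (by
    rw [coe_toPrincipalIdeal, ideU, Units.val_mk0, FractionalIdeal.coeIdeal_span_singleton]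
    rfl)

theorem IsTorusChar.infChar_unit (h : ∃ f, IsTorusChar 𝔪 t k f) {u : (𝓞 K)ˣ}
    (hu : IsRayElt 𝔪 (u : 𝓞 K)) : infChar t k (intEmb K (u : 𝓞 K)) = 1 := by
  obtain ⟨f, hf⟩ := h
  rw [← hf.ray _ hu, Ideal.span_singleton_eq_top.mpr u.isUnit, ← Ideal.one_eq_top, _root_.map_one]

/-- **Existence.** -/
theorem exists_isTorusChar (h𝔪 : 𝔪 ≠ ⊥) (ht : Balanced t)
    (hu : ∀ u : (𝓞 K)ˣ, IsRayElt 𝔪 (u : 𝓞 K) → infChar t k (intEmb K (u : 𝓞 K)) = 1) :
    ∃ f : Ideal (𝓞 K) →* ℂ, IsTorusChar 𝔪 t k f := by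
  let P : raySub 𝔪 →* (FractionalIdeal (𝓞 K)⁰ K)ˣ :=
    (toPrincipalIdeal (𝓞 K) K).comp (raySub 𝔪).subtype
  let ψ : raySub 𝔪 →* ℂˣ := (infHom t k).comp (raySub 𝔪).subtype
  have hker : P.ker ≤ ψ.ker := by
    rintro ⟨a, x, y, hx, hy, ha⟩ h
    rw [MonoidHom.mem_ker] at h ⊢
    have h1 : toPrincipalIdeal (𝓞 K) K a = 1 := h
    have hspan : Ideal.span {x} = Ideal.span {y} := by
      refine FractionalIdeal.coeIdeal_injective (K := K) ?_
      show (Ideal.span {x} : FractionalIdeal (𝓞 K)⁰ K) = (Ideal.span {y} : FractionalIdeal (𝓞 K)⁰ K)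
      rw [FractionalIdeal.coeIdeal_span_singleton, FractionalIdeal.coeIdeal_span_singleton]
      show FractionalIdeal.spanSingleton (𝓞 K)⁰ (x : K) =
        FractionalIdeal.spanSingleton (𝓞 K)⁰ (y : K)
      rw [← ha, ← FractionalIdeal.spanSingleton_mul_spanSingleton, ← coe_toPrincipalIdeal, h1,
        Units.val_one, one_mul]
    obtain ⟨u, rfl⟩ := (Ideal.span_singleton_eq_span_singleton.mp hspan).symm
    have hu' : IsRayElt 𝔪 (u : 𝓞 K) := by
      refine ⟨u.ne_zero, ?_, fun φ => ?_⟩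
      · rw [show (u : 𝓞 K) - 1 = (y * u - 1) - (y - 1) * u by ring]
        exact 𝔪.sub_mem hx.2.1 (𝔪.mul_mem_right _ hy.2.1)
      · exact (mul_pos_iff_of_pos_left (hy.2.2 φ)).mp (by
          rw [← map_mul, ← _root_.map_mul]; exact hx.2.2 φ)
    have hau : (a : K) = ((u : 𝓞 K) : K) := mul_right_cancel₀
      (RingOfIntegers.coe_ne_zero_iff.mpr hy.1) (ha.trans (by push_cast; ring))
    refine Units.ext ?_
    show infChar t k (mixedEmbedding K (a : K)) = 1
    rw [hau]
    exact hu u hu'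
  obtain ⟨F, hF⟩ := exists_monoidHom_extension P.range
    ((P.rangeRestrict.liftOfSurjective P.rangeRestrict_surjective)
      ⟨ψ, by rwa [MonoidHom.ker_rangeRestrict]⟩)
  have hval : ∀ (x : 𝓞 K) (hx : IsRayElt 𝔪 x),
      (F (ideU (show Ideal.span {x} ≠ ⊥ from fun e => hx.1 (Ideal.span_singleton_eq_bot.mp e))) : ℂ)
        = infChar t k (intEmb K x) := by
    intro x hx
    let a : raySub 𝔪 := ⟨fldU hx.1, x, 1, hx, FA.Hecke.isRayElt_one, by simp [fldU]⟩
    have h2 := hF (P.rangeRestrict a)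
    rw [MonoidHom.liftOfRightInverse_comp_apply] at h2
    rw [ideU_span hx.1]
    exact (congrArg Units.val h2).trans rfl
  refine ⟨{ toFun := fun I => if h : I ≠ ⊥ ∧ I ⊔ 𝔪 = ⊤ then (F (ideU h.1) : ℂ) else 0
            map_one' := ?_
            map_mul' := fun I J => ?_ }, h𝔪, fun I hI => ?_, ht, fun x hx => ?_⟩
  · rw [dif_pos ⟨(one_ne_zero : (1 : Ideal (𝓞 K)) ≠ 0), by simp [Ideal.one_eq_top]⟩,
      show ideU (K := K) (I := 1) (one_ne_zero : (1 : Ideal (𝓞 K)) ≠ 0) = 1 from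
        Units.ext (by simp [ideU]), _root_.map_one, Units.val_one]
  · by_cases hI : I ≠ ⊥ ∧ I ⊔ 𝔪 = ⊤
    · by_cases hJ : J ≠ ⊥ ∧ J ⊔ 𝔪 = ⊤
      · rw [dif_pos hI, dif_pos hJ,
          dif_pos ⟨mul_ne_zero hI.1 hJ.1, FA.Hecke.mul_sup_eq_top.mpr ⟨hI.2, hJ.2⟩⟩,
          ← Units.val_mul, ← _root_.map_mul]
        congr 2
        exact Units.ext (by simp [ideU])
      · rw [dif_neg hJ, mul_zero, dif_neg fun h => hJ ⟨right_ne_zero_of_mul h.1,
          (FA.Hecke.mul_sup_eq_top.mp h.2).2⟩]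
    · rw [dif_neg hI, zero_mul, dif_neg fun h => hI ⟨left_ne_zero_of_mul h.1,
        (FA.Hecke.mul_sup_eq_top.mp h.2).1⟩]
  · show (if h : I ≠ ⊥ ∧ I ⊔ 𝔪 = ⊤ then _ else 0) ≠ 0 ↔ _
    split_ifs with h
    · exact iff_of_true (Units.ne_zero _) h.2
    · exact iff_of_false (fun h0 => h0 rfl) fun hc => h ⟨hI, hc⟩
  · have hc : Ideal.span {x} ⊔ 𝔪 = ⊤ := by
      rw [FA.Hecke.span_sup_congr hx.2.1, Ideal.span_singleton_one, top_sup_eq]
    exact (dif_pos ⟨fun e => hx.1 (Ideal.span_singleton_eq_bot.mp e), hc⟩).trans (hval x hx)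

theorem phase_intEmb (x : 𝓞 K) :
    phase t (intEmb K x) = ∑ w, (mult w : ℝ) * t w * Real.log (w (x : K)) := by
  simp [phase, intEmb, normAtPlace_apply]

/-- A nonzero type with trivial values at all units. -/
theorem exists_type (hK : 1 < finrank ℚ K) :
    ∃ (t : InfinitePlace K → ℝ) (k : {w : InfinitePlace K // IsComplex w} → ℤ),
      Balanced t ∧ (t ≠ 0 ∨ k ≠ 0) ∧ ∀ u : (𝓞 K)ˣ, infChar t k (intEmb K (u : 𝓞 K)) = 1 := by
  rcases Nat.eq_zero_or_pos (Units.rank K) with hr | hr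
  · obtain ⟨m, hm⟩ : ∃ m, m = Units.torsionOrder K := ⟨_, rfl⟩
    have hm0 : 0 < m := hm ▸ Units.torsionOrder_pos K
    have h1 : Fintype.card (InfinitePlace K) ≤ 1 := by rw [Units.rank] at hr; omega
    obtain ⟨w₁, hw₁⟩ : ∃ w : InfinitePlace K, IsComplex w := by
      by_contra hc
      have : nrComplexPlaces K = 0 :=
        Fintype.card_eq_zero_iff.mpr ⟨fun w => hc ⟨w.1, w.2⟩⟩
      have h2 := card_add_two_mul_card_eq_rank K
      have h3 := card_eq_nrRealPlaces_add_nrComplexPlaces K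
      omega
    refine ⟨0, fun _ => m, balanced_zero, Or.inr fun e => hm0.ne'
      (by simpa using congrFun e ⟨w₁, hw₁⟩), fun u => ?_⟩
    have hu : u ∈ Units.torsion K := by
      have : Subsingleton {w : InfinitePlace K // w ≠ Units.dirichletUnitTheorem.w₀} :=
        ⟨fun a b => absurd (Fintype.card_le_one_iff.mp h1 a.1 _) a.2⟩
      refine Units.dirichletUnitTheorem.logEmbedding_eq_zero_iff.mp (funext fun w => ?_)
      exact absurd (Fintype.card_le_one_iff.mp h1 w.1 _) w.2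
    have hum : (u : 𝓞 K) ^ m = 1 := by
      rw [← Units.val_pow_eq_pow_val, ← Units.val_one]
      have h' : u ∈ rootsOfUnity m (𝓞 K) := hm ▸ (Units.rootsOfUnity_eq_torsion K).symm ▸ hu
      exact congrArg Units.val ((mem_rootsOfUnity _ _).mp h')
    rw [infChar, show phase (0 : InfinitePlace K → ℝ) _ = 0 by simp [phase], Complex.ofReal_zero,
      zero_mul, Complex.exp_zero, one_mul]
    refine Finset.prod_eq_one fun w _ => ?_
    have hw : ‖w.1.embedding ((u : 𝓞 K) : K)‖ = 1 := by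
      rw [norm_embedding_eq]
      exact (Units.mem_torsion K).mp hu w.1
    show (w.1.embedding ((u : 𝓞 K) : K) / (‖w.1.embedding ((u : 𝓞 K) : K)‖ : ℂ)) ^ (m : ℤ) = 1
    rw [hw, Complex.ofReal_one, div_one, zpow_natCast, ← _root_.map_pow,
      show ((u : 𝓞 K) : K) ^ m = (((u : 𝓞 K) ^ m : 𝓞 K) : K) from rfl, hum,
      show ((1 : 𝓞 K) : K) = 1 from rfl, _root_.map_one]
  · obtain ⟨i⟩ : Nonempty (Fin (Units.rank K)) := ⟨⟨0, hr⟩⟩
    let b := (Units.basisUnitLattice K).ofZLatticeBasis ℝ (Units.unitLattice K)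
    obtain ⟨c, hc⟩ : ∃ c : InfinitePlace K → ℝ, c = fun w =>
        if h : w = Units.dirichletUnitTheorem.w₀ then 0 else b.coord i (Pi.single ⟨w, h⟩ 1) :=
      ⟨_, rfl⟩
    obtain ⟨S, hS⟩ : ∃ S : ℝ, S = (∑ w, (mult w : ℝ) * c w) / finrank ℚ K := ⟨_, rfl⟩
    obtain ⟨t, ht⟩ : ∃ t : InfinitePlace K → ℝ, t = fun w => 2 * Real.pi * (c w - S) := ⟨_, rfl⟩
    have hbal : Balanced t := by
      have e : (∑ w : InfinitePlace K, (mult w : ℝ)) = (finrank ℚ K : ℝ) := by
        rw [← Nat.cast_sum, sum_mult_eq]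
      have hn : (finrank ℚ K : ℝ) ≠ 0 := Nat.cast_ne_zero.mpr (by omega)
      rw [Balanced, Finset.sum_congr rfl fun w _ => show (mult w : ℝ) * t w =
        2 * Real.pi * ((mult w : ℝ) * c w) - 2 * Real.pi * S * mult w by rw [ht]; ring,
        Finset.sum_sub_distrib, ← Finset.mul_sum, ← Finset.mul_sum, e, hS]
      field_simp
      ring
    have hphase : ∀ u : (𝓞 K)ˣ, phase t (intEmb K (u : 𝓞 K)) =
        2 * Real.pi * b.coord i (Units.logEmbedding K (Additive.ofMul u)) := fun u => by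
      rw [phase_intEmb, pi_eq_sum_univ' (Units.logEmbedding K (Additive.ofMul u)), map_sum,
        Finset.mul_sum]
      simp only [map_smul, smul_eq_mul, Units.dirichletUnitTheorem.logEmbedding_component]
      rw [Finset.sum_congr rfl fun w _ => show (mult w : ℝ) * t w * Real.log (w (u : K)) =
        2 * Real.pi * ((mult w : ℝ) * Real.log (w (u : K)) * c w) -
          2 * Real.pi * S * ((mult w : ℝ) * Real.log (w (u : K))) by rw [ht]; ring,
        Finset.sum_sub_distrib, ← Finset.mul_sum, ← Finset.mul_sum, Units.sum_mult_mul_log,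
        mul_zero, sub_zero, Fintype.sum_eq_add_sum_subtype_ne _ Units.dirichletUnitTheorem.w₀, hc,
        ]
      simp only [dite_true, mul_zero, zero_add, Finset.mul_sum]
      exact Finset.sum_congr rfl fun w _ => by rw [dif_neg w.2]
    refine ⟨t, 0, hbal, Or.inl fun e => ?_, fun u => ?_⟩
    · have h := hphase (Units.fundSystem K i)
      rw [Units.logEmbedding_fundSystem, ← Basis.ofZLatticeBasis_apply ℝ (Units.unitLattice K),
        Basis.coord_apply, Basis.repr_self, Finsupp.single_eq_same, e] at h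
      simp [phase, Real.pi_ne_zero] at h
    · obtain ⟨v, hv⟩ : ∃ v : Units.unitLattice K,
          (v : Units.dirichletUnitTheorem.logSpace K) = Units.logEmbedding K (Additive.ofMul u) :=
        ⟨⟨_, ⟨Additive.ofMul u, trivial, rfl⟩⟩, rfl⟩
      rw [infChar, hphase, ← hv, Basis.coord_apply, Basis.ofZLatticeBasis_repr_apply]
      simp only [Pi.zero_apply, zpow_zero, Finset.prod_const_one, mul_one]
      rw [Complex.exp_eq_one_iff]
      refine ⟨(Units.basisUnitLattice K).repr v i, ?_⟩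
      push_cast
      ring

/-- **Every field other than `ℚ` has them**, for every modulus. -/
theorem exists_isTorusChar_ne (hK : 1 < finrank ℚ K) :
    ∃ (t : InfinitePlace K → ℝ) (k : {w : InfinitePlace K // IsComplex w} → ℤ),
      (t ≠ 0 ∨ k ≠ 0) ∧ ∀ 𝔪 : Ideal (𝓞 K), 𝔪 ≠ ⊥ → ∃ f, IsTorusChar 𝔪 t k f := by
  obtain ⟨t, k, ht, hne, hu⟩ := exists_type hK
  exact ⟨t, k, hne, fun 𝔪 h𝔪 => exists_isTorusChar h𝔪 ht fun u _ => hu u⟩

/-- **Infinite order**: no power is `1` on the principal ideals congruent to `1`. -/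
theorem IsTorusChar.exists_pow_ne_one {f : Ideal (𝓞 K) →* ℂ} (h : IsTorusChar 𝔪 t k f)
    (hne : t ≠ 0 ∨ k ≠ 0) {m : ℕ} (hm : 0 < m) :
    ∃ x : 𝓞 K, IsRayElt 𝔪 x ∧ f (Ideal.span {x}) ^ m ≠ 1 := by
  have hm' : (m : ℝ) ≠ 0 := Nat.cast_ne_zero.mpr hm.ne'
  obtain ⟨x, hx, hx1⟩ := exists_rayElt_ne_one (t := (m : ℝ) • t) (k := (m : ℤ) • k) (by
      simp only [Balanced, Pi.smul_apply, smul_eq_mul, mul_left_comm _ (m : ℝ), ← Finset.mul_sum]
      rw [show ∑ w, (mult w : ℝ) * t w = 0 from h.balanced, mul_zero])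
    (hne.imp (smul_ne_zero hm') (smul_ne_zero (Int.natCast_ne_zero.mpr hm.ne'))) h.ne_bot
  refine ⟨x, hx, fun e => hx1 ?_⟩
  rw [h.ray x hx] at e
  have hp : ∀ j : ℕ, infChar ((j : ℝ) • t) ((j : ℤ) • k) (intEmb K x) =
      infChar t k (intEmb K x) ^ j := fun j => by
    induction j with
    | zero => simp
    | succ j ih =>
      rw [pow_succ, ← ih, ← infChar_add (norm_intEmb_ne_zero hx.1)]
      congr 1 <;> (push_cast; simp [add_smul])
  rw [hp, e]

end FA.HeckeTorus

end
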