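import Fermat.Agent.NaturalChebotarev.RayClass

/-!
# Infinity types

A character of the connected group of the units of `K ⊗ ℝ`, trivial on the positive reals, is
`x ↦ exp (i ∑ n_w t_w log |x_w|) ∏ (x_w / |x_w|) ^ k_w`, the product over the complex places,
with `∑ n_w t_w = 0`. It is homogeneous of degree `0` and smooth where the norm is not zero, and
unless `(t, k) = 0` it is not `1` at some totally positive integer congruent to `1`.
-/

set_option autoImplicit false
set_option linter.unusedSectionVars false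

noncomputable section

open NumberField NumberField.mixedEmbedding NumberField.InfinitePlace Module Filter Topology Ideal
open FA.Ext (intEmb norm_intEmb intEmb_add)
open FA.PrimeIdeal (contDiffAt_normAtPlace intEmb_natCast_mul)
open FA.Hecke (IsRayElt sgn sgn_intEmb exists_isReal_embedding)
open scoped nonZeroDivisors Classical ContDiff

namespace FA.HeckeTorus

variable {K : Type*} [Field K] [NumberField K]

/-- `∑ n_w t_w log |x_w|`. -/
def phase (t : InfinitePlace K → ℝ) (x : mixedSpace K) : ℝ :=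
  ∑ w, (mult w : ℝ) * t w * Real.log (normAtPlace w x)

/-- `∑ n_w t_w = 0`: trivial on the positive reals. -/
def Balanced (t : InfinitePlace K → ℝ) : Prop := ∑ w, (mult w : ℝ) * t w = 0

/-- **The character with exponents `t`, `k`.** -/
def infChar (t : InfinitePlace K → ℝ) (k : {w : InfinitePlace K // IsComplex w} → ℤ)
    (x : mixedSpace K) : ℂ :=
  Complex.exp ((phase t x : ℂ) * Complex.I) *
    ∏ w : {w : InfinitePlace K // IsComplex w}, (x.2 w / (‖x.2 w‖ : ℂ)) ^ k w

variable {t t' : InfinitePlace K → ℝ} {k k' : {w : InfinitePlace K // IsComplex w} → ℤ}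
  {x y : mixedSpace K}

theorem place_ne_zero (hx : mixedEmbedding.norm x ≠ 0) (w : InfinitePlace K) :
    normAtPlace w x ≠ 0 :=
  mixedEmbedding.norm_ne_zero_iff.mp hx w

theorem snd_ne_zero (hx : mixedEmbedding.norm x ≠ 0) (w : {w : InfinitePlace K // IsComplex w}) :
    x.2 w ≠ 0 := fun h => place_ne_zero hx w.1 (by
  rw [normAtPlace_apply_of_isComplex w.2, Subtype.coe_eta, h, norm_zero])

theorem dirC_ne_zero {z : ℂ} (hz : z ≠ 0) : z / (‖z‖ : ℂ) ≠ 0 :=
  div_ne_zero hz (Complex.ofReal_ne_zero.mpr (norm_ne_zero_iff.mpr hz))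

theorem infChar_mul (hx : mixedEmbedding.norm x ≠ 0) (hy : mixedEmbedding.norm y ≠ 0) :
    infChar t k (x * y) = infChar t k x * infChar t k y := by
  have e1 : phase t (x * y) = phase t x + phase t y := by
    simp only [phase, map_mul, ← Finset.sum_add_distrib]
    exact Finset.sum_congr rfl fun w _ => by
      rw [Real.log_mul (place_ne_zero hx w) (place_ne_zero hy w)]; ring
  simp only [infChar, e1, Complex.ofReal_add, add_mul, Complex.exp_add, Prod.snd_mul,
    Pi.mul_apply, norm_mul, Complex.ofReal_mul, mul_div_mul_comm, mul_zpow,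
    Finset.prod_mul_distrib]
  ring

theorem norm_infChar (hx : mixedEmbedding.norm x ≠ 0) : ‖infChar t k x‖ = 1 := by
  rw [infChar, norm_mul, Complex.norm_exp_ofReal_mul_I, one_mul, norm_prod]
  refine Finset.prod_eq_one fun w _ => ?_
  rw [norm_zpow, norm_div, Complex.norm_real, norm_norm,
    div_self (norm_ne_zero_iff.mpr (snd_ne_zero hx w)), one_zpow]

theorem infChar_ne_zero (hx : mixedEmbedding.norm x ≠ 0) : infChar t k x ≠ 0 := by
  rw [← norm_ne_zero_iff, norm_infChar hx]; exact one_ne_zero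

theorem infChar_smul (ht : Balanced t) (hx : mixedEmbedding.norm x ≠ 0) {r : ℝ} (hr : 0 < r) :
    infChar t k (r • x) = infChar t k x := by
  have e1 : phase t (r • x) = phase t x := by
    simp only [phase, normAtPlace_smul, abs_of_pos hr]
    rw [Finset.sum_congr rfl fun w _ => show (mult w : ℝ) * t w * Real.log (r * normAtPlace w x) =
        (mult w : ℝ) * t w * Real.log r + (mult w : ℝ) * t w * Real.log (normAtPlace w x) by
      rw [Real.log_mul hr.ne' (place_ne_zero hx w)]; ring, Finset.sum_add_distrib,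
      ← Finset.sum_mul, show ∑ w, (mult w : ℝ) * t w = 0 from ht, zero_mul, zero_add]
  simp only [infChar, e1, Prod.smul_snd, Pi.smul_apply, Complex.real_smul, norm_mul,
    Complex.norm_real, Real.norm_of_nonneg hr.le, Complex.ofReal_mul]
  congr 1
  refine Finset.prod_congr rfl fun w _ => ?_
  rw [mul_div_mul_left _ _ (Complex.ofReal_ne_zero.mpr hr.ne')]

theorem contDiffAt_infChar (hx : mixedEmbedding.norm x ≠ 0) :
    ContDiffAt ℝ ∞ (infChar t k) x := by
  refine ContDiffAt.mul ?_ (contDiffAt_prod fun w _ => ?_)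
  · exact (((Complex.ofRealCLM.contDiff.contDiffAt.comp x (ContDiffAt.sum fun w _ =>
      contDiffAt_const.mul ((contDiffAt_normAtPlace w (place_ne_zero hx w)).log
        (place_ne_zero hx w)))).mul contDiffAt_const).cexp)
  · have hw : ContDiffAt ℝ ∞ (fun y : mixedSpace K => y.2 w) x :=
      ((contDiff_apply ℝ ℂ w).comp contDiff_snd).contDiffAt
    have hd : ContDiffAt ℝ ∞ (fun y : mixedSpace K => y.2 w / (‖y.2 w‖ : ℂ)) x := by
      simp only [div_eq_mul_inv]
      exact hw.mul ((Complex.ofRealCLM.contDiff.contDiffAt.comp x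
        (hw.norm ℝ (snd_ne_zero hx w))).inv
          (Complex.ofReal_ne_zero.mpr (norm_ne_zero_iff.mpr (snd_ne_zero hx w))))
    rcases k w with n | n
    · simpa only [Int.ofNat_eq_natCast, zpow_natCast] using hd.pow n
    · simp only [zpow_negSucc]
      exact (hd.pow (n + 1)).inv (pow_ne_zero _ (dirC_ne_zero (snd_ne_zero hx w)))

theorem infChar_add (hx : mixedEmbedding.norm x ≠ 0) :
    infChar (t + t') (k + k') x = infChar t k x * infChar t' k' x := by
  have e1 : phase (t + t') x = phase t x + phase t' x := by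
    simp only [phase, Pi.add_apply, ← Finset.sum_add_distrib]
    exact Finset.sum_congr rfl fun w _ => by ring
  simp only [infChar, e1, Complex.ofReal_add, add_mul, Complex.exp_add, Pi.add_apply,
    Finset.prod_congr rfl fun w _ => zpow_add₀ (dirC_ne_zero (snd_ne_zero hx w)) (k w) (k' w),
    Finset.prod_mul_distrib]
  ring

@[simp] theorem infChar_zero : infChar (0 : InfinitePlace K → ℝ) 0 x = 1 := by
  simp [infChar, phase]

theorem infChar_neg (hx : mixedEmbedding.norm x ≠ 0) :
    infChar (-t) (-k) x = starRingEnd ℂ (infChar t k x) := by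
  have h := infChar_add (t := t) (t' := -t) (k := k) (k' := -k) hx
  rw [add_neg_cancel, add_neg_cancel, infChar_zero] at h
  rw [← Complex.inv_eq_conj (norm_infChar hx)]
  exact eq_inv_of_mul_eq_one_right h.symm

theorem Balanced.add (h : Balanced t) (h' : Balanced t') : Balanced (t + t') := by
  simp only [Balanced, Pi.add_apply, mul_add, Finset.sum_add_distrib] at h h' ⊢
  rw [h, h', add_zero]

theorem Balanced.neg (h : Balanced t) : Balanced (-t) := by
  simp only [Balanced, Pi.neg_apply, mul_neg, Finset.sum_neg_distrib] at h ⊢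
  rw [h, neg_zero]

theorem balanced_zero : Balanced (0 : InfinitePlace K → ℝ) := by simp [Balanced]

/-- A character with a nonzero exponent is not `1` on the connected group. -/
theorem exists_pos_ne_one (h : t ≠ 0 ∨ k ≠ 0) :
    ∃ p : mixedSpace K, mixedEmbedding.norm p ≠ 0 ∧
      (∀ w : {w : InfinitePlace K // IsReal w}, 0 < p.1 w) ∧ infChar t k p ≠ 1 := by
  by_cases hk : k = 0
  · obtain ⟨w₀, hw₀⟩ := Function.ne_iff.mp (h.resolve_right (not_not.mpr hk))
    obtain ⟨a, ha⟩ : ∃ a : ℝ, (mult w₀ : ℝ) * t w₀ * a = Real.pi :=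
      ⟨Real.pi / ((mult w₀ : ℝ) * t w₀), mul_div_cancel₀ _
        (mul_ne_zero (Nat.cast_ne_zero.mpr mult_ne_zero) hw₀)⟩
    obtain ⟨c, hc⟩ : ∃ c : InfinitePlace K → ℝ, c = fun w => if w = w₀ then Real.exp a else 1 :=
      ⟨_, rfl⟩
    have hc0 : ∀ w, 0 < c w := fun w => by rw [hc]; simp only; split_ifs <;> positivity
    obtain ⟨p, hp⟩ : ∃ p : mixedSpace K, p = (fun w => c w.1, fun w => (c w.1 : ℂ)) := ⟨_, rfl⟩
    have hpl : ∀ w, normAtPlace w p = c w := fun w => by
      rcases isReal_or_isComplex w with hw | hw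
      · rw [normAtPlace_apply_of_isReal hw, hp, Real.norm_of_nonneg (hc0 w).le]
      · rw [normAtPlace_apply_of_isComplex hw, hp, Complex.norm_real,
          Real.norm_of_nonneg (hc0 w).le]
    refine ⟨p, mixedEmbedding.norm_ne_zero_iff.mpr fun w => (hpl w).trans_ne (hc0 w).ne',
      fun w => by rw [hp]; exact hc0 _, ?_⟩
    have e : phase t p = Real.pi := by
      rw [phase, Finset.sum_eq_single w₀ (fun w _ hw => by simp [hpl, hc, hw]) (by simp), hpl, hc]
      simp only [if_pos, Real.log_exp, ha]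
    rw [infChar, e, hk, Complex.exp_pi_mul_I]
    norm_num
  · obtain ⟨w₀, hw₀⟩ := Function.ne_iff.mp hk
    obtain ⟨z, hz⟩ : ∃ z : ℂ, z = Complex.exp ((Real.pi / (k w₀ : ℝ) : ℝ) * Complex.I) :=
      ⟨_, rfl⟩
    have hz1 : ‖z‖ = 1 := by rw [hz, Complex.norm_exp_ofReal_mul_I]
    obtain ⟨p, hp⟩ : ∃ p : mixedSpace K, p = (fun _ => 1, fun w => if w = w₀ then z else 1) :=
      ⟨_, rfl⟩
    have hp2 : ∀ w, ‖p.2 w‖ = 1 := fun w => by
      rw [hp]; simp only; split_ifs <;> simp [hz1]
    have hpl : ∀ w, normAtPlace w p = 1 := fun w => by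
      rcases isReal_or_isComplex w with hw | hw
      · rw [normAtPlace_apply_of_isReal hw, hp, norm_one]
      · rw [normAtPlace_apply_of_isComplex hw, hp2]
    refine ⟨p, mixedEmbedding.norm_ne_zero_iff.mpr fun w => (hpl w).trans_ne one_ne_zero,
      fun w => by rw [hp]; exact one_pos, ?_⟩
    have e : phase t p = 0 := by simp [phase, hpl]
    simp only [infChar, e, hp2, Complex.ofReal_zero, zero_mul, Complex.exp_zero, one_mul,
      Complex.ofReal_one, div_one]
    rw [Finset.prod_eq_single w₀ (fun w _ hw => by simp [hp, hw]) (by simp), hp]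
    simp only [if_pos]
    rw [hz, ← Complex.exp_int_mul, show (k w₀ : ℂ) * (((Real.pi / (k w₀ : ℝ) : ℝ) : ℂ) *
      Complex.I) = Real.pi * Complex.I by
        have : (k w₀ : ℂ) ≠ 0 := Int.cast_ne_zero.mpr hw₀
        push_cast; field_simp, Complex.exp_pi_mul_I]
    norm_num

/-- **Not `1` at some totally positive integer congruent to `1`.** -/
theorem exists_rayElt_ne_one (ht : Balanced t) (h : t ≠ 0 ∨ k ≠ 0) {𝔪 : Ideal (𝓞 K)}
    (h𝔪 : 𝔪 ≠ ⊥) : ∃ x : 𝓞 K, IsRayElt 𝔪 x ∧ infChar t k (intEmb K x) ≠ 1 := by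
  obtain ⟨p, hp0, hp1, hp2⟩ := exists_pos_ne_one h
  obtain ⟨M, hM⟩ : ∃ M, M = absNorm 𝔪 := ⟨_, rfl⟩
  have hM0 : 0 < M := hM ▸ Nat.pos_of_ne_zero fun e => h𝔪 (absNorm_eq_zero_iff.mp e)
  -- integral points near the multiples of `p`
  obtain ⟨a, ha⟩ : ∃ a : ℕ → 𝓞 K, ∀ n : ℕ, intEmb K (a n) =
      (ZSpan.floor (latticeBasis K) ((n : ℝ) • p) : mixedSpace K) := by
    choose a ha using fun n : ℕ => (mem_span_latticeBasis K).mp
      (ZSpan.floor (latticeBasis K) ((n : ℝ) • p)).2
    exact ⟨a, fun n => ha n⟩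
  have hlim : Tendsto (fun n : ℕ => ((n : ℝ) * M)⁻¹ • intEmb K (1 + (M : 𝓞 K) * a n))
      atTop (𝓝 p) := by
    obtain ⟨B, hB⟩ : ∃ B : ℝ, B = ‖intEmb K 1‖ / M + ∑ i, ‖latticeBasis K i‖ := ⟨_, rfl⟩
    refine tendsto_iff_norm_sub_tendsto_zero.mpr (squeeze_zero' (Eventually.of_forall fun _ =>
      norm_nonneg _) ?_ (tendsto_const_div_atTop_nhds_zero_nat B))
    filter_upwards [eventually_gt_atTop 0] with n hn
    have hn' : (0 : ℝ) < n := Nat.cast_pos.mpr hn
    have hM' : (0 : ℝ) < M := Nat.cast_pos.mpr hM0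
    have e : ((n : ℝ) * M)⁻¹ • intEmb K (1 + (M : 𝓞 K) * a n) - p = (n : ℝ)⁻¹ •
        ((M : ℝ)⁻¹ • intEmb K 1 - ZSpan.fract (latticeBasis K) ((n : ℝ) • p)) := by
      rw [intEmb_add, intEmb_natCast_mul, ZSpan.fract_apply, ha]
      simp only [smul_sub, smul_add, smul_smul]
      rw [inv_mul_cancel₀ hn'.ne', one_smul, mul_inv, mul_assoc, inv_mul_cancel₀ hM'.ne', mul_one]
      abel
    rw [e, _root_.norm_smul, norm_inv, Real.norm_of_nonneg hn'.le, inv_mul_eq_div]
    refine div_le_div_of_nonneg_right ((norm_sub_le _ _).trans ?_) hn'.le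
    rw [hB, _root_.norm_smul, norm_inv, Real.norm_of_nonneg hM'.le, inv_mul_eq_div]
    exact add_le_add le_rfl (ZSpan.norm_fract_le _ _)
  have hU : ∀ᶠ q in 𝓝 p, mixedEmbedding.norm q ≠ 0 ∧
      (∀ w : {w : InfinitePlace K // IsReal w}, 0 < q.1 w) ∧ infChar t k q ≠ 1 :=
    (FA.PrimeIdeal.eventually_norm_ne_zero hp0).and ((eventually_all.mpr fun w =>
      (((continuous_apply w).comp continuous_fst).tendsto p).eventually
        (lt_mem_nhds (hp1 w))).and ((contDiffAt_infChar hp0).continuousAt.eventually_ne hp2))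
  obtain ⟨n, ⟨hq0, hq1, hq2⟩, hn⟩ :=
    ((hlim.eventually hU).and (eventually_gt_atTop 0)).exists
  have hr : 0 < ((n : ℝ) * M)⁻¹ :=
    inv_pos.mpr (mul_pos (Nat.cast_pos.mpr hn) (Nat.cast_pos.mpr hM0))
  have hx : mixedEmbedding.norm (intEmb K (1 + (M : 𝓞 K) * a n)) ≠ 0 := fun e => hq0 (by
    rw [mixedEmbedding.norm_smul, e, mul_zero])
  refine ⟨1 + (M : 𝓞 K) * a n, ⟨fun e => hx (by rw [e]; simp [intEmb]), ?_, fun φ => ?_⟩,
    by rwa [infChar_smul ht hx hr] at hq2⟩
  · rw [add_sub_cancel_left, hM]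
    exact 𝔪.mul_mem_right _ (absNorm_mem 𝔪)
  · obtain ⟨w, rfl⟩ := exists_isReal_embedding φ
    have h1 := hq1 w
    rw [Prod.smul_fst, Pi.smul_apply, smul_eq_mul, mul_pos_iff_of_pos_left hr] at h1
    simpa [intEmb] using h1

end FA.HeckeTorus

end
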