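import Fermat.Agent.HeckeTorus.Cones
import Fermat.Agent.ArtinReciprocity.RayNorm

/-!
# Primes represented by norm forms in cones

The coordinates with respect to an integral basis identify the cones of `ℝ ^ n` with those of
`K ⊗ ℝ`; where the signs are those of a vector of positive norm the norm is positive, so the norms
of the prime elements found there are the primes.
-/

set_option autoImplicit false
set_option linter.unusedSectionVars false

noncomputable section

open NumberField NumberField.mixedEmbedding NumberField.InfinitePlace IsDedekindDomain Module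
  Filter Topology Ideal
open FA.Ext (intEmb intEmb_injective)
open FA.Hecke (primesLE mem_primesLE)
open scoped nonZeroDivisors Classical

namespace FA.HeckeTorus

variable {K : Type*} [Field K] [NumberField K] {ι : Type*} [Fintype ι]

theorem intEmb_sum (ω : ι → 𝓞 K) (c : ι → ℤ) :
    intEmb K (∑ i, c i • ω i) = ∑ i, (c i : ℝ) • intEmb K (ω i) := by
  simp only [intEmb, map_sum, map_zsmul, Int.cast_smul_eq_zsmul]

/-- An integral basis is a basis of `K ⊗ ℝ`. -/
theorem exists_realBasis (ω : Basis ι ℤ (𝓞 K)) :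
    ∃ B : Basis ι ℝ (mixedSpace K), ∀ i, B i = intEmb K (ω i) := by
  have hspan : ⊤ ≤ Submodule.span ℝ (Set.range fun i => intEmb K (ω i)) := by
    rw [← (mixedEmbedding.latticeBasis K).span_eq, Submodule.span_le]
    rintro _ ⟨j, rfl⟩
    rw [mixedEmbedding.latticeBasis_apply, integralBasis_apply]
    show intEmb K (RingOfIntegers.basis K j) ∈ _
    rw [← ω.sum_repr (RingOfIntegers.basis K j), intEmb_sum]
    exact Submodule.sum_mem _ fun i _ => Submodule.smul_mem _ _ (Submodule.subset_span ⟨i, rfl⟩)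
  have hcard : Fintype.card ι = finrank ℝ (mixedSpace K) := by
    rw [mixedEmbedding.finrank, ← RingOfIntegers.rank, Module.finrank_eq_card_basis ω]
  exact ⟨basisOfTopLeSpanOfCardEqFinrank _ hspan hcard, fun i => by simp⟩

theorem norm_pos_of_sign {x y : 𝓞 K} (hy : 0 < Algebra.norm ℤ y)
    (h : ∀ w : {w : InfinitePlace K // IsReal w}, 0 < (intEmb K x).1 w * (intEmb K y).1 w)
    (hx : x ≠ 0) : 0 < Algebra.norm ℤ x := by
  have hy0 : y ≠ 0 := fun e => by rw [e, Algebra.norm_zero] at hy; exact lt_irrefl _ hy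
  have hpos : 0 < Algebra.norm ℤ (x * y) := by
    have h' := FA.ArtinRec.norm_pos_of_totallyPositive (K := ℚ)
      (x := ((x * y : 𝓞 K) : K)) (RingOfIntegers.coe_ne_zero_iff.mpr (mul_ne_zero hx hy0))
      (fun φ => by
        obtain ⟨w, rfl⟩ := FA.Hecke.exists_isReal_embedding φ
        simpa [intEmb] using h w) (algebraMap ℚ ℝ)
    rw [← Algebra.coe_norm_int, map_intCast, Int.cast_pos] at h'
    exact h'
  rw [map_mul] at hpos
  exact (mul_pos_iff_of_pos_right hy).mp hpos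

/-- `p` is the value of the norm form at a vector in the cone, congruent to `a` modulo `m`. -/
def IsFormValue (ω : ι → 𝓞 K) (C : Set (ι → ℝ)) (m : ℕ) (a : ι → ℤ) (p : ℕ) : Prop :=
  ∃ x : ι → ℤ, (∀ i, (m : ℤ) ∣ x i - a i) ∧ (fun i => (x i : ℝ)) ∈ C ∧
    Algebra.norm ℤ (∑ i, x i • ω i) = (p : ℤ)

/-- **Norm forms take prime values in every cone of positivity.** -/
theorem exists_count_normForm (ω : Basis ι ℤ (𝓞 K)) {C : Set (ι → ℝ)} (hC : IsOpen C)
    (hsm : ∀ x ∈ C, ∀ r : ℝ, 0 < r → r • x ∈ C) (x₀ : ι → ℤ) (hx₀ : (fun i => (x₀ i : ℝ)) ∈ C)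
    (hpos : 0 < Algebra.norm ℤ (∑ i, x₀ i • ω i)) {m : ℕ} (hm : 0 < m) (a : ι → ℤ)
    (ha : Ideal.span {∑ i, a i • ω i} ⊔ Ideal.span {(m : 𝓞 K)} = ⊤) :
    ∃ c : ℝ, 0 < c ∧ ∀ᶠ n : ℕ in atTop, c * (n : ℝ) / Real.log n ≤
      (((Finset.range (n + 1)).filter fun p => p.Prime ∧ IsFormValue ω C m a p).card : ℝ) := by
  obtain ⟨B, hB⟩ := exists_realBasis ω
  obtain ⟨z₀, hz₀⟩ : ∃ z₀, z₀ = ∑ i, x₀ i • ω i := ⟨_, rfl⟩
  have hz0 : z₀ ≠ 0 := fun e => by rw [← hz₀, e, Algebra.norm_zero] at hpos; exact lt_irrefl _ hpos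
  have hL : ∀ c : ι → ℤ, (fun i => B.repr (intEmb K (∑ j, c j • ω j)) i) =
      fun i => (c i : ℝ) := fun c => funext fun i => by
    rw [intEmb_sum]
    simp only [← hB]
    rw [B.repr_sum_self]
  obtain ⟨D, hD⟩ : ∃ D : Set (mixedSpace K), D = {z | (fun i => B.repr z i) ∈ C ∧
      ∀ w : {w : InfinitePlace K // IsReal w}, 0 < z.1 w * (intEmb K z₀).1 w} := ⟨_, rfl⟩
  have hDo : IsOpen D := by
    rw [hD, Set.ofPred_and]
    refine (hC.preimage (continuous_pi fun i =>
      (B.coord i).continuous_of_finiteDimensional)).inter ?_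
    rw [Set.ofPred_forall]
    exact isOpen_iInter_of_finite fun w => isOpen_lt continuous_const
      (((continuous_apply w).comp continuous_fst).mul continuous_const)
  have hDs : ∀ z ∈ D, ∀ r : ℝ, 0 < r → r • z ∈ D := fun z hz r hr => by
    rw [hD] at hz ⊢
    refine ⟨?_, fun w => ?_⟩
    · rw [show (fun i => B.repr (r • z) i) = r • fun i => B.repr z i from funext fun i => by simp]
      exact hsm _ hz.1 r hr
    · rw [Prod.smul_fst, Pi.smul_apply, smul_eq_mul, mul_assoc]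
      exact mul_pos hr (hz.2 w)
  have hzD : intEmb K z₀ ∈ D := by
    rw [hD]
    refine ⟨by rw [hz₀, hL]; exact hx₀, fun w => mul_self_pos.mpr fun e => ?_⟩
    exact place_ne_zero (norm_intEmb_ne_zero hz0) w.1 (by
      rw [normAtPlace_apply_of_isReal w.2, Subtype.coe_eta, e, norm_zero])
  have h𝔪 : Ideal.span {(m : 𝓞 K)} ≠ ⊥ := by
    rw [Ne, Ideal.span_singleton_eq_bot, Nat.cast_eq_zero]; omega
  obtain ⟨c, hc, h⟩ := exists_count_cone h𝔪 (β := ∑ i, a i • ω i) ha hDo hDs hzD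
    (norm_intEmb_ne_zero hz0)
  refine ⟨c / finrank ℚ K, div_pos hc (Nat.cast_pos.mpr finrank_pos), h.mono fun n hn => ?_⟩
  obtain ⟨S, hS⟩ : ∃ S, S = (primesLE K n).filter fun v => (absNorm v.asIdeal).Prime ∧
    ∃ x : 𝓞 K, x - ∑ i, a i • ω i ∈ Ideal.span {(m : 𝓞 K)} ∧
      Ideal.span {x} = v.asIdeal ∧ intEmb K x ∈ D := ⟨_, rfl⟩
  rw [← hS] at hn
  obtain ⟨T, hT⟩ : ∃ T, T = (Finset.range (n + 1)).filter
    fun p => p.Prime ∧ IsFormValue ω C m a p := ⟨_, rfl⟩
  rw [← hT]
  have hmap : ∀ v ∈ S, absNorm v.asIdeal ∈ T := fun v hv => by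
    rw [hS, Finset.mem_filter, mem_primesLE] at hv
    obtain ⟨hvn, hp, x, hxa, hxv, hxD⟩ := hv
    rw [hT, Finset.mem_filter, Finset.mem_range]
    obtain ⟨c', rfl⟩ : ∃ c' : ι → ℤ, ∑ i, c' i • ω i = x := ⟨fun i => ω.repr x i, ω.sum_repr x⟩
    rw [hD] at hxD
    refine ⟨by omega, hp, c', fun i => ?_, by have := hxD.1; rwa [hL] at this, ?_⟩
    · obtain ⟨q, hq⟩ := Ideal.mem_span_singleton.mp hxa
      have := congrArg (fun z => ω.repr z i) hq
      simp only [map_sub, Finsupp.sub_apply, ω.repr_sum_self] at this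
      rw [show (m : 𝓞 K) * q = (m : ℤ) • q by rw [zsmul_eq_mul, Int.cast_natCast]] at this
      rw [this, map_zsmul, Finsupp.smul_apply, smul_eq_mul]
      exact dvd_mul_right _ _
    · have hne : ∑ i, c' i • ω i ≠ 0 := fun e => v.ne_bot (by rw [← hxv, e]; simp)
      have hp' : 0 < Algebra.norm ℤ (∑ i, c' i • ω i) :=
        norm_pos_of_sign (hz₀ ▸ hpos) hxD.2 hne
      rw [← hxv, absNorm_span_singleton, Int.natAbs_of_nonneg hp'.le]
  have hcard : S.card ≤ finrank ℚ K * T.card := by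
    refine Finset.card_le_mul_card_image_of_maps_to hmap _ fun p hp => ?_
    rw [hT, Finset.mem_filter] at hp
    exact FA.ImagQuad.card_filter_absNorm_le hp.2.1 S
  have h4 : (S.card : ℝ) ≤ finrank ℚ K * T.card := by exact_mod_cast hcard
  have hf : (0 : ℝ) < finrank ℚ K := Nat.cast_pos.mpr finrank_pos
  rw [div_mul_eq_mul_div, div_div, mul_comm (finrank ℚ K : ℝ), ← div_div, div_le_iff₀ hf,
    mul_comm (T.card : ℝ)]
  exact hn.trans h4

end FA.HeckeTorus

end
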