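import Fermat.Agent.HeckeTorus.RealQuad
import Fermat.Agent.ImagQuadAngles.Forms

/-!
# Primes `x² - n y²` in cones

In `ℚ(√n)` a totally positive integer congruent to `1` modulo `2 n` is `x + y √n` with integers
`x > 0` and `y`, and `log ((x + y √n) / (x - y √n))` determines `x / (y √n)`. So for every cone
`1 < a < x / (y √n) < b` a positive proportion of the primes is `x² - n y²` there.
-/

set_option autoImplicit false
set_option linter.unusedSectionVars false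

noncomputable section

open NumberField IsDedekindDomain Ideal Filter Topology Module Polynomial
open scoped nonZeroDivisors Classical

namespace FA.HeckeTorus

theorem isIntegral_sqrt (n : ℕ) : IsIntegral ℤ (Real.sqrt n) :=
  IsIntegral.of_pow two_pos (by
    rw [Real.sq_sqrt (Nat.cast_nonneg n)]; exact isIntegral_algebraMap (R := ℤ) (x := (n : ℤ)))

/-- `ℚ(√n)`. -/
abbrev QuadRe (n : ℕ) : IntermediateField ℚ ℝ := IntermediateField.adjoin ℚ {Real.sqrt n}

theorem minpoly_sqrt {n : ℕ} (hn : ¬IsSquare n) :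
    minpoly ℚ (Real.sqrt n) = X ^ 2 - C (n : ℚ) := by
  refine (minpoly.eq_of_irreducible_of_monic ?_ ?_ (monic_X_pow_sub_C _ two_ne_zero)).symm
  · exact X_pow_sub_C_irreducible_of_prime Nat.prime_two fun b hb =>
      hn (Rat.isSquare_natCast_iff.mp ⟨b, by rw [← hb, sq]⟩)
  · simp [Real.sq_sqrt (Nat.cast_nonneg (α := ℝ) n)]

theorem numberField_quadRe (n : ℕ) : NumberField (QuadRe n) :=
  haveI := IntermediateField.adjoin.finiteDimensional
    ((isIntegral_sqrt n).tower_top (A := ℚ))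
  { }

theorem finrank_quadRe {n : ℕ} (hn : ¬IsSquare n) : finrank ℚ (QuadRe n) = 2 := by
  rw [IntermediateField.adjoin.finrank ((isIntegral_sqrt n).tower_top (A := ℚ)),
    minpoly_sqrt hn, natDegree_X_pow_sub_C]

theorem exists_coord_re {n : ℕ} (hn : ¬IsSquare n) :
    ∃ σ : QuadRe n →ₐ[ℚ] ℝ, ∀ z : QuadRe n, ∃ a b : ℚ,
      (z : ℝ) = a + b * Real.sqrt n ∧ σ z = a - b * Real.sqrt n := by
  have hi := (isIntegral_sqrt n).tower_top (A := ℚ)
  let pb := IntermediateField.adjoin.powerBasis hi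
  have hgen : minpoly ℚ pb.gen = X ^ 2 - C (n : ℚ) := by
    rw [IntermediateField.adjoin.powerBasis_gen]
    exact (IntermediateField.minpoly_gen _ _).trans (minpoly_sqrt hn)
  have hroot : aeval (-Real.sqrt n) (minpoly ℚ pb.gen) = 0 := by
    simp [hgen, Real.sq_sqrt (Nat.cast_nonneg (α := ℝ) n)]
  refine ⟨pb.lift _ hroot, fun z => ?_⟩
  obtain ⟨f, hf, hz⟩ := pb.exists_eq_aeval z
  have hd : f.natDegree ≤ 1 := by
    rw [IntermediateField.adjoin.powerBasis_dim, minpoly_sqrt hn, natDegree_X_pow_sub_C] at hf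
    omega
  refine ⟨f.coeff 0, f.coeff 1, ?_, ?_⟩
  · rw [hz, eq_X_add_C_of_natDegree_le_one hd]
    simp [pb, IntermediateField.adjoin.powerBasis_gen, add_comm]
  · rw [hz, ← Polynomial.aeval_algHom_apply]
    erw [PowerBasis.lift_gen]
    rw [eq_X_add_C_of_natDegree_le_one hd]
    simp [add_comm, sub_eq_add_neg]

theorem exists_int_of_isIntegral_re {q : ℚ} (h : IsIntegral ℤ (q : ℝ)) : ∃ m : ℤ, q = m :=
  FA.ImagQuad.exists_int_of_isIntegral (by simpa using h.map Complex.ofRealHom.toIntAlgHom)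

/-- `1 + 2 n z` is in `ℤ[√n]`. -/
theorem exists_int_coord_re {n : ℕ} [NumberField (QuadRe n)]
    (σ : QuadRe n →ₐ[ℚ] ℝ) (hσ : ∀ z : QuadRe n, ∃ a b : ℚ,
      (z : ℝ) = a + b * Real.sqrt n ∧ σ z = a - b * Real.sqrt n) {x : 𝓞 (QuadRe n)}
    (hx : x - 1 ∈ Ideal.span {((2 * n : ℕ) : 𝓞 (QuadRe n))}) :
    ∃ A B : ℤ, ((x : QuadRe n) : ℝ) = A + B * Real.sqrt n ∧
      σ (x : QuadRe n) = A - B * Real.sqrt n := by
  obtain ⟨z, hz⟩ := Ideal.mem_span_singleton'.mp hx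
  obtain ⟨a, b, hab, hab'⟩ := hσ (z : QuadRe n)
  have hzi : IsIntegral ℤ ((z : QuadRe n) : ℝ) :=
    z.isIntegral_coe.map ((QuadRe n).val.restrictScalars ℤ)
  have hzi' : IsIntegral ℤ (σ (z : QuadRe n)) := z.isIntegral_coe.map (σ.restrictScalars ℤ)
  obtain ⟨t, ht⟩ := exists_int_of_isIntegral_re (q := 2 * a) (by
    rw [show ((2 * a : ℚ) : ℝ) = ((z : QuadRe n) : ℝ) + σ (z : QuadRe n) by
      rw [hab, hab']; push_cast; ring]
    exact hzi.add hzi')
  obtain ⟨N, hN⟩ := exists_int_of_isIntegral_re (q := a ^ 2 - n * b ^ 2) (by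
    rw [show ((a ^ 2 - n * b ^ 2 : ℚ) : ℝ) = ((z : QuadRe n) : ℝ) * σ (z : QuadRe n) by
      rw [hab, hab']; push_cast
      linear_combination ((b : ℝ)) ^ 2 * Real.sq_sqrt (Nat.cast_nonneg (α := ℝ) n)]
    exact hzi.mul hzi')
  obtain ⟨B, hB⟩ : ∃ B : ℤ, 2 * n * b = B := by
    refine exists_int_of_isIntegral_re (IsIntegral.of_pow two_pos ?_)
    have e : ((2 * n * b : ℚ) : ℝ) ^ 2 = (((n : ℤ) * (t ^ 2 - 4 * N) : ℤ) : ℝ) := by
      have e' : (2 * n * b : ℚ) ^ 2 = ((n : ℤ) * (t ^ 2 - 4 * N) : ℤ) := by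
        push_cast; rw [← hN, ← ht]; ring
      rw [← Rat.cast_pow, e']
      push_cast
      rfl
    rw [e]
    exact isIntegral_algebraMap (R := ℤ) (A := ℝ)
  refine ⟨1 + n * t, B, ?_⟩
  have hx' : (x : QuadRe n) = 1 + ((2 * n : ℕ) : QuadRe n) * (z : QuadRe n) := by
    have h := congrArg (fun w : 𝓞 (QuadRe n) => (w : QuadRe n)) hz
    simp [map_ofNat] at h
    push_cast
    linear_combination -h
  have ht' : (2 : ℝ) * a = t := by exact_mod_cast congrArg (fun q : ℚ => (q : ℝ)) ht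
  have hB' : (2 : ℝ) * n * b = B := by exact_mod_cast congrArg (fun q : ℚ => (q : ℝ)) hB
  rw [hx']
  constructor
  · rw [IntermediateField.coe_add, IntermediateField.coe_one, IntermediateField.coe_mul, hab,
      SubringClass.coe_natCast]
    push_cast
    linear_combination (n : ℝ) * ht' + Real.sqrt n * hB'
  · rw [map_add, map_one, map_mul, map_natCast, hab']
    push_cast
    linear_combination (n : ℝ) * ht' - Real.sqrt n * hB'

/-- `p = x² - n y²` with `a < x / (y √n) < b`. -/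
def InCone (n : ℕ) (a b : ℝ) (p : ℕ) : Prop :=
  ∃ x y : ℤ, 0 < x ∧ 0 < y ∧ x ^ 2 - (n : ℤ) * y ^ 2 = p ∧
    a * (y * Real.sqrt n) < x ∧ (x : ℝ) < b * (y * Real.sqrt n)

/-- **Positive density of the primes `x² - n y²` in a cone.** -/
theorem exists_density_cone {n : ℕ} (hn : ¬IsSquare n) {a b : ℝ} (ha : 1 < a) (hab : a < b) :
    ∃ c : ℝ, 0 < c ∧ ∀ᶠ N : ℕ in atTop, c * (N : ℝ) / Real.log N ≤
      (((Finset.range (N + 1)).filter fun p => p.Prime ∧ InCone n a b p).card : ℝ) := by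
  have := numberField_quadRe n
  have hn0 : n ≠ 0 := fun h => hn ⟨0, by simp [h]⟩
  have hsq : 0 < Real.sqrt n := Real.sqrt_pos.mpr (Nat.cast_pos.mpr (Nat.pos_of_ne_zero hn0))
  have hK := finrank_quadRe hn
  obtain ⟨σ, hσ⟩ := exists_coord_re hn
  obtain ⟨φ, hφ⟩ : ∃ φ : QuadRe n →+* ℝ, φ = (QuadRe n).val.toRingHom := ⟨_, rfl⟩
  obtain ⟨ψ, hψ⟩ : ∃ ψ : QuadRe n →+* ℝ, ψ = σ.toRingHom := ⟨_, rfl⟩
  have hne : φ ≠ ψ := fun e => by
    obtain ⟨s, hs⟩ : ∃ s : QuadRe n, s =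
        ⟨Real.sqrt n, IntermediateField.mem_adjoin_simple_self ℚ _⟩ := ⟨_, rfl⟩
    obtain ⟨u, w, h1, h2⟩ := hσ s
    have h3 : (s : ℝ) = σ s := by
      have := RingHom.congr_fun e s; rw [hφ, hψ] at this; exact this
    have h4 : (w : ℝ) * Real.sqrt n = 0 := by linarith [h3, h1, h2]
    have h5 : (u : ℝ) = Real.sqrt n := by
      rw [h4, add_zero, hs] at h1; exact h1.symm
    exact hn (Rat.isSquare_natCast_iff.mp ⟨u, by
      rw [← Rat.cast_inj (α := ℝ)]
      push_cast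
      rw [h5, Real.mul_self_sqrt (Nat.cast_nonneg n)]⟩)
  obtain ⟨𝔪, hm⟩ : ∃ 𝔪, 𝔪 = Ideal.span {((2 * n : ℕ) : 𝓞 (QuadRe n))} := ⟨_, rfl⟩
  have h𝔪 : 𝔪 ≠ ⊥ := by
    rw [hm, Ne, Ideal.span_singleton_eq_bot, Nat.cast_eq_zero]; omega
  obtain ⟨L, hL, hu, hu'⟩ := exists_regulator hK hne h𝔪
  -- the cone in the logarithm of the ratio
  obtain ⟨A', hA'⟩ : ∃ A', A' = Real.log ((b + 1) / (b - 1)) := ⟨_, rfl⟩
  obtain ⟨B', hB'⟩ : ∃ B', B' = Real.log ((a + 1) / (a - 1)) := ⟨_, rfl⟩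
  have hA0 : 0 < A' := hA' ▸ Real.log_pos (by rw [one_lt_div (by linarith)]; linarith)
  have hAB : A' < B' := by
    rw [hA', hB']
    refine Real.log_lt_log (div_pos (by linarith) (by linarith)) ?_
    rw [div_lt_div_iff₀ (by linarith) (by linarith)]
    nlinarith
  obtain ⟨θ₁, θ₂, h1θ, h12, h2θ, hlen⟩ : ∃ θ₁ θ₂ : ℝ,
      A' < θ₁ ∧ θ₁ < θ₂ ∧ θ₂ < B' ∧ θ₂ - θ₁ ≤ L :=
    ⟨A' + (B' - A') / 3, A' + (B' - A') / 3 + min ((B' - A') / 3) L, by linarith,
      lt_add_of_pos_right _ (lt_min (by linarith) hL),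
      by linarith [min_le_left ((B' - A') / 3) L], by linarith [min_le_right ((B' - A') / 3) L]⟩
  have hlim := tendsto_inSlot hK hne h𝔪 hL hu hu' (J := ⊤) top_ne_bot (top_sup_eq 𝔪) h12.le hlen
  obtain ⟨D, hD⟩ : ∃ D : ℝ, D = (θ₂ - θ₁) /
    (L * Nat.card (FA.Hecke.RayClassGroup 𝔪)) := ⟨_, rfl⟩
  rw [← hD] at hlim
  have hD0 : 0 < D := by
    have := FA.Hecke.finite_rayClassGroup h𝔪
    rw [hD]
    exact div_pos (by linarith) (mul_pos hL (Nat.cast_pos.mpr Nat.card_pos))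
  -- the primes of nonprime norm do not count
  have hmean : Tendsto (fun N : ℕ => Real.log N / N * (((FA.Hecke.primesLE (QuadRe n) N).filter
      fun v => (absNorm v.asIdeal).Prime ∧ InSlot φ ψ 𝔪 ⊤ θ₁ θ₂ v).card : ℝ)) atTop (𝓝 D) := by
    have hz : FA.Hecke.HasMean (fun v : HeightOneSpectrum (𝓞 (QuadRe n)) =>
        if InSlot φ ψ 𝔪 ⊤ θ₁ θ₂ v ∧ ¬(absNorm v.asIdeal).Prime then (1 : ℝ) else 0) 0 := by
      refine FA.Hecke.hasMean_congr ∅ Set.finite_empty (b := fun _ => 0) (B := 1) (fun v => ?_)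
        (fun v _ hv => if_neg fun h => h.2 hv) ?_
      · split_ifs <;> simp
      · simp [FA.Hecke.HasMean, FA.Hecke.wSum]
    have h1 := hlim.sub (hz.comp tendsto_natCast_atTop_atTop)
    rw [sub_zero] at h1
    refine h1.congr fun N => ?_
    simp only [Function.comp_apply, FA.Hecke.wSum, Nat.floor_natCast, smul_eq_mul,
      Finset.sum_boole, ← mul_sub]
    congr 1
    rw [sub_eq_iff_eq_add, ← Nat.cast_add, Nat.cast_inj, ← Finset.card_filter_add_card_filter_not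
      (s := (FA.Hecke.primesLE (QuadRe n) N).filter (InSlot φ ψ 𝔪 ⊤ θ₁ θ₂))
      (fun v : HeightOneSpectrum (𝓞 (QuadRe n)) => (absNorm v.asIdeal).Prime),
      Finset.filter_filter, Finset.filter_filter]
    simp only [and_comm]
  refine ⟨D / 4, by linarith, ?_⟩
  filter_upwards [hmean.eventually (lt_mem_nhds (half_lt_self hD0)), eventually_gt_atTop 1]
    with N hN hN1
  have hlog : 0 < Real.log N := Real.log_pos (by exact_mod_cast hN1)
  have hN0 : (0 : ℝ) < N := by exact_mod_cast zero_lt_one.trans hN1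
  obtain ⟨S, hS⟩ : ∃ S, S = (FA.Hecke.primesLE (QuadRe n) N).filter fun v =>
    (absNorm v.asIdeal).Prime ∧ InSlot φ ψ 𝔪 ⊤ θ₁ θ₂ v := ⟨_, rfl⟩
  rw [← hS] at hN
  obtain ⟨T, hT⟩ : ∃ T, T = (Finset.range (N + 1)).filter fun p => p.Prime ∧ InCone n a b p :=
    ⟨_, rfl⟩
  rw [← hT]
  have hmap : ∀ v ∈ S, absNorm v.asIdeal ∈ T := fun v hv => by
    rw [hS, Finset.mem_filter, FA.Hecke.mem_primesLE] at hv
    obtain ⟨hvN, hp, x, hx1, hx, ht⟩ := hv
    rw [hT, Finset.mem_filter, Finset.mem_range]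
    refine ⟨by omega, hp, ?_⟩
    obtain ⟨A, B, hAB₁, hAB₂⟩ := exists_int_coord_re σ hσ (hm ▸ hx1.2.1)
    have hφx : φ x = A + B * Real.sqrt n := by rw [hφ]; exact hAB₁
    have hψx : ψ x = A - B * Real.sqrt n := by rw [hψ]; exact hAB₂
    have h1 := hx1.2.2 φ
    have h2 := hx1.2.2 ψ
    have hnorm : φ x * ψ x = (absNorm v.asIdeal : ℝ) := by
      rw [← abs_of_pos h1, ← abs_of_pos h2, abs_mul_abs hK hne, hx, Ideal.mul_top]
    rw [logRatio, abs_of_pos h1, abs_of_pos h2, ← Real.log_div h1.ne' h2.ne'] at ht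
    have hlo : (b + 1) / (b - 1) < φ x / ψ x := by
      rw [← Real.log_lt_log_iff (div_pos (by linarith) (by linarith)) (div_pos h1 h2), ← hA']
      exact h1θ.trans_le ht.1
    have hhi : φ x / ψ x < (a + 1) / (a - 1) := by
      rw [← Real.log_lt_log_iff (div_pos h1 h2) (div_pos (by linarith) (by linarith)), ← hB']
      exact ht.2.trans_lt h2θ
    rw [div_lt_div_iff₀ (by linarith) h2, hφx, hψx] at hlo
    rw [div_lt_div_iff₀ h2 (by linarith), hφx, hψx] at hhi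
    rw [hφx] at h1
    rw [hψx] at h2
    have hA : 0 < (A : ℝ) := by linarith
    have hB : 0 < (B : ℝ) * Real.sqrt n := by nlinarith
    refine ⟨A, B, by exact_mod_cast hA, by exact_mod_cast pos_of_mul_pos_left hB hsq.le, ?_,
      by nlinarith, by nlinarith⟩
    have h : ((A : ℝ)) ^ 2 - n * (B : ℝ) ^ 2 = (absNorm v.asIdeal : ℝ) := by
      rw [← hnorm, hφx, hψx]
      linear_combination ((B : ℝ) ^ 2) * Real.sq_sqrt (Nat.cast_nonneg (α := ℝ) n)
    exact_mod_cast h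
  have hcard : S.card ≤ 2 * T.card := by
    refine Finset.card_le_mul_card_image_of_maps_to hmap 2 fun p hp => ?_
    rw [hT, Finset.mem_filter] at hp
    refine le_trans ?_ (le_of_eq hK)
    exact FA.ImagQuad.card_filter_absNorm_le hp.2.1 S
  have h4 : (S.card : ℝ) ≤ 2 * T.card := by exact_mod_cast hcard
  rw [div_mul_eq_mul_div, lt_div_iff₀ hN0] at hN
  rw [div_le_iff₀ hlog]
  nlinarith [mul_le_mul_of_nonneg_left h4 hlog.le]

end FA.HeckeTorus

end
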