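import Fermat.Agent.HeckeTorus.Ray
import Fermat.Agent.ImagQuadAngles.Joint

/-!
# Real quadratic fields: ray class and `log (x / x')`

Two distinct embeddings `φ`, `ψ` of a quadratic field in `ℝ` give its two infinite places. The
values of `log |φ u| - log |ψ u|` at the totally positive units congruent to `1` are the multiples
of one `L > 0`; the primes of a narrow ray class are equidistributed for this logarithm of their
generators modulo `L`.
-/

set_option autoImplicit false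
set_option linter.unusedSectionVars false

noncomputable section

open NumberField NumberField.InfinitePlace IsDedekindDomain Ideal Filter Topology Module
open FA.GaussAngle (expMeanZero_mul_add tendsto_count_Icc)
open FA.Hecke (coprimeIdeals IsRayElt RayClassGroup primesLE mem_primesLE)
open FA.Ext (intEmb)
open FA.ThreePrimes (eAdd)
open scoped nonZeroDivisors Classical

namespace FA.HeckeTorus

variable {K : Type*} [Field K] [NumberField K] {φ ψ : K →+* ℝ} {𝔪 : Ideal (𝓞 K)}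

/-- `log |φ x| - log |ψ x|`. -/
def logRatio (φ ψ : K →+* ℝ) (x : 𝓞 K) : ℝ := Real.log |φ x| - Real.log |ψ x|

/-- The place of a real embedding. -/
def rePlace (φ : K →+* ℝ) : InfinitePlace K := InfinitePlace.mk (Complex.ofRealHom.comp φ)

theorem rePlace_apply (φ : K →+* ℝ) (x : K) : rePlace φ x = |φ x| := by
  simp [rePlace, InfinitePlace.apply]

theorem isReal_rePlace (φ : K →+* ℝ) : IsReal (rePlace φ) :=
  ⟨Complex.ofRealHom.comp φ, NumberField.ComplexEmbedding.isReal_iff.mpr (RingHom.ext fun y => by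
    simp [NumberField.ComplexEmbedding.conjugate_coe_eq, Complex.conj_ofReal]), rfl⟩

theorem rePlace_ne (h : φ ≠ ψ) : rePlace φ ≠ rePlace ψ := fun e => h (RingHom.ext fun y =>
  Complex.ofReal_inj.mp ((InfinitePlace.mk_eq_iff.mp e).elim (fun e => RingHom.congr_fun e y)
    fun e => by simpa [NumberField.ComplexEmbedding.conjugate_coe_eq, Complex.conj_ofReal]
      using RingHom.congr_fun e y))

/-- **There are no further places.** -/
theorem places_eq (hK : finrank ℚ K = 2) (h : φ ≠ ψ) (w : InfinitePlace K) :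
    w = rePlace φ ∨ w = rePlace ψ := by
  by_contra hc
  push Not at hc
  have hs := Finset.sum_le_sum_of_subset (f := fun w : InfinitePlace K => w.mult)
    (Finset.subset_univ ({w, rePlace φ, rePlace ψ} : Finset (InfinitePlace K)))
  rw [sum_mult_eq, hK, Finset.sum_insert (by simp [hc.1, hc.2]),
    Finset.sum_insert (by simp [rePlace_ne h]), Finset.sum_singleton] at hs
  have h1 := w.mult_pos
  have h2 := (rePlace φ).mult_pos
  have h3 := (rePlace ψ).mult_pos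
  omega

theorem isReal_all (hK : finrank ℚ K = 2) (h : φ ≠ ψ) (w : InfinitePlace K) : IsReal w := by
  rcases places_eq hK h w with rfl | rfl <;> exact isReal_rePlace _

theorem sum_places (hK : finrank ℚ K = 2) (h : φ ≠ ψ) (F : InfinitePlace K → ℝ) :
    ∑ w, (mult w : ℝ) * F w = F (rePlace φ) + F (rePlace ψ) := by
  rw [show (Finset.univ : Finset (InfinitePlace K)) = {rePlace φ, rePlace ψ} from
      (Finset.eq_univ_iff_forall.mpr fun w => by simpa using places_eq hK h w).symm,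
    Finset.sum_pair (rePlace_ne h), mult_isReal ⟨_, isReal_rePlace φ⟩,
    mult_isReal ⟨_, isReal_rePlace ψ⟩]
  simp

/-- **The norm is the product.** -/
theorem abs_mul_abs (hK : finrank ℚ K = 2) (h : φ ≠ ψ) (x : 𝓞 K) :
    |φ x| * |ψ x| = (absNorm (Ideal.span {x}) : ℝ) := by
  have e := prod_eq_abs_norm (x : K)
  rw [show (Finset.univ : Finset (InfinitePlace K)) = {rePlace φ, rePlace ψ} from
      (Finset.eq_univ_iff_forall.mpr fun w => by simpa using places_eq hK h w).symm,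
    Finset.prod_pair (rePlace_ne h), mult_isReal ⟨_, isReal_rePlace φ⟩,
    mult_isReal ⟨_, isReal_rePlace ψ⟩,
    pow_one, pow_one, rePlace_apply, rePlace_apply] at e
  rw [e, absNorm_span_singleton, ← Algebra.coe_norm_int, ← Int.cast_abs, Nat.cast_natAbs,
    Rat.cast_intCast]

theorem logRatio_mul {x y : 𝓞 K} (hx : x ≠ 0) (hy : y ≠ 0) :
    logRatio φ ψ (x * y) = logRatio φ ψ x + logRatio φ ψ y := by
  have h : ∀ (χ : K →+* ℝ) {x : 𝓞 K}, x ≠ 0 → |χ x| ≠ 0 := fun χ x hx =>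
    abs_ne_zero.mpr ((map_ne_zero χ).mpr (RingOfIntegers.coe_ne_zero_iff.mpr hx))
  simp only [logRatio, map_mul, abs_mul,
    Real.log_mul (h φ hx) (h φ hy), Real.log_mul (h ψ hx) (h ψ hy)]
  ring

/-- The totally positive units congruent to `1`. -/
def posRayUnits (𝔪 : Ideal (𝓞 K)) : Subgroup (𝓞 K)ˣ where
  carrier := {u | IsRayElt 𝔪 (u : 𝓞 K)}
  one_mem' := by
    show IsRayElt 𝔪 ((1 : (𝓞 K)ˣ) : 𝓞 K)
    rw [Units.val_one]; exact FA.Hecke.isRayElt_one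
  mul_mem' {u v} hu hv := by
    show IsRayElt 𝔪 ((u * v : (𝓞 K)ˣ) : 𝓞 K)
    rw [Units.val_mul]; exact hu.mul hv
  inv_mem' {u} hu := by
    refine ⟨u⁻¹.ne_zero, ?_, fun χ => ?_⟩
    · rw [show ((u⁻¹ : (𝓞 K)ˣ) : 𝓞 K) - 1 = -(((u : 𝓞 K) - 1) * ((u⁻¹ : (𝓞 K)ˣ) : 𝓞 K)) by
        rw [sub_mul, Units.mul_inv, one_mul, neg_sub]]
      exact 𝔪.neg_mem (𝔪.mul_mem_right _ hu.2.1)
    · refine (mul_pos_iff_of_pos_left (hu.2.2 χ)).mp ?_
      rw [← map_mul, ← _root_.map_mul, Units.mul_inv, map_one, map_one]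
      exact one_pos

/-- `log |φ| - log |ψ|` of the units. -/
def unitRatio (φ ψ : K →+* ℝ) : Additive (𝓞 K)ˣ →+ ℝ where
  toFun u := logRatio φ ψ ((Additive.toMul u : (𝓞 K)ˣ) : 𝓞 K)
  map_zero' := by simp [logRatio]
  map_add' u v := logRatio_mul (Additive.toMul u).ne_zero (Additive.toMul v).ne_zero

/-- **The regulator of the ray units.** -/
theorem exists_regulator (hK : finrank ℚ K = 2) (h : φ ≠ ψ) (h𝔪 : 𝔪 ≠ ⊥) :
    ∃ L : ℝ, 0 < L ∧ (∀ u : (𝓞 K)ˣ, IsRayElt 𝔪 (u : 𝓞 K) →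
        ∃ m : ℤ, logRatio φ ψ (u : 𝓞 K) = m * L) ∧
      ∀ m : ℤ, ∃ u : (𝓞 K)ˣ, IsRayElt 𝔪 (u : 𝓞 K) ∧ logRatio φ ψ (u : 𝓞 K) = m * L := by
  have hr : Units.rank K = 1 := by
    have hc : nrComplexPlaces K = 0 := Fintype.card_eq_zero_iff.mpr
      ⟨fun w => (not_isReal_iff_isComplex.mpr w.2) (isReal_all hK h w.1)⟩
    have h2 := card_add_two_mul_card_eq_rank K
    have h3 := card_eq_nrRealPlaces_add_nrComplexPlaces K
    rw [Units.rank]; omega
  obtain ⟨i⟩ : Nonempty (Fin (Units.rank K)) := ⟨⟨0, by omega⟩⟩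
  obtain ⟨ε, hε⟩ : ∃ ε, ε = Units.fundSystem K i := ⟨_, rfl⟩
  obtain ⟨ρ, hρ⟩ : ∃ ρ, ρ = logRatio φ ψ (ε : 𝓞 K) := ⟨_, rfl⟩
  have hsum : ∀ u : (𝓞 K)ˣ, Real.log |φ (u : 𝓞 K)| + Real.log |ψ (u : 𝓞 K)| = 0 := fun u => by
    have := Units.sum_mult_mul_log u
    rwa [sum_places hK h, rePlace_apply, rePlace_apply] at this
  have hρ0 : ρ ≠ 0 := fun e => by
    have h' := sub_eq_zero.mp (hρ ▸ e : logRatio φ ψ (ε : 𝓞 K) = 0)
    have h1 := hsum ε
    have hz : Units.logEmbedding K (Additive.ofMul ε) = 0 := funext fun w => by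
      rw [Units.dirichletUnitTheorem.logEmbedding_component, mult_isReal ⟨w.1, isReal_all hK h w.1⟩]
      rcases places_eq hK h w.1 with e' | e' <;>
        (rw [e', rePlace_apply]; simp only [Nat.cast_one, one_mul, Pi.zero_apply]; linarith)
    rw [hε, Units.logEmbedding_fundSystem] at hz
    exact (Units.basisUnitLattice K).ne_zero i (Subtype.ext hz)
  have hall : ∀ u : (𝓞 K)ˣ, ∃ m : ℤ, logRatio φ ψ (u : 𝓞 K) = m * ρ := fun u => by
    obtain ⟨⟨ζ, e⟩, rfl, -⟩ := Units.exist_unique_eq_mul_prod K u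
    have hone : (Finset.univ : Finset (Fin (Units.rank K))) = {i} :=
      (Finset.eq_univ_iff_forall.mpr fun j => by
        rw [Finset.mem_singleton]; exact Fin.ext (by omega)).symm
    refine ⟨e i, ?_⟩
    show unitRatio φ ψ (Additive.ofMul ((ζ : (𝓞 K)ˣ) * ∏ j, Units.fundSystem K j ^ e j)) = _
    rw [hone, Finset.prod_singleton, ← hε, ofMul_mul, map_add, ofMul_zpow, map_zsmul,
      show unitRatio φ ψ (Additive.ofMul (ζ : (𝓞 K)ˣ)) = 0 by
        show logRatio φ ψ _ = 0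
        have := (Units.mem_torsion K).mp ζ.2
        simp [logRatio, ← rePlace_apply, this], zero_add, zsmul_eq_mul, hρ]
    rfl
  -- the subgroup of exponents
  let A : AddSubgroup ℤ := AddSubgroup.comap (zmultiplesHom ℝ ρ)
    (AddSubgroup.map (unitRatio φ ψ) (Subgroup.toAddSubgroup (posRayUnits 𝔪)))
  have hA : ∀ m : ℤ, m ∈ A ↔
      ∃ u : (𝓞 K)ˣ, IsRayElt 𝔪 (u : 𝓞 K) ∧ logRatio φ ψ (u : 𝓞 K) = m * ρ := fun m => by
    simp only [A, AddSubgroup.mem_comap, AddSubgroup.mem_map, zmultiplesHom_apply, zsmul_eq_mul]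
    constructor
    · rintro ⟨u, hu, e⟩; exact ⟨Additive.toMul u, hu, e⟩
    · rintro ⟨u, hu, e⟩; exact ⟨Additive.ofMul u, hu, e⟩
  obtain ⟨d, hd⟩ := Int.subgroup_cyclic A
  have hmem : ∀ m : ℤ, m ∈ A ↔ d ∣ m := fun m => by
    rw [hd, ← AddSubgroup.zmultiples_eq_closure, Int.mem_zmultiples_iff]
  have hd0 : d ≠ 0 := by
    obtain ⟨N, hN⟩ : ∃ N, N = 2 * FA.Hecke.unitCount 𝔪 := ⟨_, rfl⟩
    have hN0 : 0 < N := by have := FA.Hecke.unitCount_pos h𝔪; omega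
    have hc : Ideal.span {(ε : 𝓞 K)} ⊔ 𝔪 = ⊤ := by
      rw [Ideal.span_singleton_eq_top.mpr ε.isUnit, top_sup_eq]
    have hm : (N : ℤ) ∈ A := (hA _).mpr ⟨ε ^ N, by
      rw [Units.val_pow_eq_pow_val, hN]; exact FA.Hecke.ray_pow h𝔪 ε.ne_zero hc, by
      show unitRatio φ ψ (Additive.ofMul (ε ^ N)) = _
      rw [ofMul_pow, map_nsmul, nsmul_eq_mul, hρ]
      simp [unitRatio]⟩
    intro e
    have := (hmem _).mp hm
    rw [e, zero_dvd_iff] at this
    omega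
  obtain ⟨σ, hσ, hσ1⟩ : ∃ σ : ℤ, (σ : ℝ) * ((d : ℝ) * ρ) = |(d : ℝ) * ρ| ∧ σ * σ = 1 := by
    rcases le_total 0 ((d : ℝ) * ρ) with h' | h'
    · exact ⟨1, by rw [abs_of_nonneg h']; simp, by norm_num⟩
    · exact ⟨-1, by rw [abs_of_nonpos h']; simp, by norm_num⟩
  refine ⟨|(d : ℝ) * ρ|, abs_pos.mpr (mul_ne_zero (Int.cast_ne_zero.mpr hd0) hρ0),
    fun u hu => ?_, fun m => ?_⟩
  · obtain ⟨m, hm⟩ := hall u
    obtain ⟨c, rfl⟩ := (hmem m).mp ((hA m).mpr ⟨u, hu, hm⟩)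
    refine ⟨c * σ, ?_⟩
    rw [hm, ← hσ, ← mul_assoc, show ((c * σ : ℤ) : ℝ) * σ = c * ((σ * σ : ℤ) : ℝ) by
      push_cast; ring, hσ1]
    push_cast
    ring
  · obtain ⟨u, hu, e⟩ := (hA (d * (m * σ))).mp ((hmem _).mpr (dvd_mul_right _ _))
    refine ⟨u, hu, ?_⟩
    rw [e, ← hσ]
    push_cast
    ring

/-- `2 π h / L` at the place of `φ`, its negative at the other. -/
def ratioType (φ : K →+* ℝ) (c : ℝ) : InfinitePlace K → ℝ :=
  fun w => if w = rePlace φ then c else -c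

theorem balanced_ratioType (hK : finrank ℚ K = 2) (h : φ ≠ ψ) (c : ℝ) :
    Balanced (ratioType φ c) := by
  rw [Balanced, sum_places hK h]
  simp [ratioType, (rePlace_ne h).symm]

theorem infChar_ratioType (hK : finrank ℚ K = 2) (h : φ ≠ ψ) (c : ℝ) (x : 𝓞 K) :
    infChar (ratioType φ c) 0 (intEmb K x) =
      Complex.exp ((c * logRatio φ ψ x : ℝ) * Complex.I) := by
  rw [infChar, phase_intEmb]
  simp only [Pi.zero_apply, zpow_zero, Finset.prod_const_one, mul_one, mul_assoc]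
  rw [sum_places hK h]
  simp only [ratioType, if_pos, if_neg (rePlace_ne h).symm, rePlace_apply, logRatio]
  congr 3
  ring

/-- Some generator of `v J`, totally positive and congruent to `1`, has its logarithm in the
interval. -/
def InSlot (φ ψ : K →+* ℝ) (𝔪 J : Ideal (𝓞 K)) (θ₁ θ₂ : ℝ) (v : HeightOneSpectrum (𝓞 K)) :
    Prop :=
  ∃ x : 𝓞 K, IsRayElt 𝔪 x ∧ Ideal.span {x} = v.asIdeal * J ∧ logRatio φ ψ x ∈ Set.Icc θ₁ θ₂

theorem inSlot_iff {L : ℝ} (hL : 0 < L)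
    (hu : ∀ u : (𝓞 K)ˣ, IsRayElt 𝔪 (u : 𝓞 K) → ∃ m : ℤ, logRatio φ ψ (u : 𝓞 K) = m * L)
    (hu' : ∀ m : ℤ, ∃ u : (𝓞 K)ˣ, IsRayElt 𝔪 (u : 𝓞 K) ∧ logRatio φ ψ (u : 𝓞 K) = m * L)
    {J : Ideal (𝓞 K)} {v : HeightOneSpectrum (𝓞 K)} (hv : HasGen 𝔪 J v)
    {θ₁ θ₂ : ℝ} :
    InSlot φ ψ 𝔪 J θ₁ θ₂ v ↔
      ∃ m : ℤ, logRatio φ ψ (genElt 𝔪 J v) / L + m ∈ Set.Icc (θ₁ / L) (θ₂ / L) := by
  obtain ⟨h1, h2⟩ := genElt_spec hv
  obtain ⟨y, hy⟩ : ∃ y, y = genElt 𝔪 J v := ⟨_, rfl⟩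
  rw [← hy] at h1 h2 ⊢
  have e : ∀ (m : ℤ) (r : ℝ), r / L + m = (r + m * L) / L := fun m r => by field_simp
  simp only [e, Set.mem_Icc, div_le_div_iff_of_pos_right hL]
  constructor
  · rintro ⟨x, hx, hxv, ht⟩
    obtain ⟨u, rfl⟩ := (Ideal.span_singleton_eq_span_singleton.mp (hxv.trans h2.symm)).symm
    have hur : IsRayElt 𝔪 (u : 𝓞 K) := by
      refine ⟨u.ne_zero, ?_, fun χ => ?_⟩
      · rw [show (u : 𝓞 K) - 1 = (y * u - 1) - (y - 1) * u by ring]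
        exact 𝔪.sub_mem hx.2.1 (𝔪.mul_mem_right _ h1.2.1)
      · refine (mul_pos_iff_of_pos_left (h1.2.2 χ)).mp ?_
        rw [← map_mul, ← _root_.map_mul]
        exact hx.2.2 χ
    obtain ⟨m, hm⟩ := hu u hur
    refine ⟨m, ?_⟩
    rwa [logRatio_mul h1.1 u.ne_zero, hm] at ht
  · rintro ⟨m, hm⟩
    obtain ⟨u, hur, hum⟩ := hu' m
    exact ⟨y * u, h1.mul hur, by rw [Ideal.span_singleton_mul_right_unit u.isUnit, h2],
      by rw [logRatio_mul h1.1 u.ne_zero, hum]; exact hm⟩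

/-- **Equidistribution in a narrow ray class and modulo the regulator.** -/
theorem tendsto_inSlot (hK : finrank ℚ K = 2) (h : φ ≠ ψ) (h𝔪 : 𝔪 ≠ ⊥) {L : ℝ} (hL : 0 < L)
    (hu : ∀ u : (𝓞 K)ˣ, IsRayElt 𝔪 (u : 𝓞 K) → ∃ m : ℤ, logRatio φ ψ (u : 𝓞 K) = m * L)
    (hu' : ∀ m : ℤ, ∃ u : (𝓞 K)ˣ, IsRayElt 𝔪 (u : 𝓞 K) ∧ logRatio φ ψ (u : 𝓞 K) = m * L)
    {J : Ideal (𝓞 K)} (hJ0 : J ≠ ⊥) (hJ : J ⊔ 𝔪 = ⊤) {θ₁ θ₂ : ℝ} (h₁₂ : θ₁ ≤ θ₂)
    (hlen : θ₂ - θ₁ ≤ L) :
    Tendsto (fun n : ℕ => Real.log n / n *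
      (((primesLE K n).filter (InSlot φ ψ 𝔪 J θ₁ θ₂)).card : ℝ)) atTop
      (𝓝 ((θ₂ - θ₁) / (L * Nat.card (RayClassGroup 𝔪)))) := by
  let J' : coprimeIdeals 𝔪 := ⟨⟨J, mem_nonZeroDivisors_iff_ne_zero.mpr hJ0⟩, hJ⟩
  have hJ' : J'.1.1 = J := rfl
  have hmean := expMeanZero_of_chars h𝔪 J' (fun x => logRatio φ ψ x / L) fun q hq => by
    have hc : ∀ x : 𝓞 K, infChar (ratioType φ (2 * Real.pi * q / L)) 0 (intEmb K x) =
        eAdd ((q : ℝ) * (logRatio φ ψ x / L)) := fun x => by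
      rw [infChar_ratioType hK h, eAdd]
      congr 1
      push_cast
      field_simp
    obtain ⟨f, hf⟩ := exists_isTorusChar h𝔪 (balanced_ratioType hK h _) (k := 0)
      fun u hu'' => by
        obtain ⟨m, hm⟩ := hu u hu''
        rw [hc, hm, mul_div_cancel_right₀ _ hL.ne', ← Int.cast_mul]
        exact FA.ThreePrimes.eAdd_intCast _
    exact ⟨_, 0, f, Or.inl fun e => by
      simpa [ratioType, Real.pi_ne_zero, hq, hL.ne'] using congrFun e (rePlace φ),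
      hf, fun x _ => hc x⟩
  obtain ⟨a, ha⟩ : ∃ a, a = θ₁ / L := ⟨_, rfl⟩
  obtain ⟨b, hb⟩ : ∃ b, b = θ₂ / L := ⟨_, rfl⟩
  have hba : b - a = (θ₂ - θ₁) / L := by rw [ha, hb, sub_div]
  have hab : a ≤ b := by rw [ha, hb]; gcongr
  have hb1 : b - a ≤ 1 := by rw [hba, div_le_one hL]; exact hlen
  have hI := tendsto_count_Icc ((expMeanZero_mul_add hmean one_ne_zero (-a)).intervalMean
    (by simpa [Finset.card_map] using tendsto_card_atTop h𝔪 J')) le_rfl (sub_nonneg.mpr hab) hb1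
  rw [sub_zero, hba] at hI
  have h' := (tendsto_card_genPrimes h𝔪 J').mul hI
  rw [show (Nat.card (RayClassGroup 𝔪) : ℝ)⁻¹ * ((θ₂ - θ₁) / L) =
    (θ₂ - θ₁) / (L * Nat.card (RayClassGroup 𝔪)) by field_simp] at h'
  refine h'.congr' ?_
  filter_upwards [(tendsto_card_atTop h𝔪 J').eventually (eventually_gt_atTop 0)] with n hn
  rw [mul_assoc, Finset.card_map, mul_div_cancel₀ _ (Nat.cast_ne_zero.mpr hn.ne'),
    Finset.filter_map, Finset.card_map, hJ']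
  refine congrArg (fun m : ℕ => Real.log n / n * (m : ℝ)) (congrArg Finset.card ?_)
  rw [genPrimes, Finset.filter_filter]
  refine Finset.filter_congr fun v _ => ?_
  simp only [Function.comp_apply, primeOf_code, Int.cast_one, one_mul, ← sub_eq_add_neg]
  rw [← hba, ← FA.ImagQuad.exists_add_int_mem_iff]
  constructor
  · rintro ⟨hv, h'⟩
    rw [inSlot_iff hL hu hu' hv, ← ha, ← hb]
    exact h'
  · intro h'
    have hv : HasGen 𝔪 J v := by
      obtain ⟨x, hx1, hx, -⟩ := h'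
      exact ⟨x, hx1, hx⟩
    exact ⟨hv, by rwa [inSlot_iff hL hu hu' hv, ← ha, ← hb] at h'⟩

end FA.HeckeTorus

end
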