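import Fermat.Agent.HeckeTorus.Weyl
import Mathlib.MeasureTheory.Integral.IntervalIntegral.Periodic

/-!
# The measure of Hecke's theorem

A function of the totally positive points that is homogeneous of degree `0` and invariant under
the units congruent to `1` is a function on the torus; the image of the Haar measure under a
measurable section is the measure for which the generators are equidistributed.
-/

set_option autoImplicit false
set_option linter.unusedSectionVars false

noncomputable section

open NumberField NumberField.mixedEmbedding IsDedekindDomain Module Filter Topology MeasureTheory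
open FA.Ext (intEmb)
open FA.Hecke (coprimeIdeals IsRayElt RayClassGroup primesLE mem_primesLE)
open scoped nonZeroDivisors Classical

namespace FA.HeckeTorus

variable {K : Type*} [Field K] [NumberField K] {𝔪 : Ideal (𝓞 K)} {d : ℕ}
  {b : Basis (Fin d) ℝ (CoordSpace K)}

/-- A continuous function of the totally positive points, homogeneous and invariant under the
units. -/
structure IsInvariant (𝔪 : Ideal (𝓞 K)) (F : mixedSpace K → ℂ) : Prop where
  cont : ContinuousOn F (posSet K)
  homog : ∀ x ∈ posSet K, ∀ r : ℝ, 0 < r → F (r • x) = F x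
  unit : ∀ x ∈ posSet K, ∀ u : (𝓞 K)ˣ, IsRayElt 𝔪 (u : 𝓞 K) →
    F (x * intEmb K (u : 𝓞 K)) = F x

theorem IsInvariant.apply_coords {F : mixedSpace K → ℂ} (hF : IsInvariant 𝔪 F) {x : mixedSpace K}
    (hx : x ∈ posSet K) : F (fromCoords (coords x)) = F x := by
  obtain ⟨r, hr, e⟩ := exists_smul_fromCoords hx
  rw [e, hF.homog x hx r hr]

/-- A measurable lift of the torus. -/
def torLift (θ : UnitAddTorus (Fin d)) : Fin d → ℝ :=
  fun i => (AddCircle.equivIoc (1 : ℝ) 0 (θ i) : ℝ)

theorem measurable_torLift : Measurable (torLift (d := d)) :=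
  measurable_pi_iff.mpr fun i => measurable_subtype_coe.comp
    ((AddCircle.measurableEquivIoc (1 : ℝ) 0).measurable.comp (measurable_pi_apply i))

/-- The section. -/
def torSect (b : Basis (Fin d) ℝ (CoordSpace K)) (θ : UnitAddTorus (Fin d)) : mixedSpace K :=
  fromCoords (∑ i, torLift θ i • b i)

theorem torusPt_lift (θ : UnitAddTorus (Fin d)) :
    torusPt b (∑ i, torLift θ i • b i) = θ := funext fun i => by
  rw [torusPt, b.repr_sum_self, torLift]
  exact (AddCircle.equivIoc (1 : ℝ) 0).symm_apply_apply (θ i)

theorem continuous_fromCoords_sum :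
    Continuous fun r : Fin d → ℝ => fromCoords (∑ i, r i • b i) := by
  refine Continuous.comp (g := fromCoords (K := K)) (f := fun r : Fin d → ℝ => ∑ i, r i • b i)
    continuous_fromCoords ?_
  exact continuous_finsetSum _ fun i _ => Continuous.smul
    (continuous_apply (A := fun _ : Fin d => ℝ) i) (continuous_const (y := b i))

theorem measurable_torSect : Measurable (torSect b) :=
  Measurable.comp (g := fun r : Fin d → ℝ => fromCoords (∑ i, r i • b i)) (f := torLift (d := d))
    (Continuous.measurable continuous_fromCoords_sum) measurable_torLift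

/-- **An invariant function is a function on the torus.** -/
theorem IsInvariant.exists_descend {F : mixedSpace K → ℂ} (hF : IsInvariant 𝔪 F)
    (hb : IsTorusBasis 𝔪 b) : ∃ G : C(UnitAddTorus (Fin d), ℂ),
      (∀ θ, G θ = F (torSect b θ)) ∧ ∀ x ∈ posSet K, G (torusPt b (coords x)) = F x := by
  obtain ⟨G, hG⟩ := FA.HeckeTorus.exists_descend hb
    (Φ := fun v => F (fromCoords v)) (hF.cont.comp_continuous continuous_fromCoords
      fromCoords_mem_posSet) fun v l hl => by
    obtain ⟨u, hu, e⟩ := exists_unit_of_mem hl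
    show F (fromCoords (v + l)) = F (fromCoords v)
    rw [fromCoords_add, e, hF.unit _ (fromCoords_mem_posSet v) u hu]
  refine ⟨G, fun θ => ?_, fun x hx => (hG _).trans (hF.apply_coords hx)⟩
  conv_lhs => rw [← torusPt_lift (b := b) θ]
  exact hG _

/-- The measure. -/
def sectMeasure (b : Basis (Fin d) ℝ (CoordSpace K)) : Measure (mixedSpace K) :=
  Measure.map (torSect b) volume

theorem isProbability_sectMeasure : IsProbabilityMeasure (sectMeasure b) :=
  haveI := FA.BiluTorus.isProbability_torus (ι := Fin d)
  Measure.isProbabilityMeasure_map measurable_torSect.aemeasurable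

theorem IsInvariant.integral_eq {F : mixedSpace K → ℂ} (hF : IsInvariant 𝔪 F)
    {G : C(UnitAddTorus (Fin d), ℂ)} (hG : ∀ θ, G θ = F (torSect b θ)) :
    Integrable F (sectMeasure b) ∧ ∫ x, F x ∂sectMeasure b = ∫ θ, G θ := by
  have hres : (sectMeasure b).restrict (posSet K) = sectMeasure b :=
    Measure.restrict_eq_self_of_ae_mem ((ae_map_iff measurable_torSect.aemeasurable
      isOpen_posSet.measurableSet).mpr (Eventually.of_forall fun θ => fromCoords_mem_posSet _))
  have hm : AEStronglyMeasurable F (sectMeasure b) :=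
    hres ▸ hF.cont.aestronglyMeasurable isOpen_posSet.measurableSet
  refine ⟨(integrable_map_measure hm measurable_torSect.aemeasurable).mpr ?_, ?_⟩
  · rw [show F ∘ torSect b = G from funext fun θ => (hG θ).symm]
    exact G.continuous.integrable_of_hasCompactSupport (HasCompactSupport.of_compactSpace G)
  · exact (integral_map measurable_torSect.aemeasurable hm).trans
      (integral_congr_ae (Eventually.of_forall fun θ => (hG θ).symm))

/-- **Hecke's theorem.** -/
theorem tendsto_sum_invariant (h𝔪 : 𝔪 ≠ ⊥) (hb : IsTorusBasis 𝔪 b) {F : mixedSpace K → ℂ}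
    (hF : IsInvariant 𝔪 F) (J : coprimeIdeals 𝔪) (g : HeightOneSpectrum (𝓞 K) → 𝓞 K)
    (hg : ∀ v, HasGen 𝔪 J.1.1 v →
      IsRayElt 𝔪 (g v) ∧ Ideal.span {g v} = v.asIdeal * J.1.1) :
    Tendsto (fun n : ℕ => ((Real.log n / n : ℝ) : ℂ) *
      ∑ v ∈ genPrimes 𝔪 J.1.1 n, F (intEmb K (g v))) atTop
      (𝓝 ((∫ x, F x ∂sectMeasure b) * (Nat.card (RayClassGroup 𝔪) : ℂ)⁻¹)) := by
  obtain ⟨G, hG, hG'⟩ := hF.exists_descend hb
  rw [(hF.integral_eq hG).2]
  refine (tendsto_genVal h𝔪 hb J G).congr fun n => ?_
  congr 1
  refine Finset.sum_congr rfl fun v hv => ?_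
  obtain ⟨h1, h2⟩ := hg v (Finset.mem_filter.mp hv).2
  rw [genVal, ← torusPt_gen_eq hb h1 h2, hG' _ (intEmb_mem_posSet h1)]

/-- **The measure charges every invariant open set.** -/
theorem integral_pos (hb : IsTorusBasis 𝔪 b) {F : mixedSpace K → ℂ} (hF : IsInvariant 𝔪 F)
    (h0 : ∀ x ∈ posSet K, 0 ≤ (F x).re) {p : mixedSpace K} (hp : p ∈ posSet K)
    (h1 : 0 < (F p).re) : 0 < (∫ x, F x ∂sectMeasure b).re := by
  obtain ⟨G, hG, hG'⟩ := hF.exists_descend hb
  rw [(hF.integral_eq hG).2, ← RCLike.re_eq_complex_re,
    ← integral_re (G.continuous.integrable_of_hasCompactSupport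
      (HasCompactSupport.of_compactSpace G))]
  simp only [RCLike.re_to_complex]
  have hc : Continuous fun θ => (G θ).re := Complex.continuous_re.comp G.continuous
  refine hc.integral_pos_of_hasCompactSupport_nonneg_nonzero
    (HasCompactSupport.of_compactSpace _) (fun θ => ?_) (x := torusPt b (coords p)) ?_
  · show 0 ≤ (G θ).re
    rw [hG]
    exact h0 _ (fromCoords_mem_posSet _)
  · rw [hG' p hp]
    exact h1.ne'

end FA.HeckeTorus

end
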