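import Fermat.Agent.HeckeTorus.Coords
import Fermat.Agent.BiluTorus.Torus

/-!
# Hecke's theorem on prime ideals in every number field

The characters of the torus of a modulus are infinity types allowed for this modulus, so their
means over the generators vanish; the trigonometric polynomials being dense, the generators of the
primes of a ray class are equidistributed in the torus.
-/

set_option autoImplicit false
set_option linter.unusedSectionVars false

noncomputable section

open NumberField NumberField.mixedEmbedding NumberField.InfinitePlace IsDedekindDomain Module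
  Filter Topology MeasureTheory
open NumberField.Units NumberField.Units.dirichletUnitTheorem
open FA.Ext (intEmb)
open FA.Hecke (coprimeIdeals IsRayElt RayClassGroup)
open FA.PrimeIdeal (logN)
open FA.ThreePrimes (eAdd eAdd_add eAdd_intCast)
open scoped nonZeroDivisors Classical

namespace FA.HeckeTorus

variable {K : Type*} [Field K] [NumberField K] {𝔪 : Ideal (𝓞 K)}

/-- A basis whose integral points are the lattice. -/
def IsTorusBasis {d : ℕ} (𝔪 : Ideal (𝓞 K)) (b : Basis (Fin d) ℝ (CoordSpace K)) : Prop :=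
  ∀ v : CoordSpace K, v ∈ torLattice 𝔪 ↔ ∀ i, ∃ m : ℤ, b.repr v i = m

theorem exists_torusBasis (h𝔪 : 𝔪 ≠ ⊥) :
    ∃ (d : ℕ) (b : Basis (Fin d) ℝ (CoordSpace K)), IsTorusBasis 𝔪 b := by
  have hz : IsZLattice ℝ (torLattice 𝔪) := ⟨span_torLattice h𝔪⟩
  have := ZLattice.module_free ℝ (torLattice 𝔪)
  have := ZLattice.module_finite ℝ (torLattice 𝔪)
  let c := (Module.Free.chooseBasis ℤ (torLattice 𝔪)).reindex (Fintype.equivFin _)
  refine ⟨_, c.ofZLatticeBasis ℝ (torLattice 𝔪), fun v => ⟨fun hv i => ⟨c.repr ⟨v, hv⟩ i,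
    Basis.ofZLatticeBasis_repr_apply ℝ (torLattice 𝔪) c ⟨v, hv⟩ i⟩, fun h => ?_⟩⟩
  choose m hm using h
  rw [← (c.ofZLatticeBasis ℝ (torLattice 𝔪)).sum_repr v]
  refine Submodule.sum_mem _ fun i _ => ?_
  rw [hm, Int.cast_smul_eq_zsmul, Basis.ofZLatticeBasis_apply]
  exact Submodule.smul_mem _ _ (c i).2

variable {d : ℕ} {b : Basis (Fin d) ℝ (CoordSpace K)}

/-- The point of the torus. -/
def torusPt (b : Basis (Fin d) ℝ (CoordSpace K)) (v : CoordSpace K) : UnitAddTorus (Fin d) :=
  fun i => ((b.repr v i : ℝ) : AddCircle (1 : ℝ))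

theorem torusPt_eq_of_mem (hb : IsTorusBasis 𝔪 b) {v v' : CoordSpace K}
    (h : v - v' ∈ torLattice 𝔪) : torusPt b v = torusPt b v' := funext fun i => by
  obtain ⟨m, hm⟩ := (hb _).mp h i
  rw [map_sub, Finsupp.sub_apply] at hm
  rw [torusPt, torusPt, ← sub_eq_zero, ← AddCircle.coe_sub, hm]
  exact (AddCircle.coe_eq_zero_iff (1 : ℝ)).mpr ⟨m, by simp⟩

/-- **The characters of the torus are infinity types for the modulus.** -/
theorem exists_type_of_char (hb : IsTorusBasis 𝔪 b) {h : Fin d → ℤ} (hh : h ≠ 0) :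
    ∃ (t : InfinitePlace K → ℝ) (k : {w : InfinitePlace K // IsComplex w} → ℤ),
      Balanced t ∧ (t ≠ 0 ∨ k ≠ 0) ∧ ∀ x : mixedSpace K, mixedEmbedding.norm x ≠ 0 →
        infChar t k x = eAdd (∑ i, (h i : ℝ) * b.repr (coords x) i) := by
  obtain ⟨ℓ, hℓ⟩ : ∃ ℓ : CoordSpace K →ₗ[ℝ] ℝ, ∀ v, ℓ v = ∑ i, (h i : ℝ) * b.repr v i :=
    ⟨∑ i, (h i : ℝ) • b.coord i, fun v => by simp⟩
  obtain ⟨c, hc⟩ : ∃ c : InfinitePlace K → ℝ, c = fun w =>
      if h : w = w₀ then 0 else ℓ (Pi.single ⟨w, h⟩ 1, 0) := ⟨_, rfl⟩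
  have ha : ∀ w, ∃ a : ℤ, ℓ ((0 : logSpace K), Pi.single w (1 : ℝ)) = a := fun w => by
    choose m hm using (hb _).mp (single_mem_torLattice (𝔪 := 𝔪) w)
    exact ⟨∑ i, h i * m i, by rw [hℓ]; push_cast; simp only [hm]⟩
  choose a ha using ha
  have hsplit : ∀ v : CoordSpace K,
      ℓ v = ∑ w : {w : InfinitePlace K // w ≠ w₀}, c w.1 * v.1 w +
        ∑ w, (a w : ℝ) * v.2 w := fun v => by
    conv_lhs => rw [show v = (∑ w, v.1 w • ((Pi.single w (1 : ℝ) : logSpace K),
        (0 : {w : InfinitePlace K // IsComplex w} → ℝ))) +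
      ∑ w, v.2 w • ((0 : logSpace K), Pi.single w (1 : ℝ)) from
        Prod.ext (funext fun w => by simp [Prod.fst_sum, Finset.sum_apply, Pi.single_apply])
          (funext fun w => by simp [Prod.snd_sum, Finset.sum_apply, Pi.single_apply])]
    simp only [map_add, map_sum, map_smul, smul_eq_mul, ha]
    congr 1
    · exact Finset.sum_congr rfl fun w _ => by rw [hc]; simp [w.2, mul_comm]
    · exact Finset.sum_congr rfl fun w _ => mul_comm _ _
  obtain ⟨S, hS⟩ : ∃ S : ℝ, S = (∑ w, (mult w : ℝ) * c w) / finrank ℚ K := ⟨_, rfl⟩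
  obtain ⟨t, ht⟩ : ∃ t : InfinitePlace K → ℝ, t = fun w => 2 * Real.pi * (c w - S) := ⟨_, rfl⟩
  have hn : (finrank ℚ K : ℝ) ≠ 0 := Nat.cast_ne_zero.mpr finrank_pos.ne'
  have esum : (∑ w : InfinitePlace K, (mult w : ℝ)) = (finrank ℚ K : ℝ) := by
    rw [← Nat.cast_sum, sum_mult_eq]
  have hbal : Balanced t := by
    rw [Balanced, Finset.sum_congr rfl fun w _ => show (mult w : ℝ) * t w =
      2 * Real.pi * ((mult w : ℝ) * c w) - 2 * Real.pi * S * mult w by rw [ht]; ring,
      Finset.sum_sub_distrib, ← Finset.mul_sum, ← Finset.mul_sum, esum, hS]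
    field_simp
    ring
  refine ⟨t, a, hbal, ?_, fun x hx => ?_⟩
  · by_contra hcon
    push Not at hcon
    obtain ⟨ht0, ha0⟩ := hcon
    have hcS : ∀ w, c w = S := fun w => by
      have := congrFun ht0 w
      rw [ht] at this
      simpa [Real.pi_ne_zero, sub_eq_zero] using this
    have hc0 : ∀ w, c w = 0 := fun w => by
      rw [hcS w, ← hcS w₀, hc]; simp
    obtain ⟨i, hi⟩ := Function.ne_iff.mp hh
    have h1 : ℓ (b i) = h i := by
      simp [hℓ, Basis.repr_self, Finsupp.single_apply, Finset.sum_ite_eq]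
    rw [hsplit] at h1
    simp [hc0, ha0] at h1
    exact hi (by exact_mod_cast h1.symm)
  · rw [← hℓ, hsplit, eAdd_add]
    have e1 : phase t x = 2 * Real.pi *
        ∑ w : {w : InfinitePlace K // w ≠ w₀}, c w.1 * (coords x).1 w := by
      have hlog : logN x = ∑ w, (mult w : ℝ) * Real.log (normAtPlace w x) := by
        rw [logN, mixedEmbedding.norm_apply,
          Real.log_prod fun w _ => pow_ne_zero _ (place_ne_zero hx w)]
        simp [Real.log_pow]
      have h3 : ∑ w : {w : InfinitePlace K // w ≠ w₀}, c w.1 * (coords x).1 w =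
          ∑ w, c w * ((mult w : ℝ) * (Real.log (normAtPlace w x) - logN x / finrank ℚ K)) := by
        rw [Fintype.sum_eq_add_sum_subtype_ne _ w₀, show c w₀ = 0 by rw [hc]; simp, zero_mul,
          zero_add]
        rfl
      rw [h3, phase, ht, Finset.mul_sum]
      rw [← sub_eq_zero, ← Finset.sum_sub_distrib, Finset.sum_congr rfl fun w _ =>
        show (mult w : ℝ) * (2 * Real.pi * (c w - S)) * Real.log (normAtPlace w x) -
          2 * Real.pi * (c w * ((mult w : ℝ) *
            (Real.log (normAtPlace w x) - logN x / finrank ℚ K))) =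
          2 * Real.pi * (logN x / finrank ℚ K) * ((mult w : ℝ) * c w) -
            2 * Real.pi * S * ((mult w : ℝ) * Real.log (normAtPlace w x)) by ring,
        Finset.sum_sub_distrib, ← Finset.mul_sum, ← Finset.mul_sum, ← hlog, hS]
      field_simp
      ring
    have e2 : ∀ s : Finset {w : InfinitePlace K // IsComplex w},
        eAdd (∑ w ∈ s, (a w : ℝ) * (coords x).2 w) =
          ∏ w ∈ s, (x.2 w / (‖x.2 w‖ : ℂ)) ^ a w := fun s => by
      induction s using Finset.induction_on with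
      | empty => simp [FA.ThreePrimes.eAdd_zero]
      | insert w s hw ih =>
        rw [Finset.sum_insert hw, Finset.prod_insert hw, eAdd_add, ih]
        congr 1
        rw [← eAdd_arg_div (snd_ne_zero hx w), eAdd, eAdd, ← Complex.exp_int_mul]
        congr 1
        simp only [coords]
        push_cast
        ring
    rw [e2, infChar, e1, eAdd]

/-- `G` at the torus point of the generator. -/
def genVal (b : Basis (Fin d) ℝ (CoordSpace K)) (𝔪 J : Ideal (𝓞 K))
    (G : UnitAddTorus (Fin d) → ℂ) (v : HeightOneSpectrum (𝓞 K)) : ℂ :=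
  G (torusPt b (coords (intEmb K (genElt 𝔪 J v))))

theorem torusPt_gen_eq (hb : IsTorusBasis 𝔪 b) {J : Ideal (𝓞 K)} {v : HeightOneSpectrum (𝓞 K)}
    {x : 𝓞 K} (hx : IsRayElt 𝔪 x) (hxv : Ideal.span {x} = v.asIdeal * J) :
    torusPt b (coords (intEmb K x)) = torusPt b (coords (intEmb K (genElt 𝔪 J v))) := by
  obtain ⟨h1, h2⟩ := genElt_spec (show HasGen 𝔪 J v from ⟨x, hx, hxv⟩)
  obtain ⟨y, hy⟩ : ∃ y, y = genElt 𝔪 J v := ⟨_, rfl⟩
  rw [← hy] at h1 h2 ⊢
  obtain ⟨u, rfl⟩ := (Ideal.span_singleton_eq_span_singleton.mp (hxv.trans h2.symm)).symm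
  have hur : IsRayElt 𝔪 (u : 𝓞 K) := by
    refine ⟨u.ne_zero, ?_, fun χ => ?_⟩
    · rw [show (u : 𝓞 K) - 1 = (y * u - 1) - (y - 1) * u by ring]
      exact 𝔪.sub_mem hx.2.1 (𝔪.mul_mem_right _ h1.2.1)
    · refine (mul_pos_iff_of_pos_left (h1.2.2 χ)).mp ?_
      rw [← map_mul, ← _root_.map_mul]
      exact hx.2.2 χ
  refine torusPt_eq_of_mem hb ?_
  have h3 := coords_mul_sub (𝔪 := 𝔪) (norm_intEmb_ne_zero h1.1) (norm_intEmb_ne_zero hur.1)
  have h4 := (torLattice 𝔪).add_mem h3 (coords_unit_mem hur)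
  rw [sub_add_cancel] at h4
  rwa [show intEmb K (y * u) = intEmb K y * intEmb K (u : 𝓞 K) by simp [intEmb]]

/-- **Equidistribution in the torus.** -/
theorem tendsto_genVal (h𝔪 : 𝔪 ≠ ⊥) (hb : IsTorusBasis 𝔪 b) (J : coprimeIdeals 𝔪)
    (G : C(UnitAddTorus (Fin d), ℂ)) :
    Tendsto (fun n : ℕ => ((Real.log n / n : ℝ) : ℂ) *
      ∑ v ∈ genPrimes 𝔪 J.1.1 n, genVal b 𝔪 J.1.1 G v) atTop
      (𝓝 ((∫ θ, G θ) * (Nat.card (RayClassGroup 𝔪) : ℂ)⁻¹)) := by
  have hint : ∀ φ : C(UnitAddTorus (Fin d), ℂ),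
      Integrable φ (volume : Measure (UnitAddTorus (Fin d))) :=
    fun φ => φ.continuous.integrable_of_hasCompactSupport (HasCompactSupport.of_compactSpace φ)
  have := FA.BiluTorus.isProbability_torus (ι := Fin d)
  obtain ⟨A, hA⟩ : ∃ A : C(UnitAddTorus (Fin d), ℂ) → ℕ → ℂ,
      A = fun (φ : C(UnitAddTorus (Fin d), ℂ)) n =>
      (∑ v ∈ genPrimes 𝔪 J.1.1 n, genVal b 𝔪 J.1.1 (⇑φ) v) /
        ((genPrimes 𝔪 J.1.1 n).card : ℂ) := ⟨_, rfl⟩
  have hspan : ∀ φ ∈ Submodule.span ℂ (Set.range <| UnitAddTorus.mFourier (d := Fin d)),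
      Tendsto (A φ) atTop (𝓝 (∫ θ, φ θ)) := by
    intro φ hφ
    induction hφ using Submodule.span_induction with
    | mem φ hφ =>
      obtain ⟨a, rfl⟩ := hφ
      rw [FA.BiluTorus.integral_mFourier]
      split_ifs with ha
      · subst ha
        refine tendsto_const_nhds.congr' ?_
        filter_upwards [(tendsto_card_atTop h𝔪 J).eventually (eventually_gt_atTop 0)] with n hn
        simp [hA, genVal, UnitAddTorus.mFourier_zero]
        exact (div_self (show ((genPrimes 𝔪 J.1.1 n).card : ℂ) ≠ 0 from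
          Nat.cast_ne_zero.mpr hn.ne')).symm
      · have hm := expMeanZero_of_chars h𝔪 J
          (fun x => ∑ i, (a i : ℝ) * b.repr (coords (intEmb K x)) i) fun q hq => by
            obtain ⟨t, k, ht, hne, htk⟩ := exists_type_of_char hb (h := q • a)
              (smul_ne_zero hq ha)
            have e : ∀ v : CoordSpace K, ∑ i, ((q • a) i : ℝ) * b.repr v i =
                (q : ℝ) * ∑ i, (a i : ℝ) * b.repr v i := fun v => by
              simp [Finset.mul_sum, mul_assoc]
            obtain ⟨f, hf⟩ := exists_isTorusChar (k := k) h𝔪 ht fun u hu => by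
              rw [htk _ (norm_intEmb_ne_zero hu.1)]
              choose m hm using (hb _).mp (coords_unit_mem hu)
              exact eAdd_eq_one_iff.mpr ⟨∑ i, (q • a) i * m i, by push_cast; simp only [hm]⟩
            exact ⟨t, k, f, hne, hf, fun x hx => by rw [htk _ (norm_intEmb_ne_zero hx.1), e]⟩
        refine (hm 1 one_ne_zero).congr fun n => ?_
        simp only [hA, FA.Equidist.avg, Finset.sum_map, Finset.card_map, primeOf_code]
        congr 1
        refine Finset.sum_congr rfl fun v _ => ?_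
        show eAdd _ = ∏ i, fourier (a i) _
        simp only [torusPt, FA.Equidist.fourier_coe_eq_eAdd, Int.cast_one, one_mul]
        induction (Finset.univ : Finset (Fin d)) using Finset.induction_on with
        | empty => simp [FA.ThreePrimes.eAdd_zero]
        | insert i s hi ih => rw [Finset.sum_insert hi, Finset.prod_insert hi, eAdd_add, ih]
    | zero => simp [hA, genVal]
    | add φ φ' _ _ hφ hφ' =>
      simp only [ContinuousMap.add_apply]
      rw [integral_add (hint φ) (hint φ')]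
      refine (hφ.add hφ').congr fun n => ?_
      simp only [hA, genVal, ContinuousMap.add_apply, Finset.sum_add_distrib, add_div]
    | smul c φ _ hφ =>
      simp only [ContinuousMap.smul_apply, smul_eq_mul]
      rw [integral_const_mul]
      refine (hφ.const_mul c).congr fun n => ?_
      simp only [hA, genVal, ContinuousMap.smul_apply, smul_eq_mul, ← Finset.mul_sum,
        mul_div_assoc]
  have hmain : Tendsto (A G) atTop (𝓝 (∫ θ, G θ)) := by
    rw [Metric.tendsto_atTop]
    intro ε hε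
    have hmem : G ∈ (Submodule.span ℂ
        (Set.range <| UnitAddTorus.mFourier (d := Fin d))).topologicalClosure := by
      rw [UnitAddTorus.span_mFourier_closure_eq_top]; exact Submodule.mem_top
    rw [← SetLike.mem_coe, Submodule.topologicalClosure_coe, Metric.mem_closure_iff] at hmem
    obtain ⟨φ, hφ, hd⟩ := hmem (ε / 3) (by linarith)
    rw [dist_eq_norm] at hd
    obtain ⟨N, hN⟩ := Metric.tendsto_atTop.1 (hspan φ hφ) (ε / 3) (by linarith)
    refine ⟨N, fun k hk => ?_⟩
    have h1 : ‖A G k - A φ k‖ ≤ ε / 3 := by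
      simp only [hA, ← sub_div, ← Finset.sum_sub_distrib, norm_div, Complex.norm_natCast]
      refine div_le_of_le_mul₀ (Nat.cast_nonneg _) (by linarith) ?_
      refine (norm_sum_le_of_le _ (n := fun _ => ε / 3) fun v _ =>
        ((G - φ).norm_coe_le_norm _).trans hd.le).trans (le_of_eq ?_)
      rw [Finset.sum_const, nsmul_eq_mul, mul_comm]
    have h2 : ‖(∫ θ, φ θ) - ∫ θ, G θ‖ ≤ ε / 3 := by
      rw [← integral_sub (hint φ) (hint G)]
      refine (norm_integral_le_of_norm_le_const (C := ε / 3)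
        (Eventually.of_forall fun θ => ?_)).trans (le_of_eq (by rw [probReal_univ, mul_one]))
      rw [norm_sub_rev]
      exact ((G - φ).norm_coe_le_norm θ).trans hd.le
    have h3 := hN k hk
    rw [dist_eq_norm] at h3 ⊢
    have h4 := norm_sub_le_norm_sub_add_norm_sub (A G k) (A φ k) (∫ θ, G θ)
    have h5 := norm_sub_le_norm_sub_add_norm_sub (A φ k) (∫ θ, φ θ) (∫ θ, G θ)
    linarith
  have hc := (Complex.continuous_ofReal.tendsto _).comp (tendsto_card_genPrimes h𝔪 J)
  have h' := hmain.mul hc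
  rw [Complex.ofReal_inv, Complex.ofReal_natCast] at h'
  refine h'.congr' ?_
  filter_upwards [(tendsto_card_atTop h𝔪 J).eventually (eventually_gt_atTop 0)] with n hn
  simp only [Function.comp_apply, hA, Complex.ofReal_mul, Complex.ofReal_natCast]
  rw [div_mul_eq_mul_div, mul_comm, mul_assoc,
    mul_div_assoc, mul_comm ((genPrimes 𝔪 J.1.1 n).card : ℂ),
    mul_div_cancel_right₀ _ (Nat.cast_ne_zero.mpr hn.ne')]

theorem continuous_torusPt : Continuous (torusPt b) :=
  continuous_pi fun i => (AddCircle.continuous_mk' (1 : ℝ)).comp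
    ((b.coord i).continuous_of_finiteDimensional)

/-- **Periodic functions descend to the torus.** -/
theorem exists_descend (hb : IsTorusBasis 𝔪 b) {Φ : CoordSpace K → ℂ} (hΦ : Continuous Φ)
    (hper : ∀ v, ∀ l ∈ torLattice 𝔪, Φ (v + l) = Φ v) :
    ∃ G : C(UnitAddTorus (Fin d), ℂ), ∀ v, G (torusPt b v) = Φ v := by
  have hq : IsOpenQuotientMap fun (r : Fin d → ℝ) i => ((r i : ℝ) : AddCircle (1 : ℝ)) :=
    IsOpenQuotientMap.piMap fun _ => QuotientAddGroup.isOpenQuotientMap_mk
  obtain ⟨Ψ, hΨ⟩ : ∃ Ψ : C(Fin d → ℝ, ℂ), ∀ r, Ψ r = Φ (∑ i, r i • b i) :=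
    ⟨⟨fun r => Φ (∑ i, r i • b i), hΦ.comp (continuous_finsetSum _ fun i _ =>
      (continuous_apply i).smul continuous_const)⟩, fun _ => rfl⟩
  have hfac : Function.FactorsThrough Ψ fun (r : Fin d → ℝ) i =>
      ((r i : ℝ) : AddCircle (1 : ℝ)) := fun r r' h => by
    have hl : ∑ i, r i • b i - ∑ i, r' i • b i ∈ torLattice 𝔪 := (hb _).mpr fun i => by
      obtain ⟨m, hm⟩ := AddSubgroup.mem_zmultiples_iff.mp
        (QuotientAddGroup.eq.mp (congrFun h i).symm)
      exact ⟨m, by rw [map_sub, Finsupp.sub_apply, b.repr_sum_self, b.repr_sum_self];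
                   simp at hm; linarith⟩
    rw [hΨ, hΨ, ← hper (∑ i, r' i • b i) _ hl, add_sub_cancel]
  obtain ⟨π, hπ⟩ : ∃ π : C(Fin d → ℝ, UnitAddTorus (Fin d)),
      π = ⟨_, hq.continuous⟩ := ⟨_, rfl⟩
  have hq' : Topology.IsQuotientMap π := hπ ▸ hq.isQuotientMap
  have hfac' : Function.FactorsThrough Ψ π := hπ ▸ hfac
  refine ⟨hq'.lift Ψ hfac', fun v => ?_⟩
  have h := DFunLike.congr_fun (hq'.lift_comp Ψ hfac') fun i => b.repr v i
  rw [ContinuousMap.comp_apply, hΨ, b.sum_repr] at h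
  subst hπ
  exact h

end FA.HeckeTorus

end
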